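import Fermat.Agent.ResidualThree.Spherical.Basic

/-!
# Invariance of the measure `dz dy / y³`

It gives the invariant measure behind kernels and periods.
-/

noncomputable section

open Matrix MeasureTheory EuclideanGeometry
open scoped ComplexConjugate ComplexOrder ENNReal

namespace Fermat.Agent.ResidualThree

namespace H3

/-- The density of the invariant measure. -/
def volDensity (q : ℂ × ℝ) : ℝ≥0∞ := ENNReal.ofReal (q.2 ^ 3)⁻¹

instance instIsAddHaarVolume : (volume : Measure (ℂ × ℝ)).IsAddHaarMeasure := by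
  rw [Measure.volume_eq_prod]; infer_instance

theorem measurable_volDensity : Measurable volDensity := by
  unfold volDensity; fun_prop

theorem map_toPair_vol :
    vol.map toPair = ((volume : Measure (ℂ × ℝ)).restrict upperSet).withDensity volDensity := by
  have h : ((volume : Measure ℂ).prod ((volume : Measure ℝ).restrict (Set.Ioi (0 : ℝ)))) =
      (volume : Measure (ℂ × ℝ)).restrict upperSet := by
    rw [Measure.volume_eq_prod, upperSet, ← Measure.prod_restrict, Measure.restrict_univ]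
  rw [vol]
  change (Measure.comap toPair _).map toPair = _
  rw [measurableEmbedding_toPair.map_comap, range_toPair, restrict_withDensity
    measurableSet_upperSet, h, Measure.restrict_restrict measurableSet_upperSet, Set.inter_self]
  rfl

theorem lintegral_vol (ψ : ℂ × ℝ → ℝ≥0∞) :
    ∫⁻ p, ψ (toPair p) ∂vol = ∫⁻ q in upperSet, volDensity q * ψ q := by
  rw [← measurableEmbedding_toPair.lintegral_map, map_toPair_vol,
    lintegral_withDensity_eq_lintegral_mul_non_measurable _ measurable_volDensity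
      (Filter.Eventually.of_forall fun q => ENNReal.ofReal_lt_top)]
  rfl

/-- A bijection preserves the measure if in coordinates it maps a conull part `s` of the upper half
space onto itself with Jacobian balancing the density `y⁻³`. -/
theorem measurePreserving_of_jacobian (f : H3 ≃ H3) (hf : Measurable f)
    (φ : ℂ × ℝ → ℂ × ℝ) (hφ : ∀ p, φ (toPair p) = toPair (f p))
    (D : ℂ × ℝ → (ℂ × ℝ →L[ℝ] ℂ × ℝ)) {s : Set (ℂ × ℝ)} (hs : MeasurableSet s)
    (hsub : s ⊆ upperSet) (hnull : volume (upperSet \ s) = 0)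
    (hD : ∀ q ∈ s, HasFDerivWithinAt φ (D q) s q) (himg : φ '' s = s)
    (hdet : ∀ q ∈ s, |(D q).det| * ((φ q).2 ^ 3)⁻¹ = (q.2 ^ 3)⁻¹) :
    MeasurePreserving f vol vol := by
  have hinj : Set.InjOn φ s := by
    intro a ha b hb hab
    obtain ⟨p, rfl⟩ := range_toPair ▸ hsub ha
    obtain ⟨q, rfl⟩ := range_toPair ▸ hsub hb
    rw [hφ, hφ] at hab
    rw [f.injective (toPair_injective hab)]
  have hae : s =ᵐ[volume] upperSet :=
    ae_eq_set.mpr ⟨by rw [Set.sdiff_eq_empty.mpr hsub, measure_empty], hnull⟩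
  refine ⟨hf, Measure.ext fun t ht => ?_⟩
  rw [Measure.map_apply hf ht]
  obtain ⟨t', ht', rfl⟩ := ht
  change vol (f ⁻¹' (toPair ⁻¹' t')) = vol (toPair ⁻¹' t')
  have e1 : ∀ (u : Set (ℂ × ℝ)), MeasurableSet u → vol (toPair ⁻¹' u) =
      ∫⁻ q in s, volDensity q * u.indicator 1 q := by
    intro u hu
    rw [← lintegral_indicator_one (measurableEmbedding_toPair.measurable hu),
      setLIntegral_congr hae, ← lintegral_vol]
    rfl
  have e2 : vol (f ⁻¹' (toPair ⁻¹' t')) =
      ∫⁻ q in s, volDensity q * t'.indicator 1 (φ q) := by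
    rw [← lintegral_indicator_one (hf (measurableEmbedding_toPair.measurable ht')),
      setLIntegral_congr hae, ← lintegral_vol]
    refine lintegral_congr fun p => ?_
    rw [hφ]
    rfl
  rw [e2, e1 t' ht']
  conv_rhs => rw [← himg]
  rw [lintegral_image_eq_lintegral_abs_det_fderiv_mul volume hs hD hinj]
  refine setLIntegral_congr_fun hs fun q hq => ?_
  simp only [volDensity]
  rw [← mul_assoc, ← ENNReal.ofReal_mul (abs_nonneg _), hdet q hq]

/-! ### Affine maps -/

/-- The linear part of an upper triangular map. -/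
def affLin (α : ℂ) (r : ℝ) : ℂ × ℝ →L[ℝ] ℂ × ℝ :=
  (ContinuousLinearMap.mul ℝ ℂ α).prodMap (ContinuousLinearMap.mul ℝ ℝ r)

theorem det_affLin (α : ℂ) (r : ℝ) : (affLin α r).det = Complex.normSq α * r := by
  have h : (affLin α r : ℂ × ℝ →ₗ[ℝ] ℂ × ℝ) =
      (LinearMap.mulLeft ℝ α).prodMap (LinearMap.mulLeft ℝ r) := rfl
  rw [ContinuousLinearMap.det, h, LinearMap.det_prodMap, LinearMap.det_mulLeft,
    ← Algebra.norm_complex_apply, Algebra.norm_apply]
  rfl

/-- Triangular matrices preserve the measure. -/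
theorem smul_measurePreserving_of_upper {g : GL (Fin 2) ℂ}
    (h : (g : Matrix (Fin 2) (Fin 2) ℂ) 1 0 = 0) :
    MeasurePreserving (fun p : H3 => g • p) vol vol := by
  set G : Matrix (Fin 2) (Fin 2) ℂ := (g : Matrix (Fin 2) (Fin 2) ℂ) with hG
  set α := G 0 0 / G 1 1
  set β := G 0 1 / G 1 1
  set r := ‖G 0 0‖ / ‖G 1 1‖
  have hdet : G.det ≠ 0 := ((Matrix.isUnit_iff_isUnit_det G).mp g.isUnit).ne_zero
  rw [Matrix.det_fin_two, h, mul_zero, sub_zero, mul_ne_zero_iff] at hdet
  have hr : 0 < r := div_pos (norm_pos_iff.mpr hdet.1) (norm_pos_iff.mpr hdet.2)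
  have hα : α ≠ 0 := div_ne_zero hdet.1 hdet.2
  refine measurePreserving_of_jacobian (MulAction.toPerm g) (continuous_smul_gl g).measurable
    (fun q => affLin α r q + (β, 0)) ?_ (fun _ => affLin α r) measurableSet_upperSet le_rfl
    (by simp) (fun q _ => ((affLin α r).hasFDerivAt.add_const _).hasFDerivWithinAt) ?_ ?_
  · intro p
    simp only [MulAction.toPerm_apply, toPair, smul_z_of_upper h, smul_y_of_upper h]
    refine Prod.ext ?_ ?_
    · change α * p.z + β = _
      simp only [α, β, ← hG]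
      ring
    · change r * p.y + 0 = _
      simp only [r, ← hG, add_zero]
  · ext q
    simp only [Set.mem_image, mem_upperSet]
    constructor
    · rintro ⟨q, hq, rfl⟩
      change 0 < r * q.2 + 0
      positivity
    · intro hq
      refine ⟨((q.1 - β) / α, q.2 / r), div_pos hq hr, Prod.ext ?_ ?_⟩
      · change α * ((q.1 - β) / α) + β = q.1
        field_simp
        ring
      · change r * (q.2 / r) + 0 = q.2
        field_simp
        ring
  · intro q hq
    have := mem_upperSet.mp hq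
    change |(affLin α r).det| * ((r * q.2 + 0) ^ 3)⁻¹ = _
    have hn : Complex.normSq α = r ^ 2 := by
      rw [Complex.normSq_eq_norm_sq, norm_div]
    rw [det_affLin, hn, abs_of_pos (by positivity), add_zero]
    field_simp

/-! ### The inversion -/

/-- The Weyl element. -/
def weyl : GL (Fin 2) ℂ :=
  Matrix.GeneralLinearGroup.mkOfDetNeZero !![0, 1; -1, 0] (by simp)

theorem weyl_smul_z (p : H3) :
    (weyl • p).z = -conj p.z / ((Complex.normSq p.z + p.y ^ 2 : ℝ) : ℂ) := by
  rw [smul_z]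
  simp [weyl, denom, Matrix.GeneralLinearGroup.mkOfDetNeZero]

theorem weyl_smul_y (p : H3) : (weyl • p).y = p.y / (Complex.normSq p.z + p.y ^ 2) := by
  rw [smul_y]
  simp [weyl, denom, Matrix.GeneralLinearGroup.mkOfDetNeZero]

/-- The euclidean model of `ℂ × ℝ`. -/
abbrev Euc3 : Type := WithLp 2 (ℂ × ℝ)

/-- Reflection `z ↦ -z̄`. -/
def flipRe : ℂ × ℝ →L[ℝ] ℂ × ℝ :=
  (-(Complex.conjCLE : ℂ →L[ℝ] ℂ)).prodMap (ContinuousLinearMap.id ℝ ℝ)

theorem abs_det_flipRe : |flipRe.det| = 1 := by
  have hsq : flipRe * flipRe = 1 := by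
    refine ContinuousLinearMap.ext fun q => Prod.ext ?_ rfl
    simp [flipRe]
  have h2 : flipRe.det * flipRe.det = 1 := by
    have := congrArg ContinuousLinearMap.det hsq
    simpa [ContinuousLinearMap.det] using this
  rcases mul_self_eq_one_iff.mp h2 with h | h <;> simp [h]

/-- The inversion preserves the measure. -/
theorem smul_measurePreserving_weyl : MeasurePreserving (fun p : H3 => weyl • p) vol vol := by
  set L : Euc3 ≃L[ℝ] ℂ × ℝ := WithLp.prodContinuousLinearEquiv 2 ℝ ℂ ℝ
  set φ : ℂ × ℝ → ℂ × ℝ := fun q => flipRe (L (inversion (0 : Euc3) 1 (L.symm q)))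
  have hnorm : ∀ q : ℂ × ℝ, dist (L.symm q) 0 ^ 2 = Complex.normSq q.1 + q.2 ^ 2 := by
    intro q
    rw [dist_zero_right, WithLp.prod_norm_sq_eq_of_L2, Complex.normSq_eq_norm_sq]
    congr 1
    exact sq_abs q.2
  have hval : ∀ q : ℂ × ℝ, φ q = (-conj q.1 / ((Complex.normSq q.1 + q.2 ^ 2 : ℝ) : ℂ),
      q.2 / (Complex.normSq q.1 + q.2 ^ 2)) := by
    intro q
    simp only [φ, inversion, vsub_eq_sub, sub_zero, vadd_eq_add, add_zero, one_div, inv_pow,
      hnorm, map_smul, ContinuousLinearEquiv.apply_symm_apply]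
    refine Prod.ext ?_ ?_
    · simp [flipRe, div_eq_inv_mul]
    · simp [flipRe, div_eq_inv_mul]
  have hfr : Module.finrank ℝ Euc3 = 3 := by
    rw [L.toLinearEquiv.finrank_eq, Module.finrank_prod, Complex.finrank_real_complex,
      Module.finrank_self]
  let D : ℂ × ℝ → (ℂ × ℝ →L[ℝ] ℂ × ℝ) := fun q => flipRe.comp ((L : Euc3 →L[ℝ] ℂ × ℝ).comp
    (((1 / dist (L.symm q) 0) ^ 2 • ((ℝ ∙ (L.symm q - 0))ᗮ.reflection : Euc3 →L[ℝ] Euc3)).comp
      (L.symm : ℂ × ℝ →L[ℝ] Euc3)))
  refine measurePreserving_of_jacobian (MulAction.toPerm weyl)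
    (continuous_smul_gl weyl).measurable φ ?_ D measurableSet_upperSet le_rfl (by simp) ?_ ?_ ?_
  · intro p
    rw [hval]
    simp only [MulAction.toPerm_apply, toPair, weyl_smul_z, weyl_smul_y]
  · intro q hq
    have hne : L.symm q ≠ 0 := by
      intro h
      have : q = 0 := by simpa using congrArg L h
      simp [this, mem_upperSet] at hq
    exact (flipRe.hasFDerivAt.comp q (L.hasFDerivAt.comp q
      ((hasFDerivAt_inversion hne).comp q L.symm.hasFDerivAt))).hasFDerivWithinAt
  · ext q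
    constructor
    · rintro ⟨q, hq, rfl⟩
      obtain ⟨p, rfl⟩ := range_toPair ▸ hq
      rw [hval, mem_upperSet]
      have := p.y_pos
      have := Complex.normSq_nonneg p.z
      simp only [toPair]
      exact div_pos p.y_pos (by positivity)
    · intro hq
      obtain ⟨p, rfl⟩ := range_toPair ▸ hq
      refine ⟨toPair (weyl⁻¹ • p), mem_upperSet.mpr (weyl⁻¹ • p).y_pos, ?_⟩
      conv_rhs => rw [← smul_inv_smul weyl p]
      rw [hval]
      simp only [toPair, weyl_smul_z, weyl_smul_y]
  · intro q hq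
    have hq2 := mem_upperSet.mp hq
    have hN : 0 < Complex.normSq q.1 + q.2 ^ 2 := by
      have := Complex.normSq_nonneg q.1
      positivity
    have hd : |(D q).det| = (Complex.normSq q.1 + q.2 ^ 2)⁻¹ ^ 3 := by
      simp only [D]
      set c := (1 / dist (L.symm q) 0) ^ 2 with hc
      set R : Euc3 →L[ℝ] Euc3 := ((ℝ ∙ (L.symm q - 0))ᗮ.reflection : Euc3 →L[ℝ] Euc3)
      have e : (flipRe.comp ((L : Euc3 →L[ℝ] ℂ × ℝ).comp ((c • R).comp
          (L.symm : ℂ × ℝ →L[ℝ] Euc3)))).det = flipRe.det * (c ^ 3 * R.det) := by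
        change LinearMap.det ((flipRe : ℂ × ℝ →ₗ[ℝ] ℂ × ℝ) ∘ₗ ((L.toLinearEquiv : Euc3 →ₗ[ℝ] ℂ × ℝ)
          ∘ₗ (c • (R : Euc3 →ₗ[ℝ] Euc3)) ∘ₗ (L.toLinearEquiv.symm : ℂ × ℝ →ₗ[ℝ] Euc3))) = _
        rw [LinearMap.det_comp, LinearMap.det_conj _ L.toLinearEquiv, LinearMap.det_smul, hfr]
      have hR : |R.det| = 1 := by
        simp only [R, ContinuousLinearMap.det]
        erw [Submodule.det_reflection]
        rw [abs_pow, abs_neg, abs_one, one_pow]
      rw [e, abs_mul, abs_mul, abs_det_flipRe, hR, one_mul, mul_one, abs_pow, hc, one_div,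
        inv_pow, hnorm, abs_of_pos (inv_pos.mpr hN)]
    rw [hd, hval]
    field_simp

/-- The measure is invariant under `GL₂(ℂ)`. -/
theorem measurePreserving_smul (g : GL (Fin 2) ℂ) :
    MeasurePreserving (fun p : H3 => g • p) vol vol := by
  set G : Matrix (Fin 2) (Fin 2) ℂ := (g : Matrix (Fin 2) (Fin 2) ℂ) with hG
  by_cases h : G 1 0 = 0
  · exact smul_measurePreserving_of_upper h
  let u : GL (Fin 2) ℂ :=
    Matrix.GeneralLinearGroup.mkOfDetNeZero !![1, G 0 0 / G 1 0; 0, 1] (by simp)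
  let v : GL (Fin 2) ℂ := weyl⁻¹ * u⁻¹ * g
  have hv : (v : Matrix (Fin 2) (Fin 2) ℂ) 1 0 = 0 := by
    simp only [v, u, weyl, Matrix.coe_units_inv, Units.val_mul,
      Matrix.GeneralLinearGroup.mkOfDetNeZero]
    simp [Matrix.inv_def, Matrix.det_fin_two, Matrix.adjugate_fin_two, Matrix.mul_apply,
      Fin.sum_univ_two, ← hG]
    field_simp
    ring
  have e : g = u * (weyl * v) := by simp only [v]; group
  have hu : (u : Matrix (Fin 2) (Fin 2) ℂ) 1 0 = 0 := by
    simp [u, Matrix.GeneralLinearGroup.mkOfDetNeZero]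
  have := (smul_measurePreserving_of_upper hu).comp
    (smul_measurePreserving_weyl.comp (smul_measurePreserving_of_upper hv))
  convert this using 1
  ext1 p
  simp only [Function.comp_apply, ← mul_smul, ← e]

instance : MeasurableConstSMul (GL (Fin 2) ℂ) H3 :=
  ⟨fun g => (continuous_smul_gl g).measurable⟩

instance : SMulInvariantMeasure (GL (Fin 2) ℂ) H3 vol :=
  ⟨fun g _ hs => (measurePreserving_smul g).measure_preimage hs.nullMeasurableSet⟩

/-- Invariance of the integral. -/
theorem integral_smul_gl {E : Type*} [NormedAddCommGroup E] [NormedSpace ℝ E] (g : GL (Fin 2) ℂ)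
    (F : H3 → E) : ∫ p, F (g • p) ∂vol = ∫ p, F p ∂vol :=
  (measurePreserving_smul g).integral_comp (measurableEmbedding_const_smul g) F

end H3

end Fermat.Agent.ResidualThree

end
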