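import Fermat.Agent.ResidualThree.Spherical.Vol

/-!
# Logarithmic coordinates, balls and standard translations

In these coordinates radial integrals become horospherical transforms.
-/

noncomputable section

open Matrix MeasureTheory Real
open scoped ComplexConjugate ENNReal

namespace Fermat.Agent.ResidualThree

namespace H3

/-- The point `(z, e ^ s)`. -/
def ofLog (q : ℂ × ℝ) : H3 := ⟨q.1, Real.exp q.2, Real.exp_pos _⟩

@[simp] theorem ofLog_z (q : ℂ × ℝ) : (ofLog q).z = q.1 := rfl

@[simp] theorem ofLog_y (q : ℂ × ℝ) : (ofLog q).y = Real.exp q.2 := rfl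

/-- Logarithmic coordinates. -/
def logHomeo : ℂ × ℝ ≃ₜ H3 where
  toFun := ofLog
  invFun p := (p.z, Real.log p.y)
  left_inv q := by simp
  right_inv p := H3.ext rfl (Real.exp_log p.y_pos)
  continuous_toFun := continuous_iff.mpr
    ⟨continuous_fst, Real.continuous_exp.comp continuous_snd⟩
  continuous_invFun := continuous_z.prodMk (continuous_y.log fun p => p.y_pos.ne')

theorem continuous_ofLog : Continuous ofLog := logHomeo.continuous

theorem measurableEmbedding_ofLog : MeasurableEmbedding ofLog :=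
  logHomeo.measurableEmbedding

/-- The measure in logarithmic coordinates. -/
theorem vol_eq_map_ofLog :
    vol = ((volume : Measure (ℂ × ℝ)).withDensity
      fun q => ENNReal.ofReal (Real.exp (-(2 * q.2)))).map ofLog := by
  refine Measure.ext fun t ht => ?_
  obtain ⟨u, hu, rfl⟩ := ht
  change vol (toPair ⁻¹' u) = Measure.map ofLog _ (toPair ⁻¹' u)
  set φ : ℂ × ℝ → ℂ × ℝ := fun q => (q.1, Real.exp q.2)
  have himg : φ '' Set.univ = upperSet := by
    rw [Set.image_univ, ← range_toPair, ← show toPair ∘ ofLog = φ from rfl,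
      Set.range_comp, show Set.range ofLog = Set.univ from logHomeo.surjective.range_eq,
      Set.image_univ]
  have hinj : Set.InjOn φ Set.univ := fun a _ b _ h => by
    simp only [φ, Prod.mk.injEq, Real.exp_eq_exp] at h
    exact Prod.ext h.1 h.2
  set D : ℂ × ℝ → (ℂ × ℝ →L[ℝ] ℂ × ℝ) := fun q =>
    (ContinuousLinearMap.id ℝ ℂ).prodMap (Real.exp q.2 • ContinuousLinearMap.id ℝ ℝ)
  have hD : ∀ q ∈ (Set.univ : Set (ℂ × ℝ)), HasFDerivWithinAt φ (D q) Set.univ q := fun q _ => by
    refine HasFDerivAt.hasFDerivWithinAt ?_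
    have h2 : HasFDerivAt (fun q : ℂ × ℝ => Real.exp q.2)
        (Real.exp q.2 • ContinuousLinearMap.snd ℝ ℂ ℝ) q :=
      (Real.hasDerivAt_exp q.2).comp_hasFDerivAt q hasFDerivAt_snd
    exact hasFDerivAt_fst.prodMk h2
  have hdet : ∀ q, (D q).det = Real.exp q.2 := fun q => by
    have h : (D q : ℂ × ℝ →ₗ[ℝ] ℂ × ℝ) =
        (LinearMap.id : ℂ →ₗ[ℝ] ℂ).prodMap (Real.exp q.2 • LinearMap.id) := rfl
    rw [ContinuousLinearMap.det, h, LinearMap.det_prodMap, LinearMap.det_id, LinearMap.det_smul,
      LinearMap.det_id, Module.finrank_self, pow_one, one_mul, mul_one]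
  have hmu : MeasurableSet (toPair ⁻¹' u) := measurableEmbedding_toPair.measurable hu
  rw [← lintegral_indicator_one hmu,
    show (fun p : H3 => (toPair ⁻¹' u).indicator 1 p) = fun p => u.indicator 1 (toPair p) from rfl,
    lintegral_vol, ← himg,
    lintegral_image_eq_lintegral_abs_det_fderiv_mul volume MeasurableSet.univ hD hinj,
    Measure.map_apply continuous_ofLog.measurable hmu,
    withDensity_apply _ (continuous_ofLog.measurable hmu),
    Measure.restrict_univ, ← lintegral_indicator (continuous_ofLog.measurable hmu)]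
  refine lintegral_congr fun q => ?_
  have e : (ofLog ⁻¹' (toPair ⁻¹' u)).indicator
      (fun q : ℂ × ℝ => ENNReal.ofReal (Real.exp (-(2 * q.2)))) q =
      ENNReal.ofReal (Real.exp (-(2 * q.2))) * u.indicator 1 (φ q) := by
    by_cases h : φ q ∈ u
    · rw [Set.indicator_of_mem (show q ∈ ofLog ⁻¹' (toPair ⁻¹' u) from h),
        Set.indicator_of_mem h, Pi.one_apply, mul_one]
    · rw [Set.indicator_of_notMem (show q ∉ ofLog ⁻¹' (toPair ⁻¹' u) from h),
        Set.indicator_of_notMem h, mul_zero]
  rw [e, hdet, ← mul_assoc, abs_of_pos (Real.exp_pos _)]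
  congr 1
  simp only [volDensity, φ]
  rw [← ENNReal.ofReal_mul (Real.exp_pos _).le, ← Real.exp_nat_mul, ← Real.exp_neg,
    ← Real.exp_add]
  congr 2
  push_cast
  ring

theorem integrable_iff_ofLog {E : Type*} [NormedAddCommGroup E] [NormedSpace ℝ E] (F : H3 → E) :
    Integrable F vol ↔ Integrable (fun q => Real.exp (-(2 * q.2)) • F (ofLog q)) := by
  rw [vol_eq_map_ofLog, measurableEmbedding_ofLog.integrable_map_iff,
    integrable_withDensity_iff_integrable_smul' (by fun_prop)
      (Filter.Eventually.of_forall fun q => ENNReal.ofReal_lt_top)]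
  refine integrable_congr (Filter.Eventually.of_forall fun q => ?_)
  simp [ENNReal.toReal_ofReal (Real.exp_pos _).le]

/-- The integral in logarithmic coordinates. -/
theorem integral_ofLog {E : Type*} [NormedAddCommGroup E] [NormedSpace ℝ E] (F : H3 → E) :
    ∫ p, F p ∂vol = ∫ q : ℂ × ℝ, Real.exp (-(2 * q.2)) • F (ofLog q) := by
  rw [vol_eq_map_ofLog, measurableEmbedding_ofLog.integral_map,
    integral_withDensity_eq_integral_toReal_smul (by fun_prop)
      (Filter.Eventually.of_forall fun q => ENNReal.ofReal_lt_top)]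
  simp [ENNReal.toReal_ofReal (Real.exp_pos _).le]

/-- Integration along horospheres first. -/
theorem integral_slices {E : Type*} [NormedAddCommGroup E] [NormedSpace ℝ E]
    {F : H3 → E} (hF : Integrable F vol) :
    ∫ p, F p ∂vol = ∫ s : ℝ, Real.exp (-(2 * s)) • ∫ z : ℂ, F (ofLog (z, s)) := by
  have h := (integrable_iff_ofLog F).mp hF
  rw [integral_ofLog, Measure.volume_eq_prod, integral_prod_symm _ h]
  simp only [integral_smul]

instance instLocallyFiniteVol : IsLocallyFiniteMeasure vol := by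
  constructor
  intro p
  obtain ⟨K, hK, hKn⟩ := exists_compact_mem_nhds p
  refine ⟨K, hKn, ?_⟩
  have := IsLocallyFiniteMeasure.withDensity_ofReal (μ := (volume : Measure (ℂ × ℝ)))
    (f := fun q => Real.exp (-(2 * q.2))) (by fun_prop)
  rw [vol_eq_map_ofLog, Measure.map_apply continuous_ofLog.measurable hK.measurableSet]
  exact (logHomeo.isCompact_preimage.mpr hK).measure_lt_top

instance instSigmaFiniteVol : SigmaFinite vol := inferInstance

/-- The closed ball: the points `q` with `coshDist p q ≤ R`. -/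
def ball (p : H3) (R : ℝ) : Set H3 := {q | coshDist p q ≤ R}

theorem continuous_coshDist_right (p : H3) : Continuous fun q => coshDist p q :=
  continuous_coshDist.comp (continuous_const.prodMk continuous_id)

/-- The translation taking the base point to `p`. -/
def upTo (p : H3) : GL (Fin 2) ℂ :=
  Matrix.GeneralLinearGroup.mkOfDetNeZero !![(p.y : ℂ), p.z; 0, 1]
    (by simp [p.y_pos.ne'])

theorem upTo_smul_z (p q : H3) : (upTo p • q).z = p.y * q.z + p.z := by
  rw [smul_z_of_upper (by simp [upTo, Matrix.GeneralLinearGroup.mkOfDetNeZero])]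
  simp [upTo, Matrix.GeneralLinearGroup.mkOfDetNeZero]

theorem upTo_smul_y (p q : H3) : (upTo p • q).y = p.y * q.y := by
  rw [smul_y_of_upper (by simp [upTo, Matrix.GeneralLinearGroup.mkOfDetNeZero])]
  simp [upTo, Matrix.GeneralLinearGroup.mkOfDetNeZero, abs_of_pos p.y_pos]

@[simp] theorem upTo_smul_base (p : H3) : upTo p • base = p :=
  H3.ext (by rw [upTo_smul_z]; simp [base]) (by rw [upTo_smul_y]; simp [base])

/-- Closed balls are compact. -/
theorem isCompact_ball_base (R : ℝ) : IsCompact (ball base R) := by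
  suffices IsCompact (ofLog ⁻¹' ball base R) by
    rw [show ball base R = ofLog '' (ofLog ⁻¹' ball base R) from
      (Set.image_preimage_eq _ logHomeo.surjective).symm]
    exact this.image continuous_ofLog
  have hc : IsClosed (ofLog ⁻¹' ball base R) :=
    (isClosed_le (continuous_coshDist_right base) continuous_const).preimage continuous_ofLog
  refine (IsCompact.prod (isCompact_closedBall (0 : ℂ) (Real.sqrt (4 * R * |R|)))
    (isCompact_Icc (a := -Real.log (2 * |R|)) (b := Real.log (2 * |R|)))).of_isClosed_subset hc ?_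
  rintro ⟨z, s⟩ hq
  change coshDist base (ofLog (z, s)) ≤ R at hq
  rw [coshDist_base] at hq
  simp only [ofLog_z, ofLog_y] at hq
  have hy := Real.exp_pos s
  have hn := Complex.normSq_nonneg z
  rw [div_le_iff₀ (by positivity)] at hq
  have hR : 1 ≤ R := by
    by_contra h
    push Not at h
    nlinarith [sq_nonneg (Real.exp s - 1)]
  rw [abs_of_pos (zero_lt_one.trans_le hR)]
  have hs1 : Real.exp s ≤ 2 * R := by
    by_contra h
    push Not at h
    nlinarith [mul_lt_mul_of_pos_right h hy]
  have hs2 : 1 ≤ 2 * R * Real.exp s := by nlinarith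
  refine ⟨?_, ?_, ?_⟩
  · rw [mem_closedBall_zero_iff]
    refine Real.le_sqrt_of_sq_le ?_
    rw [← Complex.normSq_eq_norm_sq]
    nlinarith
  · rw [neg_le, ← Real.exp_le_exp, Real.exp_log (by positivity), Real.exp_neg,
      inv_le_iff_one_le_mul₀ hy]
    linarith
  · rw [← Real.exp_le_exp, Real.exp_log (by positivity)]
    exact hs1

theorem isCompact_ball (p : H3) (R : ℝ) : IsCompact (ball p R) := by
  rw [show ball p R = (fun q => upTo p • q) '' ball base R from ?_]
  · exact (isCompact_ball_base R).image (continuous_smul_gl _)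
  ext q
  constructor
  · intro hq
    refine ⟨(upTo p)⁻¹ • q, ?_, smul_inv_smul _ _⟩
    show coshDist base _ ≤ R
    rw [← coshDist_smul (upTo p), smul_inv_smul, upTo_smul_base]
    exact hq
  · rintro ⟨r, hr, rfl⟩
    show coshDist p _ ≤ R
    have e := coshDist_smul (upTo p) base r
    rw [upTo_smul_base] at e
    rw [e]
    exact hr

/-- An element fixing the base point and moving `r` onto the vertical axis. -/
theorem exists_rotation (r : H3) :
    ∃ g : GL (Fin 2) ℂ, g • base = base ∧ (g • r).z = 0 := by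
  -- first make `z` real
  obtain ⟨u, hu, hru⟩ : ∃ u : GL (Fin 2) ℂ, u • base = base ∧ (u • r).z.im = 0 := by
    rcases eq_or_ne r.z 0 with h | h
    · exact ⟨1, one_smul _ _, by simp [h]⟩
    set a := conj r.z / (‖r.z‖ : ℂ)
    have ha : a ≠ 0 := div_ne_zero (by simpa using h) (by simpa using h)
    have hna : ‖a‖ = 1 := by simp [a, h]
    set M : Matrix (Fin 2) (Fin 2) ℂ := !![a, 0; 0, 1] with hM
    obtain ⟨u, hu⟩ : ∃ u : GL (Fin 2) ℂ, (u : Matrix (Fin 2) (Fin 2) ℂ) = M :=
      ⟨Matrix.GeneralLinearGroup.mkOfDetNeZero M (by simpa [hM] using ha), rfl⟩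
    have h10 : (u : Matrix (Fin 2) (Fin 2) ℂ) 1 0 = 0 := by simp [hu, hM]
    refine ⟨u, H3.ext ?_ ?_, ?_⟩
    · rw [smul_z_of_upper h10, hu, hM]
      simp [base]
    · rw [smul_y_of_upper h10, hu, hM]
      simp [base, hna]
    · rw [smul_z_of_upper h10, hu, hM]
      simp [a, div_mul_eq_mul_div, ← Complex.normSq_eq_conj_mul_self, ← Complex.ofReal_div]
  set r' := u • r
  set x := r'.z.re
  have hx : r'.z = (x : ℂ) := Complex.ext rfl (by simp [hru])
  let c : ℝ → ℂ := fun θ => (Real.cos θ : ℂ)
  let s : ℝ → ℂ := fun θ => (Real.sin θ : ℂ)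
  have hg' : ∀ θ, ∃ g : GL (Fin 2) ℂ,
      (g : Matrix (Fin 2) (Fin 2) ℂ) = !![c θ, s θ; -s θ, c θ] := fun θ =>
    ⟨Matrix.GeneralLinearGroup.mkOfDetNeZero !![c θ, s θ; -s θ, c θ] (by
      simp only [Matrix.det_fin_two_of, c, s]
      norm_cast
      nlinarith [Real.cos_sq_add_sin_sq θ]), rfl⟩
  choose g hg using hg'
  let num : ℝ → ℝ := fun θ => (Real.cos θ * x + Real.sin θ) * (-Real.sin θ * x + Real.cos θ) -
    Real.cos θ * Real.sin θ * r'.y ^ 2
  have hgz : ∀ θ, (g θ • r').z = ((num θ / denom (g θ) r' : ℝ) : ℂ) := fun θ => by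
    rw [smul_z, hx]
    simp [hg, c, s, num, Complex.conj_ofReal, -Complex.ofReal_cos, -Complex.ofReal_sin]
    ring
  obtain ⟨θ, hθ⟩ : ∃ θ, num θ = 0 := by
    have hc : Continuous num := by fun_prop
    have h0 : num 0 = x := by simp [num]
    have h1 : num (π / 2) = -x := by simp [num]
    rcases le_total x 0 with h | h
    · obtain ⟨θ, -, hθ⟩ := intermediate_value_Icc (by positivity : (0 : ℝ) ≤ π / 2) hc.continuousOn
        (show (0 : ℝ) ∈ Set.Icc (num 0) (num (π / 2)) by rw [h0, h1]; exact ⟨h, by linarith⟩)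
      exact ⟨θ, hθ⟩
    · obtain ⟨θ, -, hθ⟩ := intermediate_value_Icc' (by positivity : (0 : ℝ) ≤ π / 2) hc.continuousOn
        (show (0 : ℝ) ∈ Set.Icc (num (π / 2)) (num 0) by rw [h0, h1]; exact ⟨by linarith, h⟩)
      exact ⟨θ, hθ⟩
  refine ⟨g θ * u, ?_, by rw [mul_smul]; show (g θ • r').z = 0; rw [hgz, hθ]; simp⟩
  rw [mul_smul, hu]
  have hs : Real.cos θ ^ 2 + Real.sin θ ^ 2 = 1 := Real.cos_sq_add_sin_sq θ
  refine H3.ext ?_ ?_
  · rw [smul_z]
    simp [hg, c, s, base, Complex.conj_ofReal,
      -Complex.ofReal_cos, -Complex.ofReal_sin]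
    left
    ring
  · rw [smul_y]
    simp [hg, c, s, base, denom, -Complex.ofReal_cos, -Complex.ofReal_sin, ← pow_two,
      hs]
    rw [← Complex.ofReal_pow, ← Complex.ofReal_pow, ← Complex.ofReal_add, hs, Complex.ofReal_one,
      norm_one]

end H3

end Fermat.Agent.ResidualThree

end
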