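import Fermat.Agent.ResidualThree.Interfaces
import Fermat.Agent.ResidualThree.Spherical.LogCoord

/-!
# Radial kernels on hyperbolic three-space and their horospherical transform

They are the archimedean Hecke operators on automorphic functions.
-/

noncomputable section

open Matrix MeasureTheory Real
open scoped ComplexConjugate ENNReal

namespace Fermat.Agent.ResidualThree

namespace H3

/-- A radial test kernel. -/
structure IsKernel (k : ℝ → ℂ) : Prop where
  cont : Continuous k
  compact : HasCompactSupport k

variable {k k₁ k₂ : ℝ → ℂ}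

theorem IsKernel.exists_radius (hk : IsKernel k) : ∃ R, 1 ≤ R ∧ ∀ c, R < c → k c = 0 := by
  obtain ⟨R, hR⟩ := hk.compact.bddAbove
  refine ⟨max R 1, le_max_right _ _, fun c hc => image_eq_zero_of_notMem_tsupport fun h => ?_⟩
  exact absurd (hR h) (not_le.mpr ((le_max_left _ _).trans_lt hc))

theorem continuous_kernel (hk : Continuous k) (p : H3) :
    Continuous fun q => k (coshDist p q) :=
  hk.comp (continuous_coshDist_right p)

theorem IsKernel.integrable_mul (hk : IsKernel k) (p : H3) {F : H3 → ℂ} (hF : Continuous F) :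
    Integrable (fun q => k (coshDist p q) * F q) vol := by
  obtain ⟨R, -, hR⟩ := hk.exists_radius
  refine ((continuous_kernel hk.cont p).mul hF).integrable_of_hasCompactSupport ?_
  refine HasCompactSupport.intro (isCompact_ball p R) fun q hq => ?_
  simp [hR _ (not_le.mp hq)]

theorem IsKernel.integrable (hk : IsKernel k) (p : H3) :
    Integrable (fun q => k (coshDist p q)) vol := by
  simpa using hk.integrable_mul p (continuous_const (y := (1 : ℂ)))

/-- Integrals of functions of `|z|²`. -/
theorem integral_normSq {E : Type*} [NormedAddCommGroup E] [NormedSpace ℝ E] (f : ℝ → E) :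
    ∫ z : ℂ, f (Complex.normSq z) = Real.pi • ∫ t in Set.Ioi (0 : ℝ), f t := by
  by_cases hE : CompleteSpace E; swap
  · simp [integral, hE]
  rw [← Complex.integral_comp_polarCoord_symm, polarCoord_target]
  have e : ∀ p ∈ Set.Ioi (0 : ℝ) ×ˢ Set.Ioo (-Real.pi) Real.pi,
      p.1 • f (Complex.normSq (Complex.polarCoord.symm p)) = (p.1 • f (p.1 ^ 2)) := fun p _ => by
    rw [Complex.normSq_eq_norm_sq, Complex.norm_polarCoord_symm, sq_abs]
  rw [setIntegral_congr_fun (measurableSet_Ioi.prod measurableSet_Ioo) e, Measure.volume_eq_prod,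
    ← Measure.prod_restrict, integral_fun_fst (fun r : ℝ => r • f (r ^ 2))]
  rw [measureReal_restrict_apply_univ, Real.volume_real_Ioo,
    max_eq_left (by linarith [Real.pi_pos])]
  conv_rhs => rw [← integral_comp_rpow_Ioi_of_pos (p := 2) two_pos]
  rw [← integral_smul, ← integral_smul]
  refine setIntegral_congr_fun measurableSet_Ioi fun r _ => ?_
  simp only [Real.rpow_two, smul_smul]
  norm_num
  congr 1
  ring

theorem integral_Ioi_comp_const_add (k : ℝ → ℂ) (c : ℝ) :
    ∫ x in Set.Ioi (0 : ℝ), k (c + x) = ∫ x in Set.Ioi c, k x := by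
  rw [← integral_indicator measurableSet_Ioi, ← integral_indicator measurableSet_Ioi,
    ← integral_add_left_eq_self (fun x => (Set.Ioi c).indicator k x) c]
  congr 1
  ext x
  simp [Set.indicator_apply]

theorem coshDist_base_ofLog (z : ℂ) (s : ℝ) :
    coshDist base (ofLog (z, s)) = Real.cosh s + Complex.normSq z / (2 * Real.exp s) := by
  rw [coshDist_base, ofLog_z, ofLog_y, Real.cosh_eq, Real.exp_neg]
  field_simp
  ring

/-- The horospherical integral at the base point. -/
theorem integral_horosphere_base (k : ℝ → ℂ) (s : ℝ) :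
    ∫ z : ℂ, k (coshDist base (ofLog (z, s))) = (Real.exp s : ℂ) * abelTransform k s := by
  simp only [coshDist_base_ofLog]
  rw [integral_normSq (fun t => k (Real.cosh s + t / (2 * Real.exp s)))]
  have h := integral_comp_mul_left_Ioi (fun t => k (Real.cosh s + t)) 0
    (show 0 < (2 * Real.exp s)⁻¹ by positivity)
  simp only [mul_zero, inv_inv] at h
  simp only [div_eq_inv_mul]
  rw [h]
  rw [integral_Ioi_comp_const_add, abelTransform, smul_smul, Complex.real_smul]
  push_cast
  ring

/-- The horospherical integral. -/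
theorem integral_horosphere (k : ℝ → ℂ) (p : H3) (s : ℝ) :
    ∫ z : ℂ, k (coshDist p (ofLog (z, s))) =
      (p.y : ℂ) * (Real.exp s : ℂ) * abelTransform k (s - Real.log p.y) := by
  have hp := p.y_pos
  have key : ∀ z : ℂ, k (coshDist p (ofLog (p.z + (p.y : ℝ) • z, s))) =
      k (coshDist base (ofLog (z, s - Real.log p.y))) := fun z => by
    rw [← coshDist_smul (upTo p) base, upTo_smul_base]
    congr 2
    refine H3.ext ?_ ?_
    · rw [upTo_smul_z]; simp [add_comm]
    · rw [upTo_smul_y]
      simp only [ofLog_y]
      rw [Real.exp_sub, Real.exp_log hp]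
      field_simp
  have h1 := Measure.integral_comp_smul (volume : Measure ℂ)
    (fun z => k (coshDist p (ofLog (p.z + z, s)))) p.y
  simp only [key, integral_horosphere_base, Complex.finrank_real_complex] at h1
  rw [← integral_add_left_eq_self (fun z => k (coshDist p (ofLog (z, s)))) p.z]
  rw [Complex.real_smul, Real.exp_sub, Real.exp_log hp, abs_of_pos (by positivity)] at h1
  push_cast at h1
  have hp' : (p.y : ℂ) ≠ 0 := by exact_mod_cast hp.ne'
  field_simp at h1
  rw [Complex.ofReal_exp]
  linear_combination -h1

theorem abelTransform_even (k : ℝ → ℂ) (s : ℝ) : abelTransform k (-s) = abelTransform k s := by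
  simp [abelTransform]

theorem IsKernel.continuous_abel (hk : IsKernel k) : Continuous (abelTransform k) := by
  obtain ⟨R, -, hR⟩ := hk.exists_radius
  have e : abelTransform k = fun s => 2 * (Real.pi : ℂ) *
      ∫ t in Set.Icc (0 : ℝ) R, k (Real.cosh s + t) := by
    funext s
    rw [abelTransform]
    congr 1
    have h1 : ∫ x in Set.Icc (0 : ℝ) R, k (Real.cosh s + x) =
        ∫ x in Set.Ioi (0 : ℝ), k (Real.cosh s + x) := by
      rw [integral_Icc_eq_integral_Ioc]
      refine (setIntegral_eq_of_subset_of_forall_sdiff_eq_zero measurableSet_Ioi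
        (fun x hx => hx.1) fun x hx => hR _ ?_).symm
      simp only [Set.mem_sdiff, Set.mem_Ioi, Set.mem_Ioc, not_and, not_le] at hx
      linarith [Real.one_le_cosh s, hx.2 hx.1]
    rw [h1, integral_Ioi_comp_const_add]
  have hc : Continuous k := hk.cont
  rw [e]
  exact continuous_const.mul
    (continuous_parametric_integral_of_continuous (by fun_prop) isCompact_Icc)

theorem IsKernel.hasCompactSupport_abel (hk : IsKernel k) :
    HasCompactSupport (abelTransform k) := by
  obtain ⟨R, hR1, hR⟩ := hk.exists_radius
  refine HasCompactSupport.intro (isCompact_Icc (a := -Real.arcosh R) (b := Real.arcosh R))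
    fun s hs => ?_
  have hs' : R < Real.cosh s := by
    rw [← Real.cosh_abs s, ← Real.cosh_arcosh hR1]
    refine Real.cosh_lt_cosh.mpr ?_
    rw [abs_abs, abs_of_nonneg (Real.arcosh_nonneg hR1)]
    rw [Set.mem_Icc, ← abs_le] at hs
    exact not_le.mp hs
  rw [abelTransform,
    setIntegral_eq_zero_of_forall_eq_zero (fun x (hx : x ∈ Set.Ioi _) => hR x (hs'.trans hx)),
    mul_zero]

/-- Powers of the height are eigenfunctions. -/
theorem IsKernel.integral_mul_cpow (hk : IsKernel k) (p : H3) (u : ℂ) :
    ∫ q, k (coshDist p q) * (q.y : ℂ) ^ (1 + u) ∂vol =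
      (∫ s : ℝ, abelTransform k s * Complex.exp (u * s)) * (p.y : ℂ) ^ (1 + u) := by
  have hc : Continuous fun q : H3 => (q.y : ℂ) ^ (1 + u) :=
    (Complex.continuous_ofReal.comp continuous_y).cpow continuous_const fun q =>
      Complex.ofReal_mem_slitPlane.mpr q.y_pos
  rw [integral_slices (hk.integrable_mul p hc)]
  have hp : (p.y : ℂ) ≠ 0 := by exact_mod_cast p.y_pos.ne'
  have e : ∀ s : ℝ, Real.exp (-(2 * s)) •
      (∫ z : ℂ, k (coshDist p (ofLog (z, s))) * ((ofLog (z, s)).y : ℂ) ^ (1 + u)) =
      (p.y : ℂ) * (abelTransform k (s - Real.log p.y) * Complex.exp (u * s)) := by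
    intro s
    simp only [ofLog_y]
    rw [integral_mul_const, integral_horosphere, Complex.real_smul,
      Complex.cpow_def_of_ne_zero (by exact_mod_cast (Real.exp_pos s).ne'),
      ← Complex.ofReal_log (Real.exp_pos s).le, Real.log_exp]
    push_cast
    have : Complex.exp (-(2 * (s : ℂ))) * Complex.exp s * Complex.exp ((s : ℂ) * (1 + u)) =
        Complex.exp (u * s) := by
      rw [← Complex.exp_add, ← Complex.exp_add]; ring_nf
    rw [← this]
    ring
  simp only [e]
  rw [integral_const_mul, ← integral_add_right_eq_self _ (Real.log p.y)]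
  simp only [add_sub_cancel_right]
  rw [Complex.cpow_add _ _ hp, Complex.cpow_one, Complex.cpow_def_of_ne_zero hp,
    ← Complex.ofReal_log p.y_pos.le, ← integral_const_mul, ← integral_mul_const]
  refine integral_congr_ae (Filter.Eventually.of_forall fun s => ?_)
  push_cast
  rw [mul_add, Complex.exp_add, mul_comm u ((Real.log p.y : ℝ) : ℂ)]
  ring

/-- The composition of two radial kernels, as a kernel; the factor only cuts off the values
below one, which are irrelevant. -/
def compKernel (k₁ k₂ : ℝ → ℂ) (c : ℝ) : ℂ :=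
  ((max 0 (min c 1) : ℝ) : ℂ) *
    ∫ q, k₁ (coshDist base q) * k₂ (coshDist q (ofLog (0, Real.arcosh (max c 1)))) ∂vol

theorem weyl_smul_base : weyl • base = base :=
  H3.ext (by rw [weyl_smul_z]; simp [base]) (by rw [weyl_smul_y]; simp [base])

theorem coshDist_base_axis (s : ℝ) : coshDist base (ofLog (0, s)) = Real.cosh s := by
  simp [coshDist_base_ofLog]

/-- Any pair of points is congruent to a standard one. -/
theorem exists_smul_axis (p r : H3) : ∃ g : GL (Fin 2) ℂ,
    g • p = base ∧ g • r = ofLog (0, Real.arcosh (coshDist p r)) := by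
  obtain ⟨g₁, hg₁, hz⟩ := exists_rotation ((upTo p)⁻¹ • r)
  set g := g₁ * (upTo p)⁻¹ with hg
  have hgp : g • p = base := by
    rw [hg, mul_smul, inv_smul_eq_iff.mpr (upTo_smul_base p).symm, hg₁]
  rw [← mul_smul] at hz
  have hd : coshDist p r = coshDist base (g • r) := by rw [← hgp, coshDist_smul]
  have hr : g • r = ofLog (0, Real.log (g • r).y) :=
    H3.ext (by simpa using hz) (by simp [Real.exp_log (g • r).y_pos])
  set s := Real.log (g • r).y
  rw [hd, hr, coshDist_base_axis]
  rcases le_total 0 s with h | h
  · exact ⟨g, hgp, by rw [Real.arcosh_cosh h, hr]⟩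
  · refine ⟨weyl * g, by rw [mul_smul, hgp, weyl_smul_base], ?_⟩
    rw [← Real.cosh_neg, Real.arcosh_cosh (neg_nonneg.mpr h), mul_smul, hr]
    refine H3.ext ?_ ?_
    · rw [weyl_smul_z]; simp
    · rw [weyl_smul_y]
      simp only [ofLog_z, ofLog_y, map_zero, zero_add, Real.exp_neg]
      field_simp

/-- The composition of two radial kernels is radial. -/
theorem integral_kernel_comp (k₁ k₂ : ℝ → ℂ) (p r : H3) :
    ∫ q, k₁ (coshDist p q) * k₂ (coshDist q r) ∂vol = compKernel k₁ k₂ (coshDist p r) := by
  obtain ⟨g, hp, hr⟩ := exists_smul_axis p r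
  rw [compKernel, max_eq_left (one_le_coshDist p r), min_eq_right (one_le_coshDist p r),
    max_eq_right zero_le_one, Complex.ofReal_one, one_mul, ← hr, ← hp,
    ← integral_smul_gl g (fun q => k₁ (coshDist (g • p) q) * k₂ (coshDist q (g • r)))]
  simp only [coshDist_smul]

/-- A compact set containing every point within `R₂` of a point within `R₁` of the base point. -/
theorem exists_isCompact_of_coshDist_le (R₁ R₂ : ℝ) : ∃ A : Set H3, IsCompact A ∧
    ∀ q r, coshDist base q ≤ R₁ → coshDist q r ≤ R₂ → r ∈ A := by
  refine ⟨(fun x : H3 × H3 => upTo x.1 • x.2) '' (ball base R₁ ×ˢ ball base R₂),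
    ((isCompact_ball_base R₁).prod (isCompact_ball_base R₂)).image ?_, fun q r hq hr => ?_⟩
  · rw [continuous_iff]
    simp only [upTo_smul_z, upTo_smul_y]
    have h1 : Continuous fun x : H3 × H3 => x.1.z := continuous_z.comp continuous_fst
    have h2 : Continuous fun x : H3 × H3 => x.2.z := continuous_z.comp continuous_snd
    have h3 : Continuous fun x : H3 × H3 => x.1.y := continuous_y.comp continuous_fst
    have h4 : Continuous fun x : H3 × H3 => x.2.y := continuous_y.comp continuous_snd
    exact ⟨((Complex.continuous_ofReal.comp h3).mul h2).add h1, h3.mul h4⟩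
  · refine ⟨(q, (upTo q)⁻¹ • r), ⟨hq, ?_⟩, smul_inv_smul _ _⟩
    show coshDist base _ ≤ R₂
    rw [← coshDist_smul (upTo q), smul_inv_smul, upTo_smul_base]
    exact hr

theorem continuous_cut : Continuous fun c : ℝ => Real.arcosh (max c 1) :=
  continuousOn_arcosh.comp_continuous (by fun_prop) fun c => Set.mem_Ici.mpr (le_max_right _ _)

/-- The composite of two kernels is a kernel. -/
theorem IsKernel.comp (h₁ : IsKernel k₁) (h₂ : IsKernel k₂) : IsKernel (compKernel k₁ k₂) := by
  obtain ⟨R₁, -, hR₁⟩ := h₁.exists_radius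
  obtain ⟨R₂, -, hR₂⟩ := h₂.exists_radius
  refine ⟨?_, ?_⟩
  · have ha : Continuous fun c : ℝ => ofLog ((0 : ℂ), Real.arcosh (max c 1)) :=
      continuous_ofLog.comp (continuous_const.prodMk continuous_cut)
    have hf : Continuous (Function.uncurry fun (c : ℝ) (q : H3) => k₁ (coshDist base q) *
        k₂ (coshDist q (ofLog (0, Real.arcosh (max c 1))))) :=
      ((continuous_kernel h₁.cont base).comp continuous_snd).mul
        (h₂.cont.comp (continuous_coshDist.comp (continuous_snd.prodMk (ha.comp continuous_fst))))
    refine (Complex.continuous_ofReal.comp (by fun_prop)).mul ?_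
    have := continuous_parametric_integral_of_continuous (μ := vol) hf (isCompact_ball base R₁)
    convert this using 1
    funext c
    refine (setIntegral_eq_integral_of_forall_compl_eq_zero fun q hq => ?_).symm
    simp [hR₁ _ (not_le.mp hq)]
  · obtain ⟨A, hA, hAmem⟩ := exists_isCompact_of_coshDist_le R₁ R₂
    obtain ⟨B, hB⟩ := (hA.image (continuous_coshDist_right base)).bddAbove
    refine HasCompactSupport.intro (isCompact_Icc (a := (0 : ℝ)) (b := max B 1)) fun c hc => ?_
    rw [Set.mem_Icc, not_and_or, not_le, not_le] at hc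
    rcases hc with hc | hc
    · rw [compKernel, min_eq_left (hc.le.trans zero_le_one), max_eq_left hc.le,
        Complex.ofReal_zero, zero_mul]
    · refine mul_eq_zero_of_right _ (integral_eq_zero_of_ae (Filter.Eventually.of_forall fun q =>
      ?_))
      by_contra h
      simp only [Pi.zero_apply, mul_eq_zero, not_or] at h
      have h' := hB (Set.mem_image_of_mem _ (hAmem q (ofLog (0, Real.arcosh (max c 1)))
        (not_lt.mp fun hh => h.1 (hR₁ _ hh)) (not_lt.mp fun hh => h.2 (hR₂ _ hh))))
      have hc1 : 1 ≤ c := (le_max_right B 1).trans hc.le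
      simp only [max_eq_left hc1, coshDist_base_axis, Real.cosh_arcosh hc1] at h'
      linarith [le_max_left B 1]

/-- The horospherical transform turns composition into convolution. -/
theorem abelTransform_comp (h₁ : IsKernel k₁) (h₂ : IsKernel k₂) (s : ℝ) :
    abelTransform (compKernel k₁ k₂) s =
      ∫ t : ℝ, abelTransform k₁ t * abelTransform k₂ (s - t) := by
  obtain ⟨R₁, -, hR₁⟩ := h₁.exists_radius
  obtain ⟨R₂, -, hR₂⟩ := h₂.exists_radius
  have he : ((Real.exp s : ℝ) : ℂ) ≠ 0 := by exact_mod_cast (Real.exp_pos s).ne'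
  refine mul_left_cancel₀ he ?_
  rw [← integral_horosphere_base]
  simp only [← integral_kernel_comp k₁ k₂ base]
  have hz : Continuous fun z : ℂ => ofLog (z, s) :=
    continuous_ofLog.comp (continuous_id.prodMk continuous_const)
  have hf : Continuous (Function.uncurry fun (z : ℂ) (q : H3) =>
      k₁ (coshDist base q) * k₂ (coshDist q (ofLog (z, s)))) :=
    ((continuous_kernel h₁.cont base).comp continuous_snd).mul
      (h₂.cont.comp (continuous_coshDist.comp (continuous_snd.prodMk (hz.comp continuous_fst))))
  obtain ⟨A, hA, hAmem⟩ := exists_isCompact_of_coshDist_le R₁ R₂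
  have hfc : HasCompactSupport (Function.uncurry fun (z : ℂ) (q : H3) =>
      k₁ (coshDist base q) * k₂ (coshDist q (ofLog (z, s)))) := by
    refine HasCompactSupport.intro ((hA.image continuous_z).prod (isCompact_ball base R₁))
      fun x hx => ?_
    simp only [Function.uncurry, mul_eq_zero]
    by_contra h
    rw [not_or] at h
    refine hx ⟨⟨ofLog (x.1, s), hAmem x.2 _ (not_lt.mp fun hh => h.1 (hR₁ _ hh))
      (not_lt.mp fun hh => h.2 (hR₂ _ hh)), rfl⟩, not_lt.mp fun hh => h.1 (hR₁ _ hh)⟩
  rw [integral_integral_swap_of_hasCompactSupport hf hfc]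
  simp only [integral_const_mul, integral_horosphere]
  have hF : Continuous fun q : H3 =>
      (q.y : ℂ) * (Real.exp s : ℂ) * abelTransform k₂ (s - Real.log q.y) :=
    ((Complex.continuous_ofReal.comp continuous_y).mul continuous_const).mul
      (h₂.continuous_abel.comp (continuous_const.sub (continuous_y.log fun q => q.y_pos.ne')))
  rw [integral_slices (h₁.integrable_mul base hF)]
  rw [← integral_const_mul]
  refine integral_congr_ae (Filter.Eventually.of_forall fun t => ?_)
  simp only [ofLog_y, Real.log_exp]
  rw [integral_mul_const, integral_horosphere_base, Complex.real_smul]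
  have : ((Real.exp (-(2 * t)) : ℝ) : ℂ) * (Real.exp t : ℂ) * (Real.exp t : ℂ) = 1 := by
    rw [← Complex.ofReal_mul, ← Complex.ofReal_mul, ← Real.exp_add, ← Real.exp_add]
    simp [show -(2 * t) + t + t = 0 by ring]
  linear_combination ((Real.exp s : ℂ) * abelTransform k₁ t * abelTransform k₂ (s - t)) * this

end H3

end Fermat.Agent.ResidualThree

end
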