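import Fermat.Agent.ResidualThree.Spherical.Inverse

/-!
# The algebra of even test functions and its transform `g ↦ ∫ g(s) cosh(λ s) ds`

Its characters, classified in `Spherical.Characters`, give the spectral parameters.
-/

noncomputable section

open MeasureTheory Real Set Filter Topology
open scoped ContDiff ComplexConjugate

namespace Fermat.Agent.ResidualThree

/-- Even smooth functions of compact support. -/
structure IsSphTest (g : ℝ → ℂ) : Prop where
  smooth : ContDiff ℝ ∞ g
  compact : HasCompactSupport g
  even : ∀ s, g (-s) = g s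

/-- Convolution on the line. -/
def convR (g h : ℝ → ℂ) : ℝ → ℂ := fun s => ∫ t, g t * h (s - t)

/-- The transform `l ↦ ∫ g(s) cosh (l s) ds`. -/
def coshTransform (g : ℝ → ℂ) (l : ℂ) : ℂ := ∫ s : ℝ, g s * Complex.cosh (l * s)

variable {g h : ℝ → ℂ}

theorem convR_eq_convolution (g h : ℝ → ℂ) :
    convR g h = MeasureTheory.convolution g h (ContinuousLinearMap.mul ℝ ℂ) volume := rfl

theorem IsSphTest.zero : IsSphTest (fun _ => 0) :=
  ⟨contDiff_const, HasCompactSupport.zero, fun _ => rfl⟩

theorem IsSphTest.add (hg : IsSphTest g) (hh : IsSphTest h) : IsSphTest fun s => g s + h s :=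
  ⟨hg.smooth.add hh.smooth, hg.compact.add hh.compact, fun s => by simp [hg.even, hh.even]⟩

theorem IsSphTest.smul (hg : IsSphTest g) (c : ℂ) : IsSphTest fun s => c * g s :=
  ⟨contDiff_const.mul hg.smooth, hg.compact.mul_left, fun s => by simp [hg.even]⟩

theorem IsSphTest.sub (hg : IsSphTest g) (hh : IsSphTest h) : IsSphTest fun s => g s - h s := by
  simpa [sub_eq_add_neg] using hg.add (hh.smul (-1))

theorem IsSphTest.conj (hg : IsSphTest g) : IsSphTest fun s => conj (g s) :=
  ⟨Complex.conjCLE.contDiff.comp hg.smooth, hg.compact.comp_left (map_zero _),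
    fun s => by simp [hg.even]⟩

theorem IsSphTest.continuous (hg : IsSphTest g) : Continuous g := hg.smooth.continuous

theorem IsSphTest.integrable_mul (hg : IsSphTest g) {f : ℝ → ℂ} (hf : Continuous f) :
    Integrable fun s => g s * f s :=
  (hg.continuous.mul hf).integrable_of_hasCompactSupport hg.compact.mul_right

theorem IsSphTest.conv (hg : IsSphTest g) (hh : IsSphTest h) : IsSphTest (convR g h) := by
  refine ⟨?_, ?_, fun s => ?_⟩
  · rw [convR_eq_convolution]
    exact hh.compact.contDiff_convolution_right _ (hg.continuous.locallyIntegrable)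
      hh.smooth
  · rw [convR_eq_convolution]
    exact hg.compact.convolution _ hh.compact
  · simp only [convR]
    rw [← integral_neg_eq_self]
    refine integral_congr_ae (Filter.Eventually.of_forall fun t => ?_)
    simp only
    rw [hg.even, ← hh.even]
    ring_nf

theorem hasDerivAt_mul_ofReal (c : ℂ) (s : ℝ) : HasDerivAt (fun s : ℝ => c * s) c s := by
  simpa using (Complex.ofRealCLM.hasDerivAt (x := s)).const_mul c

theorem hasDerivAt_cosh_mul_ofReal (c : ℂ) (s : ℝ) :
    HasDerivAt (fun s : ℝ => Complex.cosh (c * s)) (Complex.sinh (c * s) * c) s := by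
  simpa [Function.comp_def] using
    (Complex.hasDerivAt_cosh (c * s)).comp s (hasDerivAt_mul_ofReal c s)

theorem hasDerivAt_sinh_mul_ofReal (c : ℂ) (s : ℝ) :
    HasDerivAt (fun s : ℝ => Complex.sinh (c * s)) (Complex.cosh (c * s) * c) s := by
  simpa [Function.comp_def] using
    (Complex.hasDerivAt_sinh (c * s)).comp s (hasDerivAt_mul_ofReal c s)

theorem integral_mul_sinh_eq_zero (hg : ∀ s, g (-s) = g s) (l : ℂ) :
    ∫ s : ℝ, g s * Complex.sinh (l * s) = 0 := by
  have h := integral_neg_eq_self (fun s : ℝ => g s * Complex.sinh (l * s)) volume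
  simp only [hg, Complex.ofReal_neg, mul_neg, Complex.sinh_neg, integral_neg] at h
  linear_combination (-1 / 2 : ℂ) * h

/-- The transform is multiplicative. -/
theorem coshTransform_conv (hg : IsSphTest g) (hh : IsSphTest h) (l : ℂ) :
    coshTransform (convR g h) l = coshTransform g l * coshTransform h l := by
  have hc : Continuous fun x : ℝ × ℝ => g x.2 * h (x.1 - x.2) * Complex.cosh (l * x.1) :=
    ((hg.continuous.comp continuous_snd).mul (hh.continuous.comp
      (continuous_fst.sub continuous_snd))).mul (by fun_prop)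
  have hs :
      HasCompactSupport (Function.uncurry fun x t => g t * h (x - t) * Complex.cosh (l * x)) := by
    refine HasCompactSupport.intro ((hh.compact.isCompact.add hg.compact.isCompact).prod
      hg.compact.isCompact) fun x hx => ?_
    simp only [Function.uncurry]
    by_contra h0
    simp only [mul_eq_zero, not_or] at h0
    refine hx ⟨⟨x.1 - x.2, subset_tsupport _ h0.1.2, x.2, subset_tsupport _ h0.1.1, by simp⟩,
      subset_tsupport _ h0.1.1⟩
  rw [coshTransform]
  simp only [convR, ← integral_mul_const]
  rw [integral_integral_swap_of_hasCompactSupport hc hs]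
  simp only [coshTransform]
  rw [← integral_mul_const]
  refine integral_congr_ae (Filter.Eventually.of_forall fun t => ?_)
  simp only [mul_assoc, integral_const_mul]
  congr 1
  rw [← integral_add_right_eq_self _ t]
  simp only [add_sub_cancel_right, Complex.ofReal_add, mul_add, Complex.cosh_add]
  have h1 : Integrable fun u : ℝ => h u * (Complex.cosh (l * u) * Complex.cosh (l * t)) :=
    hh.integrable_mul (by fun_prop)
  have h2 : Integrable fun u : ℝ => h u * (Complex.sinh (l * u) * Complex.sinh (l * t)) :=
    hh.integrable_mul (by fun_prop)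
  rw [integral_add h1 h2]
  simp only [← mul_assoc, integral_mul_const, integral_mul_sinh_eq_zero hh.even, zero_mul,
    add_zero]
  ring

/-- The admissible parameters: `cosh (l s)` is real and grows at most like `cosh s`. -/
def IsSphParam (l : ℂ) : Prop := (l.im = 0 ∧ |l.re| ≤ 1) ∨ l.re = 0

theorem norm_cosh_le {l : ℂ} (hl : IsSphParam l) (s : ℝ) :
    ‖Complex.cosh (l * s)‖ ≤ Real.cosh s := by
  have hre : |(l * (s : ℂ)).re| ≤ |s| := by
    rw [Complex.re_mul_ofReal, abs_mul]
    refine mul_le_of_le_one_left (abs_nonneg s) ?_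
    rcases hl with ⟨-, h⟩ | h
    · exact h
    · simp [h]
  refine le_trans ?_ (Real.cosh_le_cosh.mpr hre)
  rw [Complex.cosh, norm_div, Complex.norm_two, Real.cosh_eq]
  refine div_le_div_of_nonneg_right ((norm_add_le _ _).trans_eq ?_) two_pos.le
  rw [Complex.norm_exp, Complex.norm_exp, Complex.neg_re]

theorem norm_coshTransform_le {l : ℂ} (hl : IsSphParam l) (hg : IsSphTest g) :
    ‖coshTransform g l‖ ≤ ∫ s, ‖g s‖ * Real.cosh s := by
  refine norm_integral_le_of_norm_le
    ((hg.continuous.norm.mul Real.continuous_cosh).integrable_of_hasCompactSupport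
      hg.compact.norm.mul_right) (Filter.Eventually.of_forall fun s => ?_)
  rw [norm_mul]
  exact mul_le_mul_of_nonneg_left (norm_cosh_le hl s) (norm_nonneg _)

/-- The transforms separate parameters up to sign. -/
theorem coshTransform_separates {l m : ℂ}
    (h : ∀ g, IsSphTest g → coshTransform g l = coshTransform g m) : l ^ 2 = m ^ 2 := by
  set d : ℝ → ℂ := fun s => Complex.cosh (l * s) - Complex.cosh (m * s) with hd
  have hdc : Continuous d := by fun_prop
  have hde : ∀ s, d (-s) = d s := fun s => by simp [d]
  have key : ∀ f : ℝ → ℝ, ContDiff ℝ ∞ f → HasCompactSupport f → ∫ x, f x • d x = 0 := by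
    intro f hf hfc
    have hFc : ContDiff ℝ ∞ fun x : ℝ => ((f x : ℝ) : ℂ) := Complex.ofRealCLM.contDiff.comp hf
    have hFs : HasCompactSupport fun x : ℝ => ((f x : ℝ) : ℂ) :=
      hfc.comp_left Complex.ofReal_zero
    set F : ℝ → ℂ := fun x => ((f x : ℝ) : ℂ) + ((f (-x) : ℝ) : ℂ) with hF
    have hFt : IsSphTest F := ⟨hFc.add (hFc.comp contDiff_neg),
      hFs.add (hFs.comp_homeomorph (Homeomorph.neg ℝ)), fun s => by simp [F, add_comm]⟩
    have h1 := h F hFt
    simp only [coshTransform] at h1
    rw [← sub_eq_zero, ← integral_sub (hFt.integrable_mul (by fun_prop))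
      (hFt.integrable_mul (by fun_prop))] at h1
    have h2 : ∫ x, F x * d x = 0 := by simpa [d, mul_sub] using h1
    have i1 : Integrable fun x => ((f x : ℝ) : ℂ) * d x :=
      (hFc.continuous.mul hdc).integrable_of_hasCompactSupport hFs.mul_right
    have i2 : Integrable fun x => ((f (-x) : ℝ) : ℂ) * d x :=
      ((hFc.continuous.comp continuous_neg).mul hdc).integrable_of_hasCompactSupport
        (hFs.comp_homeomorph (Homeomorph.neg ℝ)).mul_right
    simp only [F, add_mul] at h2
    rw [integral_add i1 i2, ← integral_neg_eq_self (fun x => ((f (-x) : ℝ) : ℂ) * d x)] at h2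
    simp only [neg_neg, hde] at h2
    simp only [Complex.real_smul]
    linear_combination (1 / 2 : ℂ) * h2
  have hd0 : d = 0 := (hdc.ae_eq_iff_eq volume continuous_const).mp
    (ae_eq_zero_of_integral_contDiff_smul_eq_zero hdc.locallyIntegrable key)
  have hS : ∀ s : ℝ, Complex.sinh (l * s) * l = Complex.sinh (m * s) * m := fun s => by
    have h1 := (hasDerivAt_cosh_mul_ofReal l s).sub (hasDerivAt_cosh_mul_ofReal m s)
    have h2 : HasDerivAt d 0 s := by rw [hd0]; exact hasDerivAt_const s 0
    exact sub_eq_zero.mp (h1.unique h2)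
  have h1 := (hasDerivAt_sinh_mul_ofReal l 0).mul_const l
  have h2 := (hasDerivAt_sinh_mul_ofReal m 0).mul_const m
  simp only [funext hS] at h1 h2
  have h3 := h1.unique h2
  simp only [Complex.ofReal_zero, mul_zero, Complex.cosh_zero, one_mul] at h3
  linear_combination h3

theorem sphZero_eq_coshTransform (k : ℝ → ℂ) : sphZero k = coshTransform (abelTransform k) 0 := by
  simp [sphZero, coshTransform]

/-- The transform of a composition is the convolution. -/
theorem abelTransform_compKernel {k₁ k₂ : ℝ → ℂ} (h₁ : H3.IsKernel k₁) (h₂ : H3.IsKernel k₂) :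
    abelTransform (H3.compKernel k₁ k₂) = convR (abelTransform k₁) (abelTransform k₂) :=
  funext (H3.abelTransform_comp h₁ h₂)

end Fermat.Agent.ResidualThree

end
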