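import Fermat.Agent.ResidualThree.Spherical.Radial

/-!
# Inverting the horospherical transform, and the triangle inequality

They give kernels with any prescribed transform, Lipschitz in the distance.
-/

noncomputable section

open MeasureTheory Real Set Filter Topology

namespace Fermat.Agent.ResidualThree

namespace H3

/-- The hyperbolic distance. -/
def hdist (p q : H3) : ℝ := Real.arcosh (coshDist p q)

theorem hdist_nonneg (p q : H3) : 0 ≤ hdist p q := Real.arcosh_nonneg (one_le_coshDist p q)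

theorem cosh_hdist (p q : H3) : Real.cosh (hdist p q) = coshDist p q :=
  Real.cosh_arcosh (one_le_coshDist p q)

theorem hdist_comm (p q : H3) : hdist p q = hdist q p := by
  rw [hdist, hdist, coshDist_comm]

theorem hdist_le_sqrt (p q : H3) : hdist p q ≤ 2 * Real.sqrt (coshDist p q - 1) := by
  have h0 := hdist_nonneg p q
  have h : (hdist p q / 2) ^ 2 ≤ coshDist p q - 1 := by
    rw [← cosh_hdist, Real.cosh_eq]
    nlinarith [Real.quadratic_le_exp_of_nonneg h0, Real.add_one_le_exp (-hdist p q)]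
  have := Real.le_sqrt_of_sq_le h
  linarith

theorem hdist_le_arcosh {p q : H3} {M : ℝ} (h : coshDist p q ≤ M) :
    hdist p q ≤ Real.arcosh M :=
  (Real.arcosh_le_arcosh (one_pos.trans_le (one_le_coshDist p q))
    (one_pos.trans_le ((one_le_coshDist p q).trans h))).mpr h

/-- The triangle inequality. -/
theorem hdist_triangle (p q r : H3) : hdist p r ≤ hdist p q + hdist q r := by
  obtain ⟨g, hp, hq⟩ := exists_smul_axis p q
  set a := Real.arcosh (coshDist p q) with ha
  have ha0 : 0 ≤ a := Real.arcosh_nonneg (one_le_coshDist p q)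
  set x := g • r with hx
  have e1 : hdist p r = hdist base x := by rw [hdist, hdist, ← hp, hx, coshDist_smul]
  have e2 : hdist q r = hdist (ofLog (0, a)) x := by rw [hdist, hdist, ← hq, hx, coshDist_smul]
  rw [e1, e2, show hdist p q = a from rfl]
  have hy := x.y_pos
  set A := coshDist base x with hA
  set B := coshDist (ofLog (0, a)) x with hB
  set Q := (Complex.normSq x.z + x.y ^ 2 - 1) / (2 * x.y)
  have hAQ : A ^ 2 - Q ^ 2 = 1 + Complex.normSq x.z / x.y ^ 2 := by
    simp only [A, coshDist_base, Q]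
    field_simp
    ring
  have hBQ : B = Real.cosh a * A - Real.sinh a * Q := by
    simp only [B, A, Q, coshDist_base, coshDist, ofLog_z, ofLog_y, zero_sub, Complex.normSq_neg]
    rw [Real.cosh_eq, Real.sinh_eq, Real.exp_neg]
    field_simp
    ring
  set D := Real.cosh a * Q - Real.sinh a * A
  have hD : D ≤ Real.sqrt (B ^ 2 - 1) := by
    refine (le_abs_self _).trans (Real.abs_le_sqrt ?_)
    have h := Real.cosh_sq_sub_sinh_sq a
    have : 0 ≤ Complex.normSq x.z / x.y ^ 2 := div_nonneg (Complex.normSq_nonneg _) (by positivity)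
    have e : B ^ 2 - D ^ 2 = A ^ 2 - Q ^ 2 := by
      rw [hBQ]
      linear_combination (A ^ 2 - Q ^ 2) * h
    linarith
  have hsd : Real.sinh (hdist (ofLog (0, a)) x) = Real.sqrt (B ^ 2 - 1) :=
    Real.sinh_arcosh (one_le_coshDist _ _)
  have hmain : A ≤ Real.cosh (a + hdist (ofLog (0, a)) x) := by
    rw [Real.cosh_add, cosh_hdist, ← hB, hsd]
    have hs : 0 ≤ Real.sinh a := Real.sinh_nonneg_iff.mpr ha0
    have := mul_le_mul_of_nonneg_left hD hs
    have h := Real.cosh_sq_sub_sinh_sq a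
    have eA : A = Real.cosh a * B + Real.sinh a * D := by
      simp only [D, hBQ]
      linear_combination -A * h
    linarith
  rw [← Real.cosh_abs] at hmain
  have h := (Real.arcosh_le_arcosh (zero_lt_one.trans_le (one_le_coshDist base x))
    (Real.cosh_pos _)).mpr hmain
  rwa [Real.cosh_abs, Real.arcosh_cosh (add_nonneg ha0 (hdist_nonneg _ _))] at h

theorem abs_hdist_sub_le (p q r : H3) : |hdist p q - hdist r q| ≤ hdist p r := by
  rw [abs_sub_le_iff]
  have h1 := hdist_triangle p r q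
  have h2 := hdist_triangle r p q
  rw [hdist_comm r p] at h2
  constructor <;> linarith

/-- The numerator of the derivative of `g₁ / sinh` is `O(sinh²)`: here `g₁`, `g₂`, `g₃` are
successive derivatives. -/
theorem norm_inv_sinh_sq_smul_le {g1 g2 g3 : ℝ → ℂ} (hd2 : ∀ t, HasDerivAt g1 (g2 t) t)
    (hd3 : ∀ t, HasDerivAt g2 (g3 t) t) (hg10 : g1 0 = 0) {M1 M3 : ℝ} (hM1 : ∀ t, ‖g1 t‖ ≤ M1)
    (hM3 : ∀ t, ‖g3 t‖ ≤ M3) {s : ℝ} (hs0 : 0 < s) :
    ‖(Real.sinh s ^ 2)⁻¹ • (Real.sinh s • g2 s - Real.cosh s • g1 s)‖ ≤ M3 + M1 := by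
  set M := M3 + M1
  set Nf : ℝ → ℂ := fun t => Real.sinh t • g2 t - Real.cosh t • g1 t
  have hNd : ∀ t, HasDerivAt Nf (Real.sinh t • (g3 t - g1 t)) t := fun t => by
    refine (((Real.hasDerivAt_sinh t).smul (hd3 t)).sub
      ((Real.hasDerivAt_cosh t).smul (hd2 t))).congr_deriv ?_
    rw [smul_sub]
    abel
  have hMs : ∀ t ∈ Icc (0 : ℝ) s, ‖Real.sinh t • (g3 t - g1 t)‖ ≤ Real.sinh s * M :=
      fun t ht => by
    rw [norm_smul, Real.norm_eq_abs, abs_of_nonneg (Real.sinh_nonneg_iff.mpr ht.1)]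
    exact mul_le_mul (Real.sinh_le_sinh.mpr ht.2)
      ((norm_sub_le _ _).trans (add_le_add (hM3 t) (hM1 t))) (norm_nonneg _)
      (Real.sinh_nonneg_iff.mpr hs0.le)
  have hmv := norm_image_sub_le_of_norm_deriv_le_segment_01' (f := fun x => Nf (x * s))
    (f' := fun x => s • (Real.sinh (x * s) • (g3 (x * s) - g1 (x * s))))
    (C := s * (Real.sinh s * M)) (fun x _ => ?_) (fun x hx => ?_)
  · have hN0 : Nf 0 = 0 := by simp [Nf, hg10]
    simp only [one_mul, zero_mul, hN0, sub_zero] at hmv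
    have hsh : 0 < Real.sinh s := Real.sinh_pos_iff.mpr hs0
    have hle : s ≤ Real.sinh s := Real.self_le_sinh_iff.mpr hs0.le
    have hM0 : 0 ≤ M := le_trans (norm_nonneg _) ((norm_sub_le _ _).trans
      (add_le_add (hM3 s) (hM1 s)))
    rw [norm_smul, Real.norm_eq_abs, abs_of_pos (by positivity), inv_mul_le_iff₀ (by positivity)]
    refine hmv.trans ?_
    calc s * (Real.sinh s * M) ≤ Real.sinh s * (Real.sinh s * M) := by gcongr
      _ = _ := by ring
  · refine HasDerivAt.hasDerivWithinAt ?_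
    refine ((hNd (x * s)).scomp x ((hasDerivAt_id x).mul_const s)).congr_deriv ?_
    rw [one_mul]
  · rw [norm_smul, Real.norm_eq_abs, abs_of_pos hs0]
    exact mul_le_mul_of_nonneg_left
      (hMs _ ⟨by have := hx.1; positivity, mul_le_of_le_one_left hs0.le hx.2.le⟩) hs0.le

/-- The density `g'(s) / sinh s` of an even test function: continuous at `0`, Lipschitz on the
half line, and real when `g` is. -/
theorem exists_abel_density {g : ℝ → ℂ} (hg : ContDiff ℝ 3 g) (hc : HasCompactSupport g)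
    (he : ∀ s, g (-s) = g s) :
    ∃ (h : ℝ → ℂ) (M : ℝ), 0 ≤ M ∧ Continuous h ∧ deriv g 0 = 0 ∧
      h 0 = deriv (deriv g) 0 ∧
      (∀ s : ℝ, s ≠ 0 → h s = ((Real.sinh s)⁻¹ : ℝ) • deriv g s) ∧
      ∀ r ∈ Ici (0 : ℝ), ∀ r' ∈ Ici (0 : ℝ), ‖h r' - h r‖ ≤ M * |r' - r| := by
  set g1 := deriv g with hg1def
  set g2 := deriv g1 with hg2def
  set g3 := deriv g2 with hg3def
  have hg1 : ContDiff ℝ 2 g1 := by
    have : ContDiff ℝ ((2 : ℕ) + 1 : ℕ) g := by simpa using hg
    exact (contDiff_succ_iff_deriv.mp (by exact_mod_cast this)).2.2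
  have hg2 : ContDiff ℝ 1 g2 := by
    have : ContDiff ℝ ((1 : ℕ) + 1 : ℕ) g1 := by simpa using hg1
    exact (contDiff_succ_iff_deriv.mp (by exact_mod_cast this)).2.2
  have hd1 : ∀ t, HasDerivAt g (g1 t) t := fun t =>
    (hg.differentiable (by norm_num) t).hasDerivAt
  have hd2 : ∀ t, HasDerivAt g1 (g2 t) t := fun t =>
    (hg1.differentiable (by norm_num) t).hasDerivAt
  have hd3 : ∀ t, HasDerivAt g2 (g3 t) t := fun t =>
    (hg2.differentiable (by norm_num) t).hasDerivAt
  have hg3c : Continuous g3 := hg2.continuous_deriv le_rfl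
  have hc1 : HasCompactSupport g1 := hc.deriv
  have hc3 : HasCompactSupport g3 := hc1.deriv.deriv
  have hg10 : g1 0 = 0 := by
    have h := ((hd1 (-0)).scomp (0 : ℝ) (hasDerivAt_neg (0 : ℝ)))
    rw [show g ∘ Neg.neg = g from funext he] at h
    have := h.unique (hd1 0)
    simp only [neg_zero, neg_smul, one_smul] at this
    linear_combination (-1 / 2 : ℂ) * this
  set h : ℝ → ℂ := fun s => if s = 0 then g2 0 else ((Real.sinh s)⁻¹ : ℝ) • g1 s with hh
  have hne : ∀ s : ℝ, s ≠ 0 → h s = ((Real.sinh s)⁻¹ : ℝ) • g1 s := fun s hs => if_neg hs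
  have hhc : Continuous h := by
    refine continuous_iff_continuousAt.mpr fun s => ?_
    rcases eq_or_ne s 0 with rfl | hs
    · rw [continuousAt_iff_punctured_nhds, show h 0 = g2 0 from if_pos rfl]
      have h1 := (hd2 0).tendsto_slope
      have h2 := ((Real.hasDerivAt_sinh 0).tendsto_slope.inv₀ (by simp)).smul h1
      rw [Real.cosh_zero, inv_one, one_smul] at h2
      refine h2.congr' (eventually_nhdsWithin_of_forall fun t (ht : t ≠ 0) => ?_)
      simp only [slope_def_module, hne t ht, hg10, Real.sinh_zero, sub_zero,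
        smul_smul, smul_eq_mul]
      congr 1
      field_simp
    · refine ContinuousAt.congr ?_ ((eventually_ne_nhds hs).mono fun t ht => (hne t ht).symm)
      exact (Real.continuous_sinh.continuousAt.inv₀ (by simpa using hs)).smul
        hg1.continuous.continuousAt
  obtain ⟨M1, hM1⟩ := hc1.exists_bound_of_continuous hg1.continuous
  obtain ⟨M3, hM3⟩ := hc3.exists_bound_of_continuous hg3c
  set M := M3 + M1
  have hderiv : ∀ s ∈ Ioi (0 : ℝ), HasDerivAt h
      ((Real.sinh s ^ 2)⁻¹ • (Real.sinh s • g2 s - Real.cosh s • g1 s)) s := by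
    intro s hs
    have hs' : Real.sinh s ≠ 0 := (Real.sinh_pos_iff.mpr hs).ne'
    have := ((Real.hasDerivAt_sinh s).inv hs').smul (hd2 s)
    refine (this.congr_of_eventuallyEq
      ((eventually_ne_nhds (ne_of_gt hs)).mono fun t ht => hne t ht)).congr_deriv ?_
    simp only [smul_sub, smul_smul]
    rw [neg_div, neg_smul, sub_eq_add_neg, Pi.inv_apply]
    congr 2
    · field_simp
    · congr 1
      field_simp
  have hN : ∀ s ∈ Ioi (0 : ℝ),
      ‖(Real.sinh s ^ 2)⁻¹ • (Real.sinh s • g2 s - Real.cosh s • g1 s)‖ ≤ M :=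
    fun s hs => norm_inv_sinh_sq_smul_le hd2 hd3 hg10 hM1 hM3 hs
  have hLip : ∀ r ∈ Ici (0 : ℝ), ∀ r' ∈ Ici (0 : ℝ), ‖h r' - h r‖ ≤ M * |r' - r| := by
    have hIoi : ∀ x ∈ Ioi (0 : ℝ) ×ˢ Ioi (0 : ℝ), ‖h x.2 - h x.1‖ ≤ M * |x.2 - x.1| :=
      fun x hx => by
        simpa [Real.norm_eq_abs] using
          (convex_Ioi (0 : ℝ)).norm_image_sub_le_of_norm_hasDerivWithin_le
          (fun t ht => (hderiv t ht).hasDerivWithinAt) hN hx.1 hx.2
    intro r hr r' hr'
    have hmem : (r, r') ∈ closure (Ioi (0 : ℝ) ×ˢ Ioi (0 : ℝ)) := by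
      rw [closure_prod_eq, closure_Ioi]; exact ⟨hr, hr'⟩
    exact le_on_closure (f := fun x : ℝ × ℝ => ‖h x.2 - h x.1‖)
      (g := fun x : ℝ × ℝ => M * |x.2 - x.1|) hIoi
      (((hhc.comp continuous_snd).sub (hhc.comp continuous_fst)).norm.continuousOn)
      (by fun_prop) hmem
  exact ⟨h, M, le_trans (norm_nonneg _) ((norm_sub_le _ _).trans (add_le_add (hM3 0) (hM1 0))),
    hhc, hg10, if_pos rfl, hne, hLip⟩

theorem im_eq_zero_of_hasDerivAt {f : ℝ → ℂ} (hf : ∀ t, (f t).im = 0) {t : ℝ} {d : ℂ}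
    (hfd : HasDerivAt f d t) : d.im = 0 := by
  have hcomp := Complex.imCLM.hasFDerivAt.comp_hasDerivAt t hfd
  rw [show (⇑Complex.imCLM ∘ f) = fun _ => (0 : ℝ) from funext hf] at hcomp
  simpa using hcomp.unique (hasDerivAt_const t (0 : ℝ))

/-- Inversion: `k(cosh s) = -g'(s) / (2π sinh s)`. -/
theorem exists_kernel_abel {g : ℝ → ℂ} (hg : ContDiff ℝ 3 g) (hc : HasCompactSupport g)
    (he : ∀ s, g (-s) = g s) :
    ∃ k : ℝ → ℂ, IsKernel k ∧ abelTransform k = g ∧
      (∃ C : ℝ, ∀ p q r : H3, ‖k (coshDist p q) - k (coshDist r q)‖ ≤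
        C * Real.sqrt (coshDist p r - 1)) ∧
      ((∀ s, (g s).im = 0) → ∀ c, (k c).im = 0) := by
  obtain ⟨h, M, hM0, hhc, hg10, hh0, hne, hLip⟩ := exists_abel_density hg hc he
  set g1 := deriv g
  have hd1 : ∀ t, HasDerivAt g (g1 t) t := fun t =>
    (hg.differentiable (by norm_num) t).hasDerivAt
  have hg1 : ContDiff ℝ 2 g1 := by
    have : ContDiff ℝ ((2 : ℕ) + 1 : ℕ) g := by simpa using hg
    exact (contDiff_succ_iff_deriv.mp (by exact_mod_cast this)).2.2
  have hd2 : ∀ t, HasDerivAt g1 (deriv g1 t) t := fun t =>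
    (hg1.differentiable (by norm_num) t).hasDerivAt
  set k : ℝ → ℂ := fun c =>
    ((-(max 0 (min c 1)) / (2 * π) : ℝ) : ℂ) * h (Real.arcosh (max c 1)) with hk
  obtain ⟨S, hS⟩ := hc.isCompact.isBounded.subset_closedBall 0
  have hsupp : ∀ t, max S 0 < t → g1 t = 0 := fun t ht => by
    refine image_eq_zero_of_notMem_tsupport fun hm => ?_
    have := hS (tsupport_deriv_subset hm)
    rw [mem_closedBall_zero_iff, Real.norm_eq_abs] at this
    linarith [le_abs_self t, le_max_left S 0]
  have hk0 : ∀ c, Real.cosh (max S 0) < c → k c = 0 := fun c hc' => by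
    have hc1 : 1 ≤ c := (Real.one_le_cosh _).trans hc'.le
    have ht : max S 0 < Real.arcosh (max c 1) := by
      rw [max_eq_left hc1, ← Real.arcosh_cosh (le_max_right S 0)]
      exact (Real.arcosh_lt_arcosh (Real.cosh_pos _) (zero_lt_one.trans_le hc1)).mpr hc'
    simp only [k, hne _ ((le_max_right S 0).trans_lt ht).ne', hsupp _ ht, smul_zero, mul_zero]
  have hkc : Continuous k :=
    (Complex.continuous_ofReal.comp (by fun_prop)).mul (hhc.comp continuous_cut)
  refine ⟨k, ⟨hkc, ?_⟩, ?_, ⟨2 * M / (2 * π), fun p q r => ?_⟩, fun him c => ?_⟩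
  · refine HasCompactSupport.intro (isCompact_Icc (a := (0 : ℝ)) (b := Real.cosh (max S 0)))
      fun c hc' => ?_
    rw [Set.mem_Icc, not_and_or, not_le, not_le] at hc'
    rcases hc' with hc' | hc'
    · simp [k, min_eq_left (hc'.le.trans zero_le_one), max_eq_left hc'.le]
    · exact hk0 c hc'
  · have hkcosh : ∀ t, 0 ≤ t → Real.sinh t • k (Real.cosh t) = ((-1 / (2 * π) : ℝ) : ℂ) * g1 t := by
      intro t ht
      simp only [k, max_eq_left (Real.one_le_cosh t), min_eq_right (Real.one_le_cosh t),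
        max_eq_right zero_le_one, Real.arcosh_cosh ht]
      rcases ht.eq_or_lt with rfl | ht'
      · simp [hg10]
      · have : (Real.sinh t : ℂ) ≠ 0 := by exact_mod_cast (Real.sinh_pos_iff.mpr ht').ne'
        rw [hne t ht'.ne', Complex.real_smul, Complex.real_smul]
        push_cast
        rw [Complex.ofReal_sinh] at this
        field_simp
    funext s
    wlog hs : 0 ≤ s generalizing s
    · have := this (-s) (by linarith [not_le.mp hs])
      rwa [abelTransform_even, he] at this
    set b := max (max S 0) s + 1 with hb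
    have hsb : s ≤ b := by linarith [le_max_right (max S 0) s]
    have hcb : Real.cosh s ≤ Real.cosh b :=
      Real.cosh_le_cosh.mpr (by rw [abs_of_nonneg hs, abs_of_nonneg (hs.trans hsb)]; exact hsb)
    have e1 : ∫ u in Ioi (Real.cosh s), k u = ∫ u in Real.cosh s..Real.cosh b, k u := by
      rw [intervalIntegral.integral_of_le hcb]
      refine setIntegral_eq_of_subset_of_forall_sdiff_eq_zero measurableSet_Ioi Ioc_subset_Ioi_self
        fun u hu => ?_
      simp only [Set.mem_sdiff, Set.mem_Ioi, Set.mem_Ioc, not_and, not_le] at hu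
      refine hk0 u ((Real.cosh_le_cosh.mpr ?_).trans_lt (hu.2 hu.1))
      rw [abs_of_nonneg (le_max_right S 0), abs_of_nonneg (hs.trans hsb)]
      linarith [le_max_left (max S 0) s]
    have e2 := intervalIntegral.integral_deriv_smul_comp' (a := s) (b := b) (g := k)
      (fun t _ => Real.hasDerivAt_cosh t) Real.continuous_sinh.continuousOn hkc.continuousOn
    have e3 : ∫ t in s..b, Real.sinh t • (k ∘ Real.cosh) t =
        ∫ t in s..b, ((-1 / (2 * π) : ℝ) : ℂ) * g1 t :=
      intervalIntegral.integral_congr fun t ht => hkcosh t (by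
        rw [uIcc_of_le hsb] at ht; exact hs.trans ht.1)
    have e4 : ∫ t in s..b, g1 t = g b - g s :=
      intervalIntegral.integral_eq_sub_of_hasDerivAt (fun t _ => hd1 t)
        (hg1.continuous.intervalIntegrable _ _)
    have e5 : g b = 0 := image_eq_zero_of_notMem_tsupport fun hm => by
      have := hS hm
      rw [mem_closedBall_zero_iff, Real.norm_eq_abs] at this
      linarith [le_abs_self b, le_max_left S 0, le_max_left (max S 0) s]
    rw [abelTransform, e1, ← e2, e3, intervalIntegral.integral_const_mul, e4, e5]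
    push_cast
    field_simp
    ring
  · have hk' : ∀ x y : H3, k (coshDist x y) = ((-1 / (2 * π) : ℝ) : ℂ) * h (hdist x y) :=
    fun x y => by
      simp only [k, hdist, max_eq_left (one_le_coshDist x y), min_eq_right (one_le_coshDist x y),
        max_eq_right zero_le_one]
    rw [hk', hk', ← mul_sub, norm_mul, Complex.norm_real, Real.norm_eq_abs, neg_div, abs_neg,
      abs_of_pos (by positivity)]
    calc 1 / (2 * π) * ‖h (hdist p q) - h (hdist r q)‖
        ≤ 1 / (2 * π) * (M * |hdist p q - hdist r q|) := mul_le_mul_of_nonneg_left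
          (hLip _ (hdist_nonneg r q) _ (hdist_nonneg p q)) (by positivity)
      _ ≤ 1 / (2 * π) * (M * (2 * Real.sqrt (coshDist p r - 1))) := by
          gcongr
          exact (abs_hdist_sub_le p q r).trans (hdist_le_sqrt p r)
      _ = _ := by ring
  · have h1 : ∀ t, (g1 t).im = 0 := fun t => im_eq_zero_of_hasDerivAt him (hd1 t)
    have h2 : (h (Real.arcosh (max c 1))).im = 0 := by
      rcases eq_or_ne (Real.arcosh (max c 1)) 0 with e | e
      · rw [e, hh0]; exact im_eq_zero_of_hasDerivAt h1 (hd2 0)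
      · rw [hne _ e, Complex.smul_im, h1, smul_zero]
    simp only [k, Complex.mul_im, Complex.ofReal_im, Complex.ofReal_re, h2, mul_zero, zero_mul,
      add_zero]

end H3

end Fermat.Agent.ResidualThree

end
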