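import Fermat.Agent.ResidualThree.H3

/-!
# Hyperbolic three-space: the action in coordinates, continuity, invariance of the distance

The basic facts on the archimedean side of automorphic functions.
-/

noncomputable section

open Matrix MeasureTheory
open scoped ComplexConjugate ComplexOrder

namespace Fermat.Agent.ResidualThree

namespace H3

/-- The coordinates of a point. -/
def toPair (p : H3) : ℂ × ℝ := (p.z, p.y)

/-- The upper half-space inside `ℂ × ℝ`. -/
def upperSet : Set (ℂ × ℝ) := Set.univ ×ˢ Set.Ioi (0 : ℝ)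

theorem mem_upperSet {q : ℂ × ℝ} : q ∈ upperSet ↔ 0 < q.2 := by simp [upperSet]

theorem toPair_injective : Function.Injective toPair := fun p q h => by
  simp only [toPair, Prod.mk.injEq] at h
  exact H3.ext h.1 h.2

theorem range_toPair : Set.range toPair = upperSet := by
  ext q
  refine ⟨?_, fun h => ⟨⟨q.1, q.2, mem_upperSet.mp h⟩, rfl⟩⟩
  rintro ⟨p, rfl⟩
  exact mem_upperSet.mpr p.y_pos

theorem isOpen_upperSet : IsOpen upperSet := isOpen_univ.prod isOpen_Ioi

theorem measurableSet_upperSet : MeasurableSet upperSet :=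
  MeasurableSet.univ.prod measurableSet_Ioi

theorem isOpenEmbedding_toPair : Topology.IsOpenEmbedding toPair :=
  ⟨⟨⟨rfl⟩, toPair_injective⟩, range_toPair ▸ isOpen_upperSet⟩

theorem measurableEmbedding_toPair : MeasurableEmbedding toPair := by
  refine ⟨toPair_injective, measurable_iff_comap_le.mpr le_rfl, ?_⟩
  rintro s ⟨t, ht, rfl⟩
  show MeasurableSet (toPair '' (toPair ⁻¹' t))
  rw [Set.image_preimage_eq_inter_range, range_toPair]
  exact ht.inter measurableSet_upperSet

theorem continuous_toPair : Continuous toPair := isOpenEmbedding_toPair.continuous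

theorem continuous_z : Continuous (H3.z) := continuous_fst.comp continuous_toPair

theorem continuous_y : Continuous (H3.y) := continuous_snd.comp continuous_toPair

theorem continuous_iff {X : Type*} [TopologicalSpace X] {f : X → H3} :
    Continuous f ↔ Continuous (fun x => (f x).z) ∧ Continuous (fun x => (f x).y) := by
  rw [isOpenEmbedding_toPair.isEmbedding.continuous_iff]
  exact continuous_prodMk

instance : T2Space H3 := isOpenEmbedding_toPair.isEmbedding.t2Space

instance : SecondCountableTopology H3 :=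
  isOpenEmbedding_toPair.isEmbedding.secondCountableTopology

instance : LocallyCompactSpace H3 := isOpenEmbedding_toPair.locallyCompactSpace

instance : BorelSpace H3 := by
  constructor
  show MeasurableSpace.comap toPair _ = _
  rw [BorelSpace.measurable_eq (α := ℂ × ℝ), ← borel_comap]
  rfl

theorem continuous_coshDist : Continuous fun q : H3 × H3 => coshDist q.1 q.2 := by
  unfold coshDist
  have h1 : Continuous fun q : H3 × H3 => q.1.z := continuous_z.comp continuous_fst
  have h2 : Continuous fun q : H3 × H3 => q.2.z := continuous_z.comp continuous_snd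
  have h3 : Continuous fun q : H3 × H3 => q.1.y := continuous_y.comp continuous_fst
  have h4 : Continuous fun q : H3 × H3 => q.2.y := continuous_y.comp continuous_snd
  refine Continuous.div ?_ (by fun_prop) fun q => ?_
  · exact ((Complex.continuous_normSq.comp (h1.sub h2)).add (h3.pow 2)).add (h4.pow 2)
  · have := q.1.y_pos
    have := q.2.y_pos
    positivity

theorem coshDist_comm (p q : H3) : coshDist p q = coshDist q p := by
  rw [coshDist, coshDist, ← neg_sub q.z p.z, Complex.normSq_neg]
  ring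

theorem one_le_coshDist (p q : H3) : 1 ≤ coshDist p q := by
  have := p.y_pos
  have := q.y_pos
  rw [coshDist, one_le_div (by positivity)]
  nlinarith [Complex.normSq_nonneg (p.z - q.z), sq_nonneg (p.y - q.y)]

theorem coshDist_self (p : H3) : coshDist p p = 1 := by
  have := p.y_pos
  rw [coshDist, sub_self, map_zero]
  field_simp
  ring

theorem coshDist_base (q : H3) :
    coshDist base q = (Complex.normSq q.z + 1 + q.y ^ 2) / (2 * q.y) := by
  simp [coshDist, base]

/-! ### The action in coordinates -/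

/-- The denominator of the action. -/
def denom (g : GL (Fin 2) ℂ) (p : H3) : ℝ :=
  Complex.normSq ((g : Matrix (Fin 2) (Fin 2) ℂ) 1 0 * p.z +
      (g : Matrix (Fin 2) (Fin 2) ℂ) 1 1) +
    Complex.normSq ((g : Matrix (Fin 2) (Fin 2) ℂ) 1 0) * p.y ^ 2

theorem conj_toMat_apply_one_one (g : GL (Fin 2) ℂ) (p : H3) :
    ((g : Matrix (Fin 2) (Fin 2) ℂ) * p.toMat * (g : Matrix (Fin 2) (Fin 2) ℂ)ᴴ) 1 1 =
      ((denom g p / p.y : ℝ) : ℂ) := by
  have hy : (p.y : ℂ) ≠ 0 := by exact_mod_cast p.y_pos.ne'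
  simp only [Matrix.mul_apply, Fin.sum_univ_two, Matrix.conjTranspose_apply, RCLike.star_def,
    toMat, Matrix.of_apply, Matrix.cons_val', Matrix.cons_val_zero, Matrix.cons_val_one,
    Matrix.empty_val', Matrix.cons_val_fin_one, denom]
  push_cast
  simp only [Complex.normSq_eq_conj_mul_self, map_add, map_mul]
  field_simp
  ring

theorem conj_toMat_apply_zero_one (g : GL (Fin 2) ℂ) (p : H3) :
    ((g : Matrix (Fin 2) (Fin 2) ℂ) * p.toMat * (g : Matrix (Fin 2) (Fin 2) ℂ)ᴴ) 0 1 =
      (((g : Matrix (Fin 2) (Fin 2) ℂ) 0 0 * p.z + (g : Matrix (Fin 2) (Fin 2) ℂ) 0 1) *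
          conj ((g : Matrix (Fin 2) (Fin 2) ℂ) 1 0 * p.z + (g : Matrix (Fin 2) (Fin 2) ℂ) 1 1) +
        (g : Matrix (Fin 2) (Fin 2) ℂ) 0 0 * conj ((g : Matrix (Fin 2) (Fin 2) ℂ) 1 0) *
          (p.y : ℂ) ^ 2) / p.y := by
  have hy : (p.y : ℂ) ≠ 0 := by exact_mod_cast p.y_pos.ne'
  simp only [Matrix.mul_apply, Fin.sum_univ_two, Matrix.conjTranspose_apply, RCLike.star_def,
    toMat, Matrix.of_apply, Matrix.cons_val', Matrix.cons_val_zero, Matrix.cons_val_one,
    Matrix.empty_val', Matrix.cons_val_fin_one]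
  push_cast
  simp only [Complex.normSq_eq_conj_mul_self, map_add, map_mul]
  field_simp
  ring

theorem denom_pos (g : GL (Fin 2) ℂ) (p : H3) : 0 < denom g p := by
  have h := (Complex.lt_def.mp
    ((posDef_conj g p.posDef_toMat).diag_pos (i := (1 : Fin 2)))).1
  rw [conj_toMat_apply_one_one, Complex.ofReal_re, Complex.zero_re] at h
  exact (div_pos_iff_of_pos_right p.y_pos).mp h

theorem smul_z (g : GL (Fin 2) ℂ) (p : H3) :
    (g • p).z = (((g : Matrix (Fin 2) (Fin 2) ℂ) 0 0 * p.z + (g : Matrix (Fin 2) (Fin 2) ℂ) 0 1) *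
          conj ((g : Matrix (Fin 2) (Fin 2) ℂ) 1 0 * p.z + (g : Matrix (Fin 2) (Fin 2) ℂ) 1 1) +
        (g : Matrix (Fin 2) (Fin 2) ℂ) 0 0 * conj ((g : Matrix (Fin 2) (Fin 2) ℂ) 1 0) *
          (p.y : ℂ) ^ 2) / (denom g p : ℂ) := by
  have hy : (p.y : ℂ) ≠ 0 := by exact_mod_cast p.y_pos.ne'
  have hd : (denom g p : ℂ) ≠ 0 := by exact_mod_cast (denom_pos g p).ne'
  rw [smul_def, ofMat]
  simp only
  rw [conj_toMat_apply_zero_one, conj_toMat_apply_one_one]
  push_cast
  field_simp

theorem smul_y (g : GL (Fin 2) ℂ) (p : H3) :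
    (g • p).y = ‖(g : Matrix (Fin 2) (Fin 2) ℂ).det‖ * p.y / denom g p := by
  have := p.y_pos
  have := denom_pos g p
  rw [smul_def, ofMat]
  simp only
  rw [conj_toMat_apply_one_one, Complex.ofReal_re, Matrix.det_mul, Matrix.det_mul,
    det_toMat, mul_one, Matrix.det_conjTranspose, RCLike.star_def, Complex.mul_conj,
    Complex.ofReal_re, Complex.normSq_eq_norm_sq, Real.sqrt_sq (norm_nonneg _)]
  field_simp

theorem smul_z_of_upper {g : GL (Fin 2) ℂ} (h : (g : Matrix (Fin 2) (Fin 2) ℂ) 1 0 = 0)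
    (p : H3) : (g • p).z = ((g : Matrix (Fin 2) (Fin 2) ℂ) 0 0 * p.z +
      (g : Matrix (Fin 2) (Fin 2) ℂ) 0 1) / (g : Matrix (Fin 2) (Fin 2) ℂ) 1 1 := by
  have hd := denom_pos g p
  simp only [denom, h, zero_mul, zero_add, map_zero, add_zero, Complex.normSq_pos] at hd
  rw [smul_z]
  simp only [denom, h, zero_mul, zero_add, map_zero, mul_zero, zero_mul, add_zero,
    Complex.normSq_eq_conj_mul_self]
  have : conj ((g : Matrix (Fin 2) (Fin 2) ℂ) 1 1) ≠ 0 :=
    (map_ne_zero_iff _ (RingHom.injective _)).mpr hd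
  field_simp

theorem smul_y_of_upper {g : GL (Fin 2) ℂ} (h : (g : Matrix (Fin 2) (Fin 2) ℂ) 1 0 = 0)
    (p : H3) : (g • p).y = ‖(g : Matrix (Fin 2) (Fin 2) ℂ) 0 0‖ /
      ‖(g : Matrix (Fin 2) (Fin 2) ℂ) 1 1‖ * p.y := by
  have hd := denom_pos g p
  simp only [denom, h, zero_mul, zero_add, map_zero, add_zero, Complex.normSq_pos] at hd
  rw [smul_y, Matrix.det_fin_two, h, mul_zero, sub_zero, norm_mul]
  simp only [denom, h, zero_mul, zero_add, map_zero, add_zero, Complex.normSq_eq_norm_sq]
  have : ‖(g : Matrix (Fin 2) (Fin 2) ℂ) 1 1‖ ≠ 0 := norm_ne_zero_iff.mpr hd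
  field_simp

/-- Scalars act trivially. -/
theorem smul_of_scalar {g : GL (Fin 2) ℂ} {c : ℂ}
    (h : (g : Matrix (Fin 2) (Fin 2) ℂ) = c • (1 : Matrix (Fin 2) (Fin 2) ℂ)) (p : H3) :
    g • p = p := by
  have h10 : (g : Matrix (Fin 2) (Fin 2) ℂ) 1 0 = 0 := by rw [h]; simp
  have hd := denom_pos g p
  simp only [denom, h10, zero_mul, zero_add, map_zero, add_zero, Complex.normSq_pos] at hd
  have hc : c ≠ 0 := by rw [h] at hd; simpa using hd
  refine H3.ext ?_ ?_
  · rw [smul_z_of_upper h10, h]
    simp only [Matrix.smul_apply, smul_eq_mul, Matrix.one_apply_eq,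
      Matrix.one_apply_ne (show (0 : Fin 2) ≠ 1 by decide), mul_one, mul_zero, add_zero]
    exact mul_div_cancel_left₀ _ hc
  · rw [smul_y_of_upper h10, h]
    simp only [Matrix.smul_apply, smul_eq_mul, Matrix.one_apply_eq, mul_one]
    rw [div_self (norm_ne_zero_iff.mpr hc), one_mul]

theorem continuous_smul_gl (g : GL (Fin 2) ℂ) : Continuous fun p : H3 => g • p := by
  have hz := continuous_z
  have hy := continuous_y
  have hden : Continuous (denom g) := by unfold denom; fun_prop
  rw [continuous_iff]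
  constructor
  · simp only [smul_z]
    refine Continuous.div (by fun_prop) (Complex.continuous_ofReal.comp hden) fun p => ?_
    exact_mod_cast (denom_pos g p).ne'
  · simp only [smul_y]
    exact Continuous.div (by fun_prop) hden fun p => (denom_pos g p).ne'

instance : ContinuousConstSMul (GL (Fin 2) ℂ) H3 := ⟨continuous_smul_gl⟩

/-- The distance through the Hermitian matrices. -/
theorem coshDist_eq_trace (p q : H3) :
    (coshDist p q : ℂ) = (p.toMat * q.toMat.adjugate).trace / 2 := by
  have hp : (p.y : ℂ) ≠ 0 := by exact_mod_cast p.y_pos.ne'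
  have hq : (q.y : ℂ) ≠ 0 := by exact_mod_cast q.y_pos.ne'
  simp only [Matrix.adjugate_fin_two, Matrix.trace_fin_two, Matrix.mul_apply, Fin.sum_univ_two,
    toMat, coshDist, Matrix.of_apply, Matrix.cons_val', Matrix.cons_val_zero, Matrix.cons_val_one,
    Matrix.empty_val', Matrix.cons_val_fin_one]
  push_cast
  simp only [Complex.normSq_eq_conj_mul_self, map_sub]
  field_simp
  ring

/-- The distance is invariant. -/
theorem coshDist_smul (g : GL (Fin 2) ℂ) (p q : H3) :
    coshDist (g • p) (g • q) = coshDist p q := by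
  set G : Matrix (Fin 2) (Fin 2) ℂ := (g : Matrix (Fin 2) (Fin 2) ℂ)
  have hG : G.det ≠ 0 := (Matrix.isUnit_iff_isUnit_det G).mp g.isUnit |>.ne_zero
  have key : ∀ r : H3, (g • r).toMat = ((‖G.det‖ : ℝ) : ℂ)⁻¹ • (G * r.toMat * Gᴴ) := by
    intro r
    have h := smul_toMat_ofMat (G * r.toMat * Gᴴ) (posDef_conj g r.posDef_toMat)
    have hd : Real.sqrt (G * r.toMat * Gᴴ).det.re = ‖G.det‖ := by
      rw [Matrix.det_mul, Matrix.det_mul, det_toMat, mul_one, Matrix.det_conjTranspose,
        RCLike.star_def, Complex.mul_conj, Complex.ofReal_re, Complex.normSq_eq_norm_sq,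
        Real.sqrt_sq (norm_nonneg _)]
    rw [hd] at h
    rw [smul_def]
    set R := (ofMat _ (posDef_conj g r.posDef_toMat)).toMat
    rw [← h, smul_smul, inv_mul_cancel₀ (by exact_mod_cast norm_ne_zero_iff.mpr hG), one_smul]
  have hn : ((‖G.det‖ : ℝ) : ℂ) ≠ 0 := by exact_mod_cast norm_ne_zero_iff.mpr hG
  have : (coshDist (g • p) (g • q) : ℂ) = (coshDist p q : ℂ) := by
    rw [coshDist_eq_trace, coshDist_eq_trace, key, key, Matrix.adjugate_smul]
    simp only [Fintype.card_fin, pow_one, Nat.add_one_sub_one]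
    rw [Matrix.adjugate_mul_distrib, Matrix.adjugate_mul_distrib, Matrix.smul_mul,
      Matrix.mul_smul, smul_smul, Matrix.trace_smul, smul_eq_mul]
    have e : (G * p.toMat * Gᴴ * (Gᴴ.adjugate * (q.toMat.adjugate * G.adjugate))).trace =
        (G.det * Gᴴ.det) * (p.toMat * q.toMat.adjugate).trace := by
      calc _ = (G * (p.toMat * (Gᴴ * Gᴴ.adjugate) * q.toMat.adjugate * G.adjugate)).trace := by
            simp only [Matrix.mul_assoc]
        _ = (p.toMat * (Gᴴ.det • 1) * q.toMat.adjugate * (G.adjugate * G)).trace := by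
            rw [Matrix.trace_mul_comm G, Matrix.mul_adjugate]
            simp only [Matrix.mul_assoc]
        _ = _ := by
            rw [Matrix.adjugate_mul]
            simp [Matrix.trace_smul, smul_smul]
    rw [e, Matrix.det_conjTranspose, RCLike.star_def, Complex.mul_conj,
      Complex.normSq_eq_norm_sq]
    push_cast
    field_simp
  exact_mod_cast this

end H3

end Fermat.Agent.ResidualThree

end
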