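import Fermat.Agent.ResidualThree.Spherical.Bessel
import Fermat.Agent.ResidualThree.Spherical.Radial

/-!
# `y K₀(4π|ν|y) e(2 Re νz)` is an eigenfunction of the radial kernels at parameter zero

It is the limit `u → 0` of Fourier integrals of the Poisson kernels `(y/(|z-w|² + y²))^(1+u)`,
which are images of `y^(1+u)` under isometries.
-/

noncomputable section

open Matrix MeasureTheory Real Set Filter Topology
open scoped ComplexConjugate RealInnerProductSpace

namespace Fermat.Agent.ResidualThree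

/-- The additive character `z ↦ exp(2πi · 2 Re(νz))`. -/
def addCharC (ν z : ℂ) : ℂ :=
  Complex.exp (2 * (π : ℂ) * Complex.I * ((2 * (ν * z).re : ℝ) : ℂ))

/-- The Whittaker function of spectral parameter zero. -/
def whittaker (ν : ℂ) (p : H3) : ℂ :=
  ((p.y * besselK0 (4 * π * ‖ν‖ * p.y) : ℝ) : ℂ) * addCharC ν p.z

theorem norm_addCharC (ν z : ℂ) : ‖addCharC ν z‖ = 1 := by
  rw [addCharC, Complex.norm_exp]
  simp

theorem addCharC_add (ν z w : ℂ) : addCharC ν (z + w) = addCharC ν z * addCharC ν w := by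
  rw [addCharC, addCharC, addCharC, ← Complex.exp_add, mul_add ν, Complex.add_re]
  push_cast
  ring_nf

theorem continuous_addCharC (ν : ℂ) : Continuous (addCharC ν) := by
  unfold addCharC; fun_prop

theorem addCharC_eq_inner (ν z : ℂ) :
    addCharC ν z = Complex.exp (Complex.I * ((⟪(4 * π : ℝ) • conj ν, z⟫ : ℝ) : ℂ)) := by
  rw [addCharC, real_inner_smul_left, Complex.inner, Complex.conj_conj, mul_comm z ν]
  push_cast
  ring_nf

/-- The radial integral `∫ r^(u-1) exp(-(r y² + a²/4r)) dr`. -/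
def radialJ (a u y : ℝ) : ℝ :=
  ∫ r in Ioi (0 : ℝ), r ^ (u - 1) * Real.exp (-(r * y ^ 2 + a ^ 2 / (4 * r)))

theorem exp_neg_div_le {a r : ℝ} (ha : 0 < a) (hr : 0 < r) :
    r⁻¹ * Real.exp (-(a ^ 2 / (4 * r))) ≤ 4 / a ^ 2 := by
  set x := a ^ 2 / (4 * r) with hx
  have h : x * Real.exp (-x) ≤ 1 := by
    rw [Real.exp_neg, ← div_eq_mul_inv, div_le_one (Real.exp_pos x)]
    linarith [Real.add_one_le_exp x]
  have he : r⁻¹ = 4 / a ^ 2 * x := by rw [hx]; field_simp
  rw [he, mul_assoc]
  exact mul_le_of_le_one_right (by positivity) h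

theorem rpow_sub_one_le {r u : ℝ} (hr : 0 < r) (hu : u ∈ Icc (0 : ℝ) 1) :
    r ^ (u - 1) ≤ r⁻¹ + 1 := by
  rcases le_total 1 r with h | h
  · exact (Real.rpow_le_one_of_one_le_of_nonpos h (by linarith [hu.2])).trans
      (le_add_of_nonneg_left (by positivity))
  · refine le_trans ?_ (le_add_of_nonneg_right zero_le_one)
    rw [← Real.rpow_neg_one]
    exact Real.rpow_le_rpow_of_exponent_ge hr h (by linarith [hu.1])

/-- A dominating function for the integrand of `radialJ`, uniform for `δ ≤ y` and `u ∈ [0, 1]`. -/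
theorem norm_radialJ_integrand_le {a δ r u y : ℝ} (ha : 0 < a) (hr : 0 < r) (hδ : 0 ≤ δ)
    (hu : u ∈ Icc (0 : ℝ) 1)
    (hy : δ ≤ y) :
    ‖r ^ (u - 1) * Real.exp (-(r * y ^ 2 + a ^ 2 / (4 * r)))‖ ≤
      (4 / a ^ 2 + 1) * Real.exp (-(δ ^ 2) * r) := by
  rw [norm_mul, Real.norm_eq_abs, Real.norm_eq_abs, abs_of_pos (Real.rpow_pos_of_pos hr _),
    abs_of_pos (Real.exp_pos _)]
  have h1 : Real.exp (-(r * y ^ 2 + a ^ 2 / (4 * r))) ≤
      Real.exp (-(δ ^ 2) * r) * Real.exp (-(a ^ 2 / (4 * r))) := by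
    rw [← Real.exp_add, Real.exp_le_exp]
    nlinarith [pow_le_pow_left₀ hδ hy 2]
  refine (mul_le_mul (rpow_sub_one_le hr hu) h1 (Real.exp_pos _).le (by positivity)).trans ?_
  have h2 := exp_neg_div_le ha hr
  have h3 : Real.exp (-(a ^ 2 / (4 * r))) ≤ 1 := Real.exp_le_one_iff.mpr (by
    have : 0 ≤ a ^ 2 / (4 * r) := by positivity
    linarith)
  nlinarith [Real.exp_pos (-(δ ^ 2) * r)]

theorem radialJ_continuousOn {a : ℝ} (ha : 0 < a) :
    ContinuousOn (fun x : ℝ × ℝ => radialJ a x.1 x.2) (Icc 0 1 ×ˢ Ioi 0) := by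
  rintro ⟨u₀, y₀⟩ ⟨hu₀, hy₀⟩
  rw [mem_Ioi] at hy₀
  refine continuousWithinAt_of_dominated
    (bound := fun r => (4 / a ^ 2 + 1) * Real.exp (-((y₀ / 2) ^ 2) * r)) ?_ ?_ ?_ ?_
  · refine Filter.Eventually.of_forall fun x => ?_
    exact ((continuousOn_id.rpow_const fun r hr => Or.inl (ne_of_gt hr)).mul
      (ContinuousOn.rexp ((continuousOn_id.mul continuousOn_const).add
        (continuousOn_const.div (continuousOn_const.mul continuousOn_id)
          fun r hr => mul_ne_zero (by norm_num) (ne_of_gt hr))).neg)).aestronglyMeasurable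
      measurableSet_Ioi
  · have h2 : ∀ᶠ x : ℝ × ℝ in 𝓝[Icc 0 1 ×ˢ Ioi 0] (u₀, y₀), y₀ / 2 ≤ x.2 :=
      nhdsWithin_le_nhds ((continuous_snd.tendsto (u₀, y₀)).eventually
        (Ici_mem_nhds (half_lt_self hy₀)))
    filter_upwards [self_mem_nhdsWithin, h2] with x hx hx2
    filter_upwards [ae_restrict_mem measurableSet_Ioi] with r hr
    exact norm_radialJ_integrand_le ha hr (by positivity) hx.1 hx2
  · exact (integrableOn_exp_mul_Ioi (by nlinarith) 0).const_mul _
  · filter_upwards [ae_restrict_mem measurableSet_Ioi] with r hr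
    refine ContinuousAt.continuousWithinAt ?_
    refine (ContinuousAt.rpow continuousAt_const (by fun_prop)
      (Or.inl (ne_of_gt hr))).mul ?_
    fun_prop

theorem radialJ_zero {a y : ℝ} (ha : 0 < a) (hy : 0 < y) :
    radialJ a 0 y = 2 * besselK0 (a * y) := by
  set c := a / (2 * y) with hc
  have hc0 : 0 < c := by positivity
  have himg : (fun v => c * Real.exp v) '' univ = Ioi 0 := by
    ext r
    simp only [image_univ, mem_range, mem_Ioi]
    constructor
    · rintro ⟨v, rfl⟩; positivity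
    · intro hr
      exact ⟨Real.log (r / c), by rw [Real.exp_log (by positivity)]; field_simp⟩
  rw [radialJ, ← himg, integral_image_eq_integral_abs_deriv_smul MeasurableSet.univ
      (fun v _ => ((Real.hasDerivAt_exp v).const_mul c).hasDerivWithinAt)
      (fun v _ w _ h => Real.exp_injective (mul_left_cancel₀ hc0.ne' h)), setIntegral_univ]
  have e : ∀ v : ℝ, |c * Real.exp v| • ((c * Real.exp v) ^ ((0 : ℝ) - 1) *
      Real.exp (-(c * Real.exp v * y ^ 2 + a ^ 2 / (4 * (c * Real.exp v))))) =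
      (fun x => Real.exp (-(a * y * Real.cosh x))) |v| := fun v => by
    rw [abs_of_pos (by positivity), zero_sub, Real.rpow_neg_one, smul_eq_mul]
    simp only [Real.cosh_abs]
    rw [Real.cosh_eq, Real.exp_neg v, hc]
    field_simp
    congr 1
    ring
  simp only [e]
  exact (integral_comp_abs (f := fun x => Real.exp (-(a * y * Real.cosh x)))).trans rfl

namespace H3

/-- The Poisson kernel. -/
def pois (w : ℂ) (q : H3) : ℝ := q.y / (Complex.normSq (q.z - w) + q.y ^ 2)

theorem pois_pos (w : ℂ) (q : H3) : 0 < pois w q := by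
  have := q.y_pos
  have := Complex.normSq_nonneg (q.z - w)
  exact div_pos q.y_pos (by positivity)

theorem pois_eq (w : ℂ) (q : H3) :
    pois w q = ((weyl * upTo ⟨-w, 1, one_pos⟩) • q).y := by
  rw [mul_smul, weyl_smul_y, upTo_smul_z, upTo_smul_y]
  simp [pois, sub_eq_add_neg]

theorem continuous_pois : Continuous fun x : ℂ × H3 => pois x.1 x.2 := by
  have h1 : Continuous fun x : ℂ × H3 => x.2.z := continuous_z.comp continuous_snd
  have h2 : Continuous fun x : ℂ × H3 => x.2.y := continuous_y.comp continuous_snd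
  refine h2.div (((Complex.continuous_normSq.comp (h1.sub continuous_fst))).add (h2.pow 2))
    fun x => ?_
  have := x.2.y_pos
  have := Complex.normSq_nonneg (x.2.z - x.1)
  positivity

theorem integral_pois_rpow {k : ℝ → ℂ} (hk : IsKernel k) (p : H3) (w : ℂ) (u : ℝ) :
    ∫ q, k (coshDist p q) * ((pois w q ^ (1 + u) : ℝ) : ℂ) ∂vol =
      (∫ s : ℝ, abelTransform k s * Complex.exp ((u : ℂ) * s)) *
        ((pois w p ^ (1 + u) : ℝ) : ℂ) := by
  set g := weyl * upTo ⟨-w, 1, one_pos⟩ with hg
  have e : ∀ q : H3, ((pois w q ^ (1 + u) : ℝ) : ℂ) = ((g • q).y : ℂ) ^ (1 + (u : ℂ)) := fun q => by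
    rw [Complex.ofReal_cpow (pois_pos w q).le, pois_eq w q]
    push_cast
    rfl
  simp only [e]
  rw [← hk.integral_mul_cpow (g • p) u, ← integral_smul_gl g
    (fun q => k (coshDist (g • p) q) * (q.y : ℂ) ^ (1 + (u : ℂ)))]
  simp only [coshDist_smul]

/-- The Fourier integral of the Poisson kernels. -/
theorem integral_pois_addChar (ν : ℂ) {u : ℝ} (hu : 0 < u) (q : H3) :
    ∫ w : ℂ, ((pois w q ^ (1 + u) : ℝ) : ℂ) * addCharC ν w =
      ((π / Real.Gamma (1 + u) * (q.y ^ (1 + u) * radialJ (4 * π * ‖ν‖) u q.y) : ℝ) : ℂ) *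
        addCharC ν q.z := by
  have hy := q.y_pos
  set G : ℝ → ℂ → ℂ := fun r w => ((r ^ u * Real.exp (-(r * q.y ^ 2)) : ℝ) : ℂ) *
    (((Real.exp (-(r * Complex.normSq (q.z - w)))) : ℝ) : ℂ) * addCharC ν w with hG
  have hnorm : ∀ r w, 0 < r → ‖G r w‖ =
      r ^ u * Real.exp (-(r * q.y ^ 2)) * Real.exp (-(r * Complex.normSq (q.z - w))) := by
    intro r w hr
    simp only [G, norm_mul, norm_addCharC, mul_one, Complex.norm_real, Real.norm_eq_abs,
      abs_of_pos (Real.rpow_pos_of_pos hr _), Real.abs_exp]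
  have hgauss : ∀ r : ℝ, 0 < r →
      Integrable (fun w : ℂ => Real.exp (-(r * Complex.normSq (q.z - w)))) ∧
      ∫ w : ℂ, Real.exp (-(r * Complex.normSq (q.z - w))) = π / r := by
    intro r hr
    have h0 : (fun w : ℂ => Real.exp (-(r * Complex.normSq (q.z - w)))) =
        fun w : ℂ => (fun v : ℂ => Real.exp (-r * ‖v‖ ^ 2)) (w - q.z) := by
      funext w
      simp only [Complex.normSq_eq_norm_sq, norm_sub_rev q.z w, neg_mul]
    have hi : Integrable (fun v : ℂ => Real.exp (-r * ‖v‖ ^ 2)) := by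
      have := (GaussianFourier.integrable_cexp_neg_mul_sq_norm_add (b := (r : ℂ))
        (by simpa using hr) 0 (0 : ℂ)).norm
      refine this.congr (Filter.Eventually.of_forall fun v => ?_)
      simp [Complex.norm_exp, ← Complex.ofReal_pow]
    rw [h0]
    refine ⟨hi.comp_sub_right q.z, ?_⟩
    rw [integral_sub_right_eq_self (fun v : ℂ => Real.exp (-r * ‖v‖ ^ 2)),
      GaussianFourier.integral_rexp_neg_mul_sq_norm hr, Complex.finrank_real_complex]
    norm_num
  have hint : Integrable (Function.uncurry G) ((volume.restrict (Ioi (0 : ℝ))).prod volume) := by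
    have hc : ContinuousOn (Function.uncurry G) (Ioi (0 : ℝ) ×ˢ (univ : Set ℂ)) := by
      refine ((Complex.continuous_ofReal.comp_continuousOn (ContinuousOn.mul
        ((continuous_fst.continuousOn).rpow_const fun x hx => Or.inl (ne_of_gt hx.1))
        (by fun_prop))).mul (Continuous.continuousOn (by fun_prop))).mul ?_
      exact ((continuous_addCharC ν).comp continuous_snd).continuousOn
    have hm : AEStronglyMeasurable (Function.uncurry G)
        ((volume.restrict (Ioi (0 : ℝ))).prod (volume : Measure ℂ)) := by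
      have := hc.aestronglyMeasurable (μ := (volume : Measure ℝ).prod (volume : Measure ℂ))
        (measurableSet_Ioi.prod MeasurableSet.univ)
      rwa [← Measure.prod_restrict, Measure.restrict_univ] at this
    rw [integrable_prod_iff hm]
    constructor
    · filter_upwards [ae_restrict_mem measurableSet_Ioi] with r hr
      refine Integrable.mono' ((hgauss r hr).1.const_mul (r ^ u * Real.exp (-(r * q.y ^ 2))))
        ((Continuous.aestronglyMeasurable (by
          simp only [G, Function.uncurry_apply_pair]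
          have := continuous_addCharC ν
          fun_prop))) ?_
      exact Filter.Eventually.of_forall fun w => (hnorm r w hr).le
    · have hi2 : IntegrableOn (fun r : ℝ => π * (r ^ (u - 1) * Real.exp (-(q.y ^ 2) * r ^ (1 : ℝ))))
          (Ioi 0) :=
        (integrableOn_rpow_mul_exp_neg_mul_rpow (by linarith) one_pos (by positivity)).const_mul π
      refine hi2.congr ?_
      filter_upwards [ae_restrict_mem measurableSet_Ioi] with r hr
      simp only [Function.uncurry_apply_pair, hnorm r _ hr]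
      rw [integral_const_mul, (hgauss r hr).2, Real.rpow_sub_one (ne_of_gt hr), Real.rpow_one]
      ring_nf
  have hswap := integral_integral_swap hint
  have hrw : ∀ r ∈ Ioi (0 : ℝ), ∫ w : ℂ, G r w =
      ((π * (r ^ (u - 1) * Real.exp (-(r * q.y ^ 2 + (4 * π * ‖ν‖) ^ 2 / (4 * r)))) : ℝ) : ℂ) *
        addCharC ν q.z := by
    intro r hr
    rw [mem_Ioi] at hr
    have h := GaussianFourier.integral_cexp_neg_mul_sq_norm_add (b := (r : ℂ)) (by simpa using hr)
      Complex.I ((4 * π : ℝ) • conj ν)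
    rw [Complex.finrank_real_complex] at h
    simp only [G]
    simp only [mul_assoc, integral_const_mul]
    rw [← integral_add_left_eq_self _ q.z]
    have e : ∀ v : ℂ, ((Real.exp (-(r * Complex.normSq (q.z - (q.z + v))))) : ℂ) *
        addCharC ν (q.z + v) = addCharC ν q.z * Complex.exp (-(r : ℂ) * (‖v‖ : ℂ) ^ 2 +
          Complex.I * ((⟪(4 * π : ℝ) • conj ν, v⟫ : ℝ) : ℂ)) := fun v => by
      rw [addCharC_add, Complex.exp_add, ← addCharC_eq_inner, sub_add_cancel_left,
        Complex.normSq_neg, Complex.normSq_eq_norm_sq]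
      push_cast
      ring_nf
    simp only [e]
    rw [integral_const_mul, h, norm_smul, Complex.norm_conj, Real.norm_eq_abs,
      abs_of_pos (by positivity : (0 : ℝ) < 4 * π), Real.rpow_sub_one hr.ne', neg_add, Real.exp_add]
    have hr' : (r : ℂ) ≠ 0 := by exact_mod_cast hr.ne'
    push_cast
    rw [show (2 : ℂ) / 2 = 1 by norm_num, Complex.cpow_one, Complex.I_sq]
    ring_nf
  have hG2 : ∀ w : ℂ, ∫ r in Ioi (0 : ℝ), G r w =
      ((Real.Gamma (1 + u) / q.y ^ (1 + u) : ℝ) : ℂ) *
        (((pois w q ^ (1 + u) : ℝ) : ℂ) * addCharC ν w) := by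
    intro w
    set A := Complex.normSq (q.z - w) + q.y ^ 2 with hA
    have hA0 : 0 < A := by
      have := Complex.normSq_nonneg (q.z - w)
      positivity
    have e : ∀ r : ℝ, G r w = ((r ^ ((1 + u) - 1) * Real.exp (-(A * r)) : ℝ) : ℂ) * addCharC ν w :=
      fun r => by
        simp only [G]
        rw [← Complex.ofReal_mul, mul_assoc (r ^ u), ← Real.exp_add, add_sub_cancel_left]
        congr 4
        rw [hA]; ring
    simp only [e]
    rw [integral_mul_const, integral_complex_ofReal,
      Real.integral_rpow_mul_exp_neg_mul_Ioi (by linarith) hA0,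
      ← mul_assoc, ← Complex.ofReal_mul]
    congr 2
    rw [pois, ← hA, Real.div_rpow hy.le hA0.le, one_div, Real.inv_rpow hA0.le]
    have : q.y ^ (1 + u) ≠ 0 := (Real.rpow_pos_of_pos hy _).ne'
    field_simp
  rw [setIntegral_congr_fun measurableSet_Ioi hrw, integral_mul_const, integral_complex_ofReal,
    integral_const_mul] at hswap
  simp only [hG2, integral_const_mul] at hswap
  have hG0 : Real.Gamma (1 + u) ≠ 0 := (Real.Gamma_pos_of_pos (by linarith)).ne'
  have hy0 : q.y ^ (1 + u) ≠ 0 := (Real.rpow_pos_of_pos hy _).ne'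
  have h1 : ((Real.Gamma (1 + u) / q.y ^ (1 + u) : ℝ) : ℂ) ≠ 0 := by
    exact_mod_cast div_ne_zero hG0 hy0
  refine mul_left_cancel₀ h1 (hswap.symm.trans ?_)
  rw [← mul_assoc (((Real.Gamma (1 + u) / q.y ^ (1 + u) : ℝ) : ℂ)), ← Complex.ofReal_mul]
  congr 2
  change π * radialJ (4 * π * ‖ν‖) u q.y = _
  field_simp

/-- Eigenfunctions with parameter `u`; at `u = 0` this is twice the Whittaker function. -/
def whittakerU (ν : ℂ) (u : ℝ) (q : H3) : ℂ :=
  ((q.y ^ (1 + u) * radialJ (4 * π * ‖ν‖) u q.y : ℝ) : ℂ) * addCharC ν q.z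

/-- On a ball the Poisson kernels decay like `(1 + ‖w‖²)⁻¹`, uniformly. -/
theorem exists_pois_le (p : H3) (R : ℝ) :
    ∃ C, ∀ q ∈ ball p R, ∀ w : ℂ, pois w q ≤ C * (1 + ‖w‖ ^ 2)⁻¹ := by
  obtain ⟨C, hC⟩ := ((isCompact_ball p R).image (f := fun q : H3 =>
    q.y * max 2 ((1 + 2 * Complex.normSq q.z) / q.y ^ 2)) (continuous_y.mul
      (continuous_const.max ((continuous_const.add (continuous_const.mul
        (Complex.continuous_normSq.comp continuous_z))).div (continuous_y.pow 2)
        fun q => (pow_pos q.y_pos 2).ne')))).bddAbove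
  refine ⟨C, fun q hq w => ?_⟩
  have hy := q.y_pos
  have hn := Complex.normSq_nonneg (q.z - w)
  have hCq : q.y * max 2 ((1 + 2 * Complex.normSq q.z) / q.y ^ 2) ≤ C :=
    hC (mem_image_of_mem _ hq)
  set m := max 2 ((1 + 2 * Complex.normSq q.z) / q.y ^ 2)
  have hm1 : 2 ≤ m := le_max_left _ _
  have hm2 : 1 + 2 * Complex.normSq q.z ≤ m * q.y ^ 2 :=
    (div_le_iff₀ (by positivity)).mp (le_max_right _ _)
  have htri : ‖w‖ ^ 2 ≤ 2 * Complex.normSq (q.z - w) + 2 * Complex.normSq q.z := by
    rw [Complex.normSq_eq_norm_sq, Complex.normSq_eq_norm_sq]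
    have h := norm_sub_norm_le w q.z
    rw [norm_sub_rev w q.z] at h
    nlinarith [sq_nonneg (‖q.z - w‖ - ‖q.z‖), norm_nonneg w]
  have hkey : 1 + ‖w‖ ^ 2 ≤ m * (Complex.normSq (q.z - w) + q.y ^ 2) := by nlinarith
  rw [pois, ← div_eq_mul_inv, div_le_div_iff₀ (by positivity) (by positivity)]
  calc q.y * (1 + ‖w‖ ^ 2) ≤ q.y * (m * (Complex.normSq (q.z - w) + q.y ^ 2)) := by gcongr
    _ ≤ C * (Complex.normSq (q.z - w) + q.y ^ 2) := by
        rw [← mul_assoc]; gcongr

/-- The deformed Whittaker functions are eigenfunctions of the kernels. -/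
theorem integral_whittakerU {k : ℝ → ℂ} (hk : IsKernel k) (ν : ℂ) {u : ℝ} (hu : 0 < u) (p : H3) :
    ∫ q, k (coshDist p q) * whittakerU ν u q ∂vol =
      (∫ s : ℝ, abelTransform k s * Complex.exp ((u : ℂ) * s)) * whittakerU ν u p := by
  obtain ⟨R, -, hR⟩ := hk.exists_radius
  have hG0 : ((π / Real.Gamma (1 + u) : ℝ) : ℂ) ≠ 0 := by
    exact_mod_cast (div_pos Real.pi_pos (Real.Gamma_pos_of_pos (by linarith))).ne'
  have e : ∀ q, ∫ w : ℂ, ((pois w q ^ (1 + u) : ℝ) : ℂ) * addCharC ν w =
      ((π / Real.Gamma (1 + u) : ℝ) : ℂ) * whittakerU ν u q := fun q => by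
    rw [integral_pois_addChar ν hu q, whittakerU]; push_cast; ring
  refine mul_left_cancel₀ hG0 ?_
  have e2 : ∀ q : H3, ((π / Real.Gamma (1 + u) : ℝ) : ℂ) * (k (coshDist p q) * whittakerU ν u q) =
      ∫ w : ℂ, k (coshDist p q) * (((pois w q ^ (1 + u) : ℝ) : ℂ) * addCharC ν w) := fun q => by
    rw [integral_const_mul, e q]; ring
  rw [← integral_const_mul, mul_left_comm, ← e p, ← integral_const_mul]
  simp only [e2]
  -- exchange the order of integration
  set H : H3 → ℂ → ℂ := fun q w =>
    k (coshDist p q) * (((pois w q ^ (1 + u) : ℝ) : ℂ) * addCharC ν w)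
  have hH : Continuous (Function.uncurry H) := by
    refine ((continuous_kernel hk.cont p).comp continuous_fst).mul
      ((Complex.continuous_ofReal.comp ?_).mul ((continuous_addCharC ν).comp continuous_snd))
    exact (continuous_pois.comp (continuous_snd.prodMk continuous_fst)).rpow_const
      fun x => Or.inr (by linarith)
  obtain ⟨C, hC⟩ := exists_pois_le p R
  have hint : Integrable (Function.uncurry H) (vol.prod volume) := by
    have hw : Integrable fun w : ℂ => (max C 0) ^ (1 + u) *
        ((1 + ‖w‖ ^ 2) ^ (-(2 + 2 * u) / 2)) :=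
      (integrable_rpow_neg_one_add_norm_sq (by
        rw [Complex.finrank_real_complex]; push_cast; linarith)).const_mul _
    refine Integrable.mono' ((hk.integrable p).norm.mul_prod hw) hH.aestronglyMeasurable
      (Filter.Eventually.of_forall fun x => ?_)
    simp only [Function.uncurry, H, norm_mul, norm_addCharC, mul_one, Complex.norm_real,
      Real.norm_eq_abs]
    rcases le_or_gt (coshDist p x.1) R with hx | hx
    · refine mul_le_mul_of_nonneg_left ?_ (norm_nonneg _)
      rw [abs_of_pos (Real.rpow_pos_of_pos (pois_pos _ _) _)]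
      refine (Real.rpow_le_rpow (pois_pos _ _).le
        ((hC _ hx x.2).trans (mul_le_mul_of_nonneg_right (le_max_left C 0) (by positivity)))
        (by linarith)).trans_eq ?_
      rw [Real.mul_rpow (le_max_right C 0) (by positivity), Real.inv_rpow (by positivity),
        ← Real.rpow_neg (by positivity)]
      ring_nf
    · simp [hR _ hx]
  rw [integral_integral_swap hint]
  refine integral_congr_ae (Filter.Eventually.of_forall fun w => ?_)
  simp only [H, ← mul_assoc (k _), integral_mul_const]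
  rw [integral_pois_rpow hk p w u, mul_assoc]

theorem continuousOn_whittakerU (ν : ℂ) (hν : ν ≠ 0) :
    ContinuousOn (fun x : ℝ × H3 => whittakerU ν x.1 x.2) (Icc 0 1 ×ˢ univ) := by
  have hy : Continuous fun x : ℝ × H3 => x.2.y := continuous_y.comp continuous_snd
  refine (Complex.continuous_ofReal.comp_continuousOn (ContinuousOn.mul ?_ ?_)).mul
    ((continuous_addCharC ν).comp (continuous_z.comp continuous_snd)).continuousOn
  · exact hy.continuousOn.rpow (continuous_const.add continuous_fst).continuousOn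
      fun x _ => Or.inl x.2.y_pos.ne'
  · have hn : 0 < ‖ν‖ := norm_pos_iff.mpr hν
    have hJ := radialJ_continuousOn (a := 4 * π * ‖ν‖) (mul_pos (by positivity) hn)
    exact ContinuousOn.comp (f := fun x : ℝ × H3 => (x.1, x.2.y))
      (g := fun x : ℝ × ℝ => radialJ (4 * π * ‖ν‖) x.1 x.2) hJ
      (continuous_fst.prodMk hy).continuousOn fun x hx => ⟨hx.1, x.2.y_pos⟩

theorem whittakerU_zero (ν : ℂ) (hν : ν ≠ 0) (q : H3) :
    whittakerU ν 0 q = 2 * whittaker ν q := by
  rw [whittakerU, whittaker, radialJ_zero (by positivity) q.y_pos, add_zero, Real.rpow_one]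
  push_cast
  ring

theorem continuous_whittaker (ν : ℂ) (hν : ν ≠ 0) : Continuous (whittaker ν) := by
  refine (Complex.continuous_ofReal.comp (continuous_y.mul
    (besselK0_continuousOn.comp_continuous (continuous_const.mul continuous_y) fun q => ?_))).mul
    ((continuous_addCharC ν).comp continuous_z)
  have := q.y_pos
  exact mem_Ioi.mpr (mul_pos (mul_pos (by positivity) (norm_pos_iff.mpr hν)) q.y_pos)

theorem norm_whittaker_le (ν : ℂ) (hν : ν ≠ 0) (q : H3) :
    ‖whittaker ν q‖ ≤ 5 / (4 * π * ‖ν‖) := by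
  have hy := q.y_pos
  have h0 : 0 < 4 * π * ‖ν‖ := by positivity
  rw [whittaker, norm_mul, norm_addCharC, mul_one, Complex.norm_real, Real.norm_eq_abs,
    abs_of_nonneg (mul_nonneg hy.le (besselK0_nonneg _)), le_div_iff₀ h0]
  calc _ = 4 * π * ‖ν‖ * q.y * besselK0 (4 * π * ‖ν‖ * q.y) := by ring
    _ ≤ 5 := mul_besselK0_le (by positivity)

/-- The Whittaker function is an eigenfunction with spectral parameter zero. -/
theorem integral_whittaker {k : ℝ → ℂ} (hk : IsKernel k) (ν : ℂ) (hν : ν ≠ 0) (p : H3) :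
    ∫ q, k (coshDist p q) * whittaker ν q ∂vol = sphZero k * whittaker ν p := by
  obtain ⟨R, -, hR⟩ := hk.exists_radius
  set T : Set ℝ := Icc 0 1
  obtain ⟨M, hM⟩ : ∃ M, ∀ u ∈ T, ∀ q ∈ ball p R, ‖whittakerU ν u q‖ ≤ M := by
    have hK : IsCompact ((Icc (0 : ℝ) 1) ×ˢ ball p R) := isCompact_Icc.prod (isCompact_ball p R)
    have hF : ContinuousOn (fun x : ℝ × H3 => whittakerU ν x.1 x.2) (Icc 0 1 ×ˢ ball p R) :=
      (continuousOn_whittakerU ν hν).mono (prod_mono Subset.rfl (subset_univ _))
    obtain ⟨M, hM⟩ := hK.exists_bound_of_continuousOn hF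
    refine ⟨M, fun u hu q hq => ?_⟩
    have h := hM (u, q) (mk_mem_prod hu hq)
    simpa only using h
  have hcont : ∀ q : H3, ContinuousWithinAt (fun u => whittakerU ν u q) T 0 := fun q =>
    ContinuousWithinAt.comp (g := fun x : ℝ × H3 => whittakerU ν x.1 x.2)
      (f := fun u : ℝ => (u, q)) (t := Icc 0 1 ×ˢ univ)
      ((continuousOn_whittakerU ν hν) (0, q) ⟨left_mem_Icc.mpr zero_le_one, mem_univ _⟩)
      (continuous_id.prodMk continuous_const).continuousWithinAt fun u hu => ⟨hu, mem_univ _⟩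
  have hL : ContinuousWithinAt (fun u => ∫ q, k (coshDist p q) * whittakerU ν u q ∂vol) T 0 := by
    refine continuousWithinAt_of_dominated (bound := fun q => ‖k (coshDist p q)‖ * M) ?_ ?_
      ((hk.integrable p).norm.mul_const M) ?_
    · filter_upwards [self_mem_nhdsWithin] with u hu
      exact ((continuous_kernel hk.cont p).mul (ContinuousOn.comp_continuous
        (f := fun q : H3 => (u, q)) (g := fun x : ℝ × H3 => whittakerU ν x.1 x.2)
        (continuousOn_whittakerU ν hν)
        (continuous_const.prodMk continuous_id) fun q => ⟨hu, mem_univ _⟩)).aestronglyMeasurable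
    · filter_upwards [self_mem_nhdsWithin] with u hu
      refine Filter.Eventually.of_forall fun q => ?_
      rw [norm_mul]
      rcases le_or_gt (coshDist p q) R with hq | hq
      · exact mul_le_mul_of_nonneg_left (hM u hu q hq) (norm_nonneg _)
      · simp [hR _ hq]
    · refine Filter.Eventually.of_forall fun q => continuousWithinAt_const.mul ?_
      exact hcont q
  have hg : Continuous fun u : ℝ => ∫ s : ℝ, abelTransform k s * Complex.exp ((u : ℂ) * s) := by
    obtain ⟨S, hS⟩ := hk.hasCompactSupport_abel.isCompact.isBounded.subset_closedBall 0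
    have := continuous_parametric_integral_of_continuous (μ := (volume : Measure ℝ))
      (f := fun (u s : ℝ) => abelTransform k s * Complex.exp ((u : ℂ) * s))
      ((hk.continuous_abel.comp continuous_snd).mul (by fun_prop))
      (isCompact_closedBall (0 : ℝ) S)
    convert this using 1
    funext u
    refine (setIntegral_eq_integral_of_forall_compl_eq_zero fun s hs => ?_).symm
    rw [image_eq_zero_of_notMem_tsupport fun h => hs (hS h), zero_mul]
  have hR' : ContinuousWithinAt
      (fun u : ℝ =>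
          (∫ s : ℝ, abelTransform k s * Complex.exp ((u : ℂ) * s)) * whittakerU ν u p) T 0 :=
    hg.continuousWithinAt.mul (hcont p)
  have hne : (𝓝[Ioc (0 : ℝ) 1] 0).NeBot := by
    rw [nhdsWithin_Ioc_eq_nhdsGT zero_lt_one]; infer_instance
  set A : ℝ → ℂ := fun u => ∫ q, k (coshDist p q) * whittakerU ν u q ∂vol
  set B : ℝ → ℂ := fun u =>
    (∫ s : ℝ, abelTransform k s * Complex.exp ((u : ℂ) * s)) * whittakerU ν u p
  have h1 : Tendsto A (𝓝[Ioc (0 : ℝ) 1] 0) (𝓝 (A 0)) :=
    Tendsto.mono_left hL (nhdsWithin_mono 0 Ioc_subset_Icc_self)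
  have h2 : Tendsto B (𝓝[Ioc (0 : ℝ) 1] 0) (𝓝 (B 0)) :=
    Tendsto.mono_left hR' (nhdsWithin_mono 0 Ioc_subset_Icc_self)
  have heq : B =ᶠ[𝓝[Ioc (0 : ℝ) 1] 0] A :=
    eventually_nhdsWithin_of_forall fun (u : ℝ) hu => (integral_whittakerU hk ν hu.1 p).symm
  have h : A 0 = B 0 := tendsto_nhds_unique h1 (h2.congr' heq)
  simp only [A, B] at h
  simp only [whittakerU_zero ν hν, Complex.ofReal_zero, zero_mul, Complex.exp_zero, mul_one,
    mul_left_comm _ (2 : ℂ)] at h
  rw [integral_const_mul] at h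
  exact mul_left_cancel₀ two_ne_zero h

end H3

end Fermat.Agent.ResidualThree

end
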