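import Fermat.Agent.ResidualThree.Interfaces

/-!
# The Bessel function `K₀`

It is the radial factor of the Whittaker function at spectral parameter zero.
-/

noncomputable section

open MeasureTheory Real Set

namespace Fermat.Agent.ResidualThree

theorem one_add_sq_le_cosh {u : ℝ} (hu : 0 ≤ u) : 1 + u ^ 2 / 4 ≤ Real.cosh u := by
  rw [Real.cosh_eq]
  nlinarith [Real.quadratic_le_exp_of_nonneg hu, Real.add_one_le_exp (-u)]

theorem besselK0_integrable {t : ℝ} (ht : 0 < t) :
    IntegrableOn (fun u : ℝ => Real.exp (-(t * Real.cosh u))) (Ioi 0) := by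
  refine Integrable.mono' ((integrable_exp_neg_mul_sq (show 0 < t / 4 by positivity)).integrableOn)
    (Continuous.aestronglyMeasurable (by fun_prop)) ?_
  filter_upwards [ae_restrict_mem measurableSet_Ioi] with u hu
  rw [Real.norm_eq_abs, abs_of_pos (Real.exp_pos _), Real.exp_le_exp]
  nlinarith [one_add_sq_le_cosh (le_of_lt (mem_Ioi.mp hu))]

theorem besselK0_pos {t : ℝ} (ht : 0 < t) : 0 < besselK0 t := by
  refine (setIntegral_pos_iff_support_of_nonneg_ae
    (Filter.Eventually.of_forall fun u => (Real.exp_pos _).le) (besselK0_integrable ht)).mpr ?_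
  rw [show (Function.support fun u : ℝ => Real.exp (-(t * Real.cosh u))) = Set.univ from
    Set.eq_univ_of_forall fun u => (Real.exp_pos _).ne', Set.univ_inter]
  simp

theorem besselK0_nonneg (t : ℝ) : 0 ≤ besselK0 t :=
  setIntegral_nonneg measurableSet_Ioi fun _ _ => (Real.exp_pos _).le

/-- For `0 < a ≤ t`, passing from `a` to `t` gains at least the factor `exp (-(t - a))`. -/
theorem besselK0_le_exp_mul {a t : ℝ} (ha : 0 < a) (hat : a ≤ t) :
    besselK0 t ≤ Real.exp (-(t - a)) * besselK0 a := by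
  simp only [besselK0]
  rw [← integral_const_mul]
  refine setIntegral_mono_on (besselK0_integrable (ha.trans_le hat))
    ((besselK0_integrable ha).const_mul _) measurableSet_Ioi fun u _ => ?_
  rw [← Real.exp_add, Real.exp_le_exp]
  nlinarith [Real.one_le_cosh u]

theorem besselK0_antitoneOn : AntitoneOn besselK0 (Ioi 0) := fun a ha t _ hat =>
  (besselK0_le_exp_mul ha hat).trans (mul_le_of_le_one_left (besselK0_nonneg a)
    (Real.exp_le_one_iff.mpr (by linarith)))

theorem besselK0_continuousOn : ContinuousOn besselK0 (Ioi 0) := by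
  intro t₀ ht₀
  refine ContinuousAt.continuousWithinAt ?_
  have h2 : 0 < t₀ / 2 := half_pos ht₀
  refine continuousAt_of_dominated (μ := volume.restrict (Ioi (0 : ℝ)))
    (bound := fun u => Real.exp (-(t₀ / 2 * Real.cosh u))) ?_ ?_ (besselK0_integrable h2) ?_
  · exact Filter.Eventually.of_forall fun t => Continuous.aestronglyMeasurable (by fun_prop)
  · filter_upwards [Ioi_mem_nhds (show t₀ / 2 < t₀ from half_lt_self ht₀)] with t ht
    filter_upwards with u
    rw [Real.norm_eq_abs, abs_of_pos (Real.exp_pos _), Real.exp_le_exp]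
    nlinarith [mem_Ioi.mp ht, Real.one_le_cosh u]
  · filter_upwards with u
    fun_prop

/-- A bound with exponential decay, uniform on `t > 0`. -/
theorem besselK0_le_exp {t : ℝ} (ht : 0 < t) :
    besselK0 t ≤ Real.exp (-t) * (Real.sqrt (4 * π / t) / 2) := by
  have hi := (integrable_exp_neg_mul_sq (show 0 < t / 4 by positivity)).integrableOn (s := Ioi 0)
  refine (setIntegral_mono_on (besselK0_integrable ht) (hi.const_mul (Real.exp (-t)))
    measurableSet_Ioi fun u hu => ?_).trans_eq ?_
  · rw [← Real.exp_add, Real.exp_le_exp]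
    nlinarith [one_add_sq_le_cosh (le_of_lt (mem_Ioi.mp hu))]
  · rw [integral_const_mul, integral_gaussian_Ioi]
    congr 3
    field_simp

/-- The logarithmic bound at zero. -/
theorem besselK0_le_log {t : ℝ} (ht : 0 < t) : besselK0 t ≤ max 0 (Real.log (2 / t)) + 1 := by
  set L := max 0 (Real.log (2 / t)) with hL
  have hL0 : 0 ≤ L := le_max_left _ _
  have hi := besselK0_integrable ht
  rw [besselK0, ← Ioc_union_Ioi_eq_Ioi hL0, setIntegral_union (by simp) measurableSet_Ioi
    (hi.mono_set Ioc_subset_Ioi_self) (hi.mono_set (Ioi_subset_Ioi hL0))]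
  refine add_le_add ?_ ?_
  · refine (setIntegral_mono_on (hi.mono_set Ioc_subset_Ioi_self)
      (integrableOn_const (C := (1 : ℝ)) (by simp)) measurableSet_Ioc fun u _ => ?_).trans_eq ?_
    · exact Real.exp_le_one_iff.mpr (by nlinarith [Real.cosh_pos u])
    · simp [hL0]
  · have hj : IntegrableOn (fun u => Real.exp L * Real.exp (-u)) (Ioi L) :=
      (integrableOn_exp_neg_Ioi L).const_mul _
    refine (setIntegral_mono_on (hi.mono_set (Ioi_subset_Ioi hL0)) hj measurableSet_Ioi
      fun u hu => ?_).trans_eq ?_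
    · rw [← Real.exp_add, Real.exp_le_exp]
      have h1 : 1 ≤ t / 2 * Real.exp L := by
        have := Real.exp_le_exp.mpr (le_max_right 0 (Real.log (2 / t)))
        rw [Real.exp_log (by positivity), ← hL] at this
        rw [div_le_iff₀ ht] at this
        nlinarith
      have h2 := Real.add_one_le_exp (u - L)
      have h3 : u - L ≤ t / 2 * Real.exp u := by
        rw [show Real.exp u = Real.exp L * Real.exp (u - L) by rw [← Real.exp_add]; ring_nf]
        nlinarith [Real.exp_pos (u - L)]
      rw [Real.cosh_eq]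
      nlinarith [Real.exp_pos (-u)]
    · rw [integral_const_mul, integral_exp_neg_Ioi, ← Real.exp_add, add_neg_cancel, Real.exp_zero]

/-- The Mellin integrals of `K₀` converge. -/
theorem besselK0_integrableOn_rpow {s : ℝ} (hs : 0 < s) :
    IntegrableOn (fun t => besselK0 t * t ^ (s - 1)) (Ioi 0) := by
  set ε := s / 2 with hε
  have he : 0 < ε := half_pos hs
  have hg : IntegrableOn (fun t : ℝ => t ^ (s - 1) * Real.exp (-(1 / 2) * t ^ (1 : ℝ))) (Ioi 0) :=
    integrableOn_rpow_mul_exp_neg_mul_rpow (by linarith) one_pos (by norm_num)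
  have hh : IntegrableOn (fun t : ℝ => t ^ (ε - 1) * Real.exp (-(1 / 2) * t ^ (1 : ℝ))) (Ioi 0) :=
    integrableOn_rpow_mul_exp_neg_mul_rpow (by linarith) one_pos (by norm_num)
  refine Integrable.mono' (hg.add (hh.const_mul ((4 : ℝ) ^ ε / ε)))
    ((besselK0_continuousOn.mul (continuousOn_id.rpow_const fun x hx =>
      Or.inl (ne_of_gt hx))).aestronglyMeasurable measurableSet_Ioi) ?_
  filter_upwards [ae_restrict_mem measurableSet_Ioi] with t ht
  rw [mem_Ioi] at ht
  have h1 := besselK0_le_exp_mul (half_pos ht) (half_le_self ht.le)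
  have h2 := besselK0_le_log (half_pos ht)
  have h3 : max 0 (Real.log (2 / (t / 2))) ≤ (4 / t) ^ ε / ε := by
    refine max_le (by positivity) ?_
    rw [show (2 : ℝ) / (t / 2) = 4 / t by field_simp; norm_num]
    exact Real.log_le_rpow_div (by positivity) he
  have h4 : besselK0 t ≤ Real.exp (-(1 / 2) * t) * ((4 : ℝ) ^ ε / ε * (t ^ ε)⁻¹ + 1) := by
    refine h1.trans ?_
    rw [show -(t - t / 2) = -(1 / 2) * t by ring]
    refine mul_le_mul_of_nonneg_left (h2.trans (add_le_add_left ?_ 1)) (Real.exp_pos _).le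
    refine h3.trans_eq ?_
    rw [Real.div_rpow (by norm_num) ht.le]
    ring
  have e : (t ^ ε)⁻¹ * t ^ (s - 1) = t ^ (ε - 1) := by
    rw [← Real.rpow_neg ht.le, ← Real.rpow_add ht]
    congr 1
    rw [hε]; ring
  rw [Real.norm_eq_abs, abs_of_nonneg (mul_nonneg (besselK0_nonneg t) (by positivity))]
  refine (mul_le_mul_of_nonneg_right h4 (by positivity)).trans_eq ?_
  simp only [Pi.add_apply, Real.rpow_one]
  linear_combination (Real.exp (-(1 / 2) * t) * ((4 : ℝ) ^ ε / ε)) * e

/-- `t ↦ t · K₀(t)` is bounded. -/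
theorem mul_besselK0_le {t : ℝ} (ht : 0 < t) : t * besselK0 t ≤ 5 := by
  have h := mul_le_mul_of_nonneg_left (besselK0_le_exp ht) ht.le
  refine h.trans ?_
  have hsq : Real.sqrt (4 * π / t) ≤ (4 * π / t + 1) / 2 := by
    nlinarith [Real.sq_sqrt (show 0 ≤ 4 * π / t by positivity),
      sq_nonneg (Real.sqrt (4 * π / t) - 1)]
  have he : t * Real.exp (-t) ≤ 1 := by
    rw [Real.exp_neg, ← div_eq_mul_inv, div_le_one (Real.exp_pos t)]
    linarith [Real.add_one_le_exp t]
  have he2 : Real.exp (-t) ≤ 1 := Real.exp_le_one_iff.mpr (by linarith)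
  have ha : t * (Real.exp (-t) * (Real.sqrt (4 * π / t) / 2)) ≤
      t * (Real.exp (-t) * ((4 * π / t + 1) / 4)) := by
    have := Real.exp_pos (-t)
    gcongr ?_ * (?_ * ?_)
    linarith
  refine ha.trans ?_
  rw [show t * (Real.exp (-t) * ((4 * π / t + 1) / 4)) =
    π * Real.exp (-t) + t * Real.exp (-t) / 4 by field_simp]
  nlinarith [Real.pi_pos, Real.pi_lt_four, Real.exp_pos (-t)]

end Fermat.Agent.ResidualThree

end
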