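import Fermat.Agent.ResidualThree.Spherical.Decay

/-!
# Uniqueness of the bounded Whittaker eigenfunction

The eigen equation for the kernels `exp (-c · cosh distance)` is an integral identity in the height;
concentrating it as the height grows determines the function at `c / (4π|ν|)`.
-/

noncomputable section

open Matrix MeasureTheory Real Set Filter Topology
open scoped ComplexConjugate RealInnerProductSpace

namespace Fermat.Agent.ResidualThree

namespace H3

/-- The kernel `exp (-c · cosh distance)`. -/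
def expKernel (c : ℝ) : ℝ → ℂ := fun u => ((Real.exp (-(c * u)) : ℝ) : ℂ)

theorem isDecayKernel_expKernel {c : ℝ} (hc : 0 < c) : IsDecayKernel (expKernel c) := by
  refine IsDecayKernel.of_exp_bound (by unfold expKernel; fun_prop) hc (C := 1) fun u _ => ?_
  rw [expKernel, Complex.norm_real, Real.norm_eq_abs, abs_of_pos (Real.exp_pos _), one_mul]

theorem sphZero_expKernel {c : ℝ} (hc : 0 < c) :
    sphZero (expKernel c) = ((4 * π * besselK0 c / c : ℝ) : ℂ) := by
  have h : ∀ s, abelTransform (expKernel c) s =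
      ((2 * π / c * Real.exp (-(c * Real.cosh s)) : ℝ) : ℂ) := by
    intro s
    simp only [abelTransform, expKernel]
    rw [integral_complex_ofReal]
    simp only [← neg_mul]
    rw [integral_exp_mul_Ioi (by linarith)]
    push_cast
    field_simp
  rw [sphZero]
  simp only [h]
  rw [integral_complex_ofReal, integral_const_mul]
  have e : ∫ s : ℝ, Real.exp (-(c * Real.cosh s)) = 2 * besselK0 c := by
    have h' := integral_comp_abs (f := fun x => Real.exp (-(c * Real.cosh x)))
    simp only [Real.cosh_abs] at h'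
    exact h'
  rw [e]
  congr 1
  ring

/-- The eigen equation for the kernel `exp (-c · cosh distance)` on functions `φ(y) e(2 Re νz)`. -/
theorem integral_axis_identity {f : H3 → ℂ} (ν : ℂ) (hc : Continuous f) (hb : ∃ C, ∀ q, ‖f q‖ ≤ C)
    (htr : ∀ b (q : H3), f ⟨q.z + b, q.y, q.y_pos⟩ = addCharC ν b * f q)
    (heig : ∀ k, IsKernel k → ∀ p, ∫ q, k (coshDist p q) * f q ∂vol = sphZero k * f p)
    {c : ℝ} (hc0 : 0 < c) (t : ℝ) :
    ∫ s : ℝ, ((Real.exp (t - s) * Real.exp (-((4 * π * ‖ν‖) ^ 2 * Real.exp (t + s) / (2 * c) +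
      c * Real.cosh (t - s)))) : ℝ) * f (ofLog (0, s)) =
      ((2 * besselK0 c : ℝ) : ℂ) * f (ofLog (0, t)) := by
  obtain ⟨B, hB⟩ := hb
  set a := 4 * π * ‖ν‖
  have hk := isDecayKernel_expKernel hc0
  have h := integral_decayKernel_mul hc hB (ofLog (0, t))
    (fun k hk' => heig k hk' _) hk
  rw [integral_slices (hk.integrable_mul _ hc hB), sphZero_expKernel hc0] at h
  have e : ∀ s : ℝ, Real.exp (-(2 * s)) • (∫ z : ℂ,
      expKernel c (coshDist (ofLog (0, t)) (ofLog (z, s))) * f (ofLog (z, s))) =
      ((2 * π / c : ℝ) : ℂ) * (((Real.exp (t - s) * Real.exp (-(a ^ 2 * Real.exp (t + s) / (2 * c) +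
        c * Real.cosh (t - s)))) : ℝ) * f (ofLog (0, s))) := by
    intro s
    set b := c / (2 * Real.exp (t + s)) with hbd
    have hb0 : 0 < b := by positivity
    have hf : ∀ z : ℂ, f (ofLog (z, s)) = addCharC ν z * f (ofLog (0, s)) := fun z => by
      rw [← htr z (ofLog (0, s))]
      congr 1
      exact H3.ext (by simp) (by simp)
    have hk' : ∀ z : ℂ, expKernel c (coshDist (ofLog (0, t)) (ofLog (z, s))) * f (ofLog (z, s)) =
        Complex.exp (-(b : ℂ) * (‖z‖ : ℂ) ^ 2 +
          Complex.I * ((⟪(4 * π : ℝ) • conj ν, z⟫ : ℝ) : ℂ)) *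
        (((Real.exp (-(c * Real.cosh (t - s))) : ℝ) : ℂ) * f (ofLog (0, s))) := by
      intro z
      have hd : coshDist (ofLog (0, t)) (ofLog (z, s)) =
          Complex.normSq z / (2 * Real.exp (t + s)) + Real.cosh (t - s) := by
        rw [coshDist, Real.cosh_eq]
        simp only [ofLog_z, ofLog_y, zero_sub, Complex.normSq_neg, Real.exp_sub, Real.exp_add,
          neg_sub]
        field_simp
        ring
      rw [hf z, hd, Complex.exp_add, ← addCharC_eq_inner, expKernel, mul_add, neg_add,
        Real.exp_add, Complex.ofReal_mul]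
      have : ((Real.exp (-(c * (Complex.normSq z / (2 * Real.exp (t + s))))) : ℝ) : ℂ) =
          Complex.exp (-(b : ℂ) * (‖z‖ : ℂ) ^ 2) := by
        rw [Complex.ofReal_exp, hbd, Complex.normSq_eq_norm_sq]
        congr 1
        push_cast
        ring
      rw [this]
      ring
    simp only [hk', integral_mul_const]
    rw [GaussianFourier.integral_cexp_neg_mul_sq_norm_add (by simpa using hb0) Complex.I,
      Complex.finrank_real_complex, norm_smul, Complex.norm_conj, Real.norm_eq_abs,
      abs_of_pos (by positivity : (0 : ℝ) < 4 * π), Complex.real_smul,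
      show ((2 : ℕ) : ℂ) / 2 = 1 by norm_num, Complex.cpow_one, Complex.I_sq]
    rw [show (π : ℂ) / (b : ℂ) = ((π / b : ℝ) : ℂ) by push_cast; rfl,
      show ((-1 : ℂ) * ((4 * π * ‖ν‖ : ℝ) : ℂ) ^ 2 / (4 * (b : ℂ))) =
        ((-(a ^ 2 / (4 * b)) : ℝ) : ℂ) by simp only [a]; push_cast; ring, ← Complex.ofReal_exp]
    simp only [← mul_assoc, ← Complex.ofReal_mul]
    congr 2
    have e1 : Real.exp (-(2 * s)) * (π / b) = 2 * π / c * Real.exp (t - s) := by
      rw [hbd]
      have : Real.exp (t - s) = Real.exp (-(2 * s)) * Real.exp (t + s) := by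
        rw [← Real.exp_add]; ring_nf
      rw [this]
      field_simp
    have e2 : a ^ 2 / (4 * b) = a ^ 2 * Real.exp (t + s) / (2 * c) := by
      rw [hbd]; field_simp; ring
    rw [e1, e2, mul_assoc (2 * π / c * Real.exp (t - s)), ← Real.exp_add, ← neg_add]
  simp only [e] at h
  rw [integral_const_mul] at h
  have hne : ((2 * π / c : ℝ) : ℂ) ≠ 0 := by
    exact_mod_cast (div_pos (mul_pos two_pos Real.pi_pos) hc0).ne'
  refine mul_left_cancel₀ hne (h.trans ?_)
  rw [← mul_assoc, ← Complex.ofReal_mul]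
  congr 2
  ring

/-- Kernels `exp (-X cosh v)` integrate functions growing at most like `exp (-v)`. -/
theorem integrable_exp_neg_cosh_mul {φ : ℝ → ℂ} (hφ : Continuous φ) {A : ℝ} (hA : 0 ≤ A)
    (hb : ∀ v, ‖φ v‖ ≤ A * Real.exp (-v)) {X : ℝ} (hX : 0 < X) :
    Integrable fun v : ℝ => ((Real.exp (-(X * Real.cosh v)) : ℝ) : ℂ) * φ v := by
  refine Integrable.mono' (g := fun v => A *
    (Real.exp ((1 - X + 4 / X)) * Real.exp (-(X / 8) * v ^ 2))) ?_
    ((by fun_prop : Continuous fun v : ℝ =>
      ((Real.exp (-(X * Real.cosh v)) : ℝ) : ℂ)).mul hφ).aestronglyMeasurable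
    (Filter.Eventually.of_forall fun v => ?_)
  · exact ((integrable_exp_neg_mul_sq (by positivity)).const_mul _).const_mul _
  · rw [norm_mul, Complex.norm_real, Real.norm_eq_abs, Real.abs_exp]
    calc _ ≤ Real.exp (-(X * Real.cosh v)) * (A * Real.exp (-v)) :=
          mul_le_mul_of_nonneg_left (hb v) (Real.exp_pos _).le
      _ = A * Real.exp (-(X * Real.cosh v) + -v) := by rw [Real.exp_add]; ring
      _ ≤ _ := by
          refine mul_le_mul_of_nonneg_left ?_ hA
          rw [← Real.exp_add, Real.exp_le_exp]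
          have h1 := one_add_sq_le_cosh (abs_nonneg v)
          rw [Real.cosh_abs, sq_abs] at h1
          have h2 : -v ≤ X / 8 * v ^ 2 + 4 / X := by
            have : X / 8 * v ^ 2 + 4 / X + v = X / 8 * (v + 4 / X) ^ 2 + 2 / X := by
              field_simp; ring
            nlinarith [sq_nonneg (v + 4 / X), show 0 < 2 / X by positivity]
          nlinarith

/-- Laplace concentration: the integrals of `exp (-X cosh v) G X v` cannot all vanish when `G` is
dominated by `exp (-v)` and bounded below by `δ > 0` near `v = 0` for all large `X`. -/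
theorem false_of_laplace_integrals_eq_zero {G : ℝ → ℝ → ℝ} (hGc : ∀ X, Continuous (G X))
    {M : ℝ} (hM : 0 ≤ M) (hGb : ∀ X v, 0 < X → |G X v| ≤ M * Real.exp (-v)) {δ η : ℝ}
    (hδ : 0 < δ) (hη : 0 < η) {X₀ : ℝ}
    (hnear : ∀ X v, X₀ ≤ X → |v| ≤ η → δ ≤ G X v)
    (hint : ∀ X, 0 < X → ∫ v, Real.exp (-(X * Real.cosh v)) * G X v = 0) : False := by
  set J := M * ∫ v : ℝ, Real.exp (-Real.cosh v) * Real.exp (-v)
  have hi1 : Integrable fun v : ℝ => Real.exp (-Real.cosh v) * Real.exp (-v) := by
    have h := (integrable_exp_neg_cosh_mul (φ := fun v => ((Real.exp (-v) : ℝ) : ℂ)) (by fun_prop)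
      zero_le_one (fun v => by simp [Complex.norm_exp]) one_pos).norm
    refine h.congr (Filter.Eventually.of_forall fun v => ?_)
    simp only [norm_mul, Complex.norm_real, one_mul, Real.norm_eq_abs, Real.abs_exp]
  have hJ : 0 ≤ J := mul_nonneg hM (integral_nonneg fun v => by positivity)
  set d := Real.cosh η - Real.cosh (η / 2)
  have hd : 0 < d := by
    simp only [d, sub_pos, Real.cosh_lt_cosh]
    rw [abs_of_pos hη, abs_of_pos (half_pos hη)]
    linarith
  set K := J * Real.exp (Real.cosh η) / (δ * η)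
  set X := max (max X₀ 1) ((K + 1) / d)
  have hX1 : 1 ≤ X := (le_max_right _ _).trans (le_max_left _ _)
  have hXd : K + 1 ≤ X * d := (div_le_iff₀ hd).mp (le_max_right _ _)
  set lo : ℝ → ℝ := fun v => (Icc (-(η / 2)) (η / 2)).indicator
      (fun _ => δ * Real.exp (-(X * Real.cosh (η / 2)))) v -
    Real.exp (-((X - 1) * Real.cosh η)) * (M * (Real.exp (-Real.cosh v) * Real.exp (-v)))
  have hi2 : Integrable fun v => Real.exp (-(X * Real.cosh v)) * G X v := by
    refine Integrable.mono' (hi1.const_mul M) ((by fun_prop : Continuous fun v : ℝ =>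
      Real.exp (-(X * Real.cosh v))).mul (hGc X)).aestronglyMeasurable
      (Filter.Eventually.of_forall fun v => ?_)
    rw [Real.norm_eq_abs, abs_mul, abs_of_pos (Real.exp_pos _)]
    calc Real.exp (-(X * Real.cosh v)) * |G X v|
        ≤ Real.exp (-Real.cosh v) * (M * Real.exp (-v)) := by
          refine mul_le_mul (Real.exp_le_exp.mpr ?_) (hGb X v (by linarith)) (abs_nonneg _)
            (Real.exp_pos _).le
          nlinarith [Real.cosh_pos v]
      _ = _ := by ring
  have hilo1 : Integrable ((Icc (-(η / 2)) (η / 2)).indicator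
      fun _ => δ * Real.exp (-(X * Real.cosh (η / 2)))) :=
    (integrableOn_const (by simp)).integrable_indicator measurableSet_Icc
  have hilo2 := (hi1.const_mul M).const_mul (Real.exp (-((X - 1) * Real.cosh η)))
  have hle : ∀ v, lo v ≤ Real.exp (-(X * Real.cosh v)) * G X v := by
    intro v
    have hpos : 0 ≤ Real.exp (-((X - 1) * Real.cosh η)) *
        (M * (Real.exp (-Real.cosh v) * Real.exp (-v))) := by positivity
    rcases le_or_gt |v| η with hv | hv
    · have hG := hnear X v ((le_max_left _ _).trans (le_max_left _ _)) hv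
      by_cases hv2 : v ∈ Icc (-(η / 2)) (η / 2)
      · simp only [lo, indicator_of_mem hv2]
        have : Real.exp (-(X * Real.cosh (η / 2))) ≤ Real.exp (-(X * Real.cosh v)) := by
          rw [Real.exp_le_exp, neg_le_neg_iff]
          refine mul_le_mul_of_nonneg_left (Real.cosh_le_cosh.mpr ?_) (by linarith)
          rw [abs_of_pos (half_pos hη)]
          exact abs_le.mpr hv2
        have h2 := mul_le_mul this hG hδ.le (Real.exp_pos _).le
        linarith
      · simp only [lo, indicator_of_notMem hv2]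
        have := mul_nonneg (Real.exp_pos (-(X * Real.cosh v))).le (hδ.le.trans hG)
        linarith
    · have hv2 : v ∉ Icc (-(η / 2)) (η / 2) := fun h => by
        have := abs_le.mpr h
        linarith
      simp only [lo, indicator_of_notMem hv2, zero_sub]
      have h1 : Real.exp (-(X * Real.cosh v)) ≤
          Real.exp (-((X - 1) * Real.cosh η)) * Real.exp (-Real.cosh v) := by
        rw [← Real.exp_add, Real.exp_le_exp]
        have : Real.cosh η ≤ Real.cosh v :=
          Real.cosh_le_cosh.mpr (by rw [abs_of_pos hη]; exact hv.le)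
        nlinarith
      have h2 := neg_le_of_abs_le ((abs_mul _ _).trans_le
        (mul_le_mul ((abs_of_pos (Real.exp_pos _)).trans_le h1) (hGb X v (by linarith))
          (abs_nonneg _) (by positivity)))
      refine le_trans (le_of_eq ?_) h2
      ring
  have hineq := integral_mono (f := lo) (hilo1.sub hilo2) hi2 hle
  rw [hint X (by linarith)] at hineq
  simp only [lo] at hineq
  rw [integral_sub hilo1 hilo2, integral_indicator measurableSet_Icc, setIntegral_const,
    Real.volume_real_Icc_of_le (by linarith), integral_const_mul, integral_const_mul, smul_eq_mul]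
    at hineq
  have hfin : J * Real.exp (-((X - 1) * Real.cosh η)) <
      δ * η * Real.exp (-(X * Real.cosh (η / 2))) := by
    have hK : J * Real.exp (Real.cosh η) < δ * η * Real.exp (X * d) := by
      have hexp := Real.add_one_le_exp (X * d)
      have hKe : K * (δ * η) = J * Real.exp (Real.cosh η) :=
        div_mul_cancel₀ _ (by positivity)
      nlinarith [mul_pos hδ hη]
    have e1 : Real.exp (-((X - 1) * Real.cosh η)) =
        Real.exp (Real.cosh η) * Real.exp (-(X * Real.cosh η)) := by
      rw [← Real.exp_add]; ring_nf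
    have e2 : Real.exp (-(X * Real.cosh (η / 2))) =
        Real.exp (X * d) * Real.exp (-(X * Real.cosh η)) := by
      rw [← Real.exp_add]; simp only [d]; ring_nf
    rw [e1, e2, ← mul_assoc, ← mul_assoc]
    exact mul_lt_mul_of_pos_right hK (Real.exp_pos _)
  simp only [J] at hfin
  nlinarith

/-- The eigen equation on the axis, normalised: with `L = log (c / a)` and `a = 4π|ν|`. -/
theorem integral_axis_normalised {f : H3 → ℂ} (ν : ℂ) (hν : ν ≠ 0) (hc : Continuous f)
    (hb : ∃ C, ∀ q, ‖f q‖ ≤ C)
    (htr : ∀ b (q : H3), f ⟨q.z + b, q.y, q.y_pos⟩ = addCharC ν b * f q)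
    (heig : ∀ k, IsKernel k → ∀ p, ∫ q, k (coshDist p q) * f q ∂vol = sphZero k * f p)
    {c : ℝ} (hc0 : 0 < c) {X : ℝ} (hX : 0 < X) :
    ∫ v, ((Real.exp (-(X * Real.cosh v)) : ℝ) : ℂ) *
        (((Real.exp (-(c ^ 2 / 2 * Real.exp v * X⁻¹)) / besselK0 c : ℝ) : ℂ) *
          (f (ofLog (0, v + Real.log (c / (4 * π * ‖ν‖)))) /
            ((Real.exp (v + Real.log (c / (4 * π * ‖ν‖))) : ℝ) : ℂ))) =
      2 * (f (ofLog (0, Real.log (X / (4 * π * ‖ν‖)))) /
        ((Real.exp (Real.log (X / (4 * π * ‖ν‖))) : ℝ) : ℂ)) := by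
  set a := 4 * π * ‖ν‖ with ha
  have ha0 : 0 < a := by positivity
  set r : ℝ → ℂ := fun s => f (ofLog (0, s)) / ((Real.exp s : ℝ) : ℂ) with hr
  set L : ℝ → ℝ := fun c => Real.log (c / a)
  set P : ℝ → ℝ → ℝ → ℂ := fun c X v =>
    ((Real.exp (-(c ^ 2 / 2 * Real.exp v * X⁻¹)) / besselK0 c : ℝ) : ℂ) * r (v + L c)
  show ∫ v, ((Real.exp (-(X * Real.cosh v)) : ℝ) : ℂ) * P c X v = 2 * r (Real.log (X / a))
  set t := Real.log (X / a) with ht
  have het : Real.exp t = X / a := Real.exp_log (by positivity)
  have heL : Real.exp (L c) = c / a := Real.exp_log (by positivity)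
  have hK : (besselK0 c : ℂ) ≠ 0 := by exact_mod_cast (besselK0_pos hc0).ne'
  have het' : ((Real.exp t : ℝ) : ℂ) ≠ 0 := by exact_mod_cast (Real.exp_pos t).ne'
  have h := integral_axis_identity ν hc hb htr heig hc0 t
  rw [← integral_add_right_eq_self _ (L c)] at h
  have e : ∀ v,
      ((Real.exp (t - (v + L c)) * Real.exp (-(a ^ 2 * Real.exp (t + (v + L c)) / (2 * c) +
      c * Real.cosh (t - (v + L c))))) : ℝ) * f (ofLog (0, v + L c)) =
      ((Real.exp t * besselK0 c : ℝ) : ℂ) *
        (((Real.exp (-(X * Real.cosh v)) : ℝ) : ℂ) * P c X v) := by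
    intro v
    have hx : a ^ 2 * Real.exp (t + (v + L c)) / (2 * c) + c * Real.cosh (t - (v + L c)) =
        X * Real.cosh v + c ^ 2 / 2 * Real.exp v * X⁻¹ := by
      rw [Real.cosh_eq, Real.cosh_eq, Real.exp_add, Real.exp_add, neg_sub, Real.exp_sub,
        Real.exp_sub, Real.exp_add, het, heL, Real.exp_neg]
      field_simp
      ring
    rw [hx]
    simp only [P, r, neg_add, Real.exp_add, Real.exp_sub]
    push_cast
    field_simp
  simp only [← ha] at h
  simp only [e] at h
  rw [integral_const_mul] at h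
  have hne : ((Real.exp t * besselK0 c : ℝ) : ℂ) ≠ 0 := by
    exact_mod_cast mul_ne_zero (Real.exp_pos t).ne' (besselK0_pos hc0).ne'
  refine mul_left_cancel₀ hne (h.trans ?_)
  simp only [r]
  push_cast at het' ⊢
  field_simp

/-- Bounded eigenfunctions transforming by a nontrivial character are multiples of the Whittaker
function. -/
theorem eq_whittaker_of_eigen {f : H3 → ℂ} (ν : ℂ) (hν : ν ≠ 0) (hc : Continuous f)
    (hb : ∃ C, ∀ q, ‖f q‖ ≤ C)
    (htr : ∀ b (q : H3), f ⟨q.z + b, q.y, q.y_pos⟩ = addCharC ν b * f q)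
    (heig : ∀ k, IsKernel k → ∀ p, ∫ q, k (coshDist p q) * f q ∂vol = sphZero k * f p) (p : H3) :
    f p = (f base / whittaker ν base) * whittaker ν p := by
  obtain ⟨B, hB⟩ := hb
  have hB0 : 0 ≤ B := (norm_nonneg _).trans (hB base)
  set a := 4 * π * ‖ν‖ with ha
  have ha0 : 0 < a := by positivity
  -- values on the axis, divided by the height
  set r : ℝ → ℂ := fun s => f (ofLog (0, s)) / ((Real.exp s : ℝ) : ℂ) with hr
  have hrc : Continuous r := by
    refine (hc.comp (continuous_ofLog.comp (continuous_const.prodMk continuous_id))).div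
      (by fun_prop) fun s => ?_
    exact_mod_cast (Real.exp_pos s).ne'
  have hrb : ∀ s, ‖r s‖ ≤ B * Real.exp (-s) := fun s => by
    rw [norm_div, Complex.norm_real, Real.norm_eq_abs, Real.abs_exp, Real.exp_neg, ← div_eq_mul_inv]
    exact div_le_div_of_nonneg_right (hB _) (Real.exp_pos s).le
  set L : ℝ → ℝ := fun c => Real.log (c / a)
  -- the normalised integral
  set P : ℝ → ℝ → ℝ → ℂ := fun c X v =>
    ((Real.exp (-(c ^ 2 / 2 * Real.exp v * X⁻¹)) / besselK0 c : ℝ) : ℂ) * r (v + L c)
  have hP : ∀ c, 0 < c → ∀ X, 0 < X → ∫ v, ((Real.exp (-(X * Real.cosh v)) : ℝ) : ℂ) * P c X v =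
      2 * r (Real.log (X / a)) :=
    fun c hc0 X hX => integral_axis_normalised ν hν hc ⟨B, hB⟩ htr heig hc0 hX
  have key :
      ∀ c c', 0 < c → 0 < c' → r (L c) / (besselK0 c : ℂ) = r (L c') / (besselK0 c' : ℂ) := by
    intro c c' hc1 hc2
    by_contra hne
    set w := conj (r (L c) / (besselK0 c : ℂ) - r (L c') / (besselK0 c' : ℂ))
    set G : ℝ → ℝ → ℝ := fun X v => (w * (P c X v - P c' X v)).re
    have hPc : ∀ d X, Continuous (P d X) := fun d X =>
      (by fun_prop : Continuous fun v : ℝ =>
        (((Real.exp (-(d ^ 2 / 2 * Real.exp v * X⁻¹)) / besselK0 d : ℝ)) : ℂ)).mul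
        (hrc.comp (continuous_add_const _))
    have hPb : ∀ d, 0 < d → ∀ X v, 0 < X →
        ‖P d X v‖ ≤ B * Real.exp (-L d) / besselK0 d * Real.exp (-v) := by
      intro d hd X v hX
      have hK := besselK0_pos hd
      simp only [P, norm_mul, Complex.norm_real, Real.norm_eq_abs]
      rw [abs_of_pos (by positivity)]
      calc _ ≤ 1 / besselK0 d * (B * Real.exp (-(v + L d))) := by
            refine mul_le_mul (div_le_div_of_nonneg_right (Real.exp_le_one_iff.mpr ?_) hK.le)
              (hrb _) (norm_nonneg _) (by positivity)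
            have : 0 ≤ d ^ 2 / 2 * Real.exp v * X⁻¹ := by positivity
            linarith
        _ = _ := by rw [neg_add, Real.exp_add]; ring
    set M := ‖w‖ * (B * Real.exp (-L c) / besselK0 c + B * Real.exp (-L c') / besselK0 c')
    have hGb : ∀ X v, 0 < X → |G X v| ≤ M * Real.exp (-v) := fun X v hX => by
      refine (Complex.abs_re_le_norm _).trans ?_
      rw [norm_mul, mul_assoc]
      refine mul_le_mul_of_nonneg_left ((norm_sub_le _ _).trans ?_) (norm_nonneg _)
      rw [add_mul]
      exact add_le_add (hPb c hc1 X v hX) (hPb c' hc2 X v hX)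
    -- continuity in `(v, 1/X)` at the limit point
    set F : ℝ × ℝ → ℝ := fun x => (w * (
      ((Real.exp (-(c ^ 2 / 2 * Real.exp x.1 * x.2)) / besselK0 c : ℝ) : ℂ) * r (x.1 + L c) -
      ((Real.exp (-(c' ^ 2 / 2 * Real.exp x.1 * x.2)) / besselK0 c' : ℝ) : ℂ) * r (x.1 + L c'))).re
    have hFc : Continuous F := by fun_prop
    have hF0 : 0 < F (0, 0) := by
      have : F (0, 0) =
          Complex.normSq (r (L c) / (besselK0 c : ℂ) - r (L c') / (besselK0 c' : ℂ)) := by
        have e : w * (r (L c) / (besselK0 c : ℂ) - r (L c') / (besselK0 c' : ℂ)) =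
            (Complex.normSq (r (L c) / (besselK0 c : ℂ) - r (L c') / (besselK0 c' : ℂ)) : ℂ) :=
          Complex.normSq_eq_conj_mul_self.symm
        rw [← Complex.ofReal_re (Complex.normSq _), ← e]
        simp only [F, mul_zero, neg_zero, Real.exp_zero, zero_add]
        push_cast
        simp only [div_eq_mul_inv, one_mul]
        congr 2
        ring
      rw [this]
      exact Complex.normSq_pos.mpr (sub_ne_zero.mpr hne)
    obtain ⟨η, hη, hball⟩ := Metric.mem_nhds_iff.mp
      (hFc.continuousAt.eventually (lt_mem_nhds (half_lt_self hF0)))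
    refine false_of_laplace_integrals_eq_zero (G := G) (fun X => ?_) (M := M) ?_ hGb (half_pos hF0)
      (half_pos hη) (X₀ := (η / 2)⁻¹) (fun X v hX hv => ?_) fun X hX => ?_
    · exact Complex.continuous_re.comp (continuous_const.mul ((hPc c X).sub (hPc c' X)))
    · have h1 := besselK0_pos hc1
      have h2 := besselK0_pos hc2
      positivity
    · have hX0 : 0 < X := lt_of_lt_of_le (by positivity) hX
      have hmem : (v, X⁻¹) ∈ Metric.ball ((0 : ℝ), (0 : ℝ)) η := by
        rw [Metric.mem_ball, Prod.dist_eq, dist_zero_right, dist_zero_right, Real.norm_eq_abs,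
          Real.norm_eq_abs, abs_of_pos (inv_pos.mpr hX0), max_lt_iff]
        exact ⟨by linarith, lt_of_le_of_lt (inv_le_of_inv_le₀ (by positivity) hX) (half_lt_self hη)⟩
      exact (hball hmem).le
    · have hi : ∀ d, 0 < d →
          Integrable fun v : ℝ => ((Real.exp (-(X * Real.cosh v)) : ℝ) : ℂ) * P d X v :=
        fun d hd => integrable_exp_neg_cosh_mul (hPc d X)
          (by have := besselK0_pos hd; positivity) (fun v => hPb d hd X v hX) hX
      have h1 := hP c hc1 X hX
      have h2 := hP c' hc2 X hX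
      have h3 : ∫ v, w * (((Real.exp (-(X * Real.cosh v)) : ℝ) : ℂ) * P c X v -
          ((Real.exp (-(X * Real.cosh v)) : ℝ) : ℂ) * P c' X v) = 0 := by
        rw [integral_const_mul, integral_sub (hi c hc1) (hi c' hc2), h1, h2, sub_self, mul_zero]
      have h4 := integral_re (𝕜 := ℂ) (((hi c hc1).sub (hi c' hc2)).const_mul w)
      simp only [Pi.sub_apply, h3, RCLike.re_to_complex, Complex.zero_re] at h4
      refine Eq.trans ?_ h4
      refine integral_congr_ae (Filter.Eventually.of_forall fun v => ?_)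
      simp only [G, ← mul_sub, mul_left_comm w, Complex.re_ofReal_mul]
  -- conclusion
  have hy := p.y_pos
  have h1 := key (a * p.y) a (by positivity) ha0
  simp only [L, mul_div_cancel_left₀ _ ha0.ne', div_self ha0.ne', Real.log_one, r,
    Real.exp_log hy, Real.exp_zero, Complex.ofReal_one, div_one] at h1
  have hb1 : ofLog ((0 : ℂ), (0 : ℝ)) = base := H3.ext rfl (by simp [base])
  rw [hb1] at h1
  have hfp : f p = addCharC ν p.z * f (ofLog (0, Real.log p.y)) := by
    rw [← htr p.z (ofLog (0, Real.log p.y))]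
    congr 1
    exact H3.ext (by simp) (by simp [Real.exp_log hy])
  have hwb : whittaker ν base = (besselK0 a : ℂ) := by
    simp [whittaker, base, addCharC, ha]
  have hKa : (besselK0 a : ℂ) ≠ 0 := by exact_mod_cast (besselK0_pos ha0).ne'
  have hKy : (besselK0 (a * p.y) : ℂ) ≠ 0 := by
    exact_mod_cast (besselK0_pos (mul_pos ha0 hy)).ne'
  have hyC : (p.y : ℂ) ≠ 0 := by exact_mod_cast hy.ne'
  rw [hfp, hwb, whittaker, ← ha]
  field_simp at h1
  push_cast
  field_simp
  linear_combination addCharC ν p.z * h1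

end H3

end Fermat.Agent.ResidualThree

end
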