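import Fermat.Agent.ResidualThree.Spherical.Whittaker

/-!
# Kernels that decay like the cube of the inverse distance

Used to apply the eigen equation to the kernels `exp (-c cosh distance)`.
-/

noncomputable section

open MeasureTheory Real Set Filter Topology

namespace Fermat.Agent.ResidualThree

namespace H3

/-- A kernel decaying fast enough to act on bounded functions. -/
structure IsDecayKernel (k : ℝ → ℂ) : Prop where
  cont : Continuous k
  bound : ∃ C : ℝ, 0 ≤ C ∧ ∀ c : ℝ, 1 ≤ c → ‖k c‖ ≤ C / c ^ 3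

variable {k : ℝ → ℂ}

theorem IsDecayKernel.of_exp_bound (hk : Continuous k) {C δ : ℝ} (hδ : 0 < δ)
    (h : ∀ c : ℝ, 1 ≤ c → ‖k c‖ ≤ C * Real.exp (-(δ * c))) : IsDecayKernel k := by
  refine ⟨hk, max C 0 * (6 / δ ^ 3), by positivity, fun c hc => ?_⟩
  refine (h c hc).trans ?_
  have hx : 0 ≤ δ * c := by positivity
  have h3 : (δ * c) ^ 3 / 6 ≤ Real.exp (δ * c) := by
    have := Real.pow_div_factorial_le_exp (δ * c) hx 3
    norm_num [Nat.factorial] at this ⊢
    exact this
  have hc0 : 0 < c := zero_lt_one.trans_le hc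
  calc C * Real.exp (-(δ * c)) ≤ max C 0 * Real.exp (-(δ * c)) := by
        gcongr; exact le_max_left _ _
    _ ≤ max C 0 * (6 / (δ ^ 3 * c ^ 3)) := by
        gcongr
        rw [Real.exp_neg, inv_le_iff_one_le_mul₀ (Real.exp_pos _), div_mul_eq_mul_div,
          le_div_iff₀ (by positivity)]
        rw [mul_pow] at h3
        linarith
    _ = _ := by field_simp

theorem exp_abs_le_two_mul_cosh (s : ℝ) : Real.exp |s| ≤ 2 * Real.cosh s := by
  rw [← Real.cosh_abs, Real.cosh_eq]
  linarith [Real.exp_pos (-|s|)]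

theorem inv_cosh_sq_mul_exp_le (s : ℝ) : Real.exp (-s) / Real.cosh s ^ 2 ≤ 8 / (1 + s ^ 2) := by
  have h1 := exp_abs_le_two_mul_cosh s
  have h2 : 1 + s ^ 2 ≤ 2 * Real.exp |s| := by
    have := Real.quadratic_le_exp_of_nonneg (abs_nonneg s)
    rw [sq_abs] at this
    linarith [abs_nonneg s]
  have h3 : Real.exp (-s) * Real.exp |s| ≤ Real.exp |s| ^ 2 := by
    rw [sq]
    gcongr
    exact neg_le_abs s
  rw [div_le_div_iff₀ (pow_pos (Real.cosh_pos s) 2) (by positivity)]
  calc Real.exp (-s) * (1 + s ^ 2) ≤ Real.exp (-s) * (2 * Real.exp |s|) := by gcongr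
    _ ≤ 2 * Real.exp |s| ^ 2 := by linarith
    _ ≤ 2 * (2 * Real.cosh s) ^ 2 := by gcongr
    _ = 8 * Real.cosh s ^ 2 := by ring

theorem inv_cosh_sq_le (s : ℝ) : 1 / Real.cosh s ^ 2 ≤ 8 / (1 + s ^ 2) := by
  rcases le_total s 0 with h | h
  · exact le_trans (by gcongr; exact Real.one_le_exp (by linarith)) (inv_cosh_sq_mul_exp_le s)
  · have h' := inv_cosh_sq_mul_exp_le (-s)
    rw [neg_neg, Real.cosh_neg, neg_sq] at h'
    exact le_trans (by gcongr; exact Real.one_le_exp h) h'

/-- Beyond `a` the bound `C / u ^ 3` and the kernel are integrable, and `∫ ‖k‖ ≤ C / (2 a ^ 2)`. -/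
theorem tail_integral_bounds {C : ℝ} (hk : Continuous k) (h : ∀ c : ℝ, 1 ≤ c → ‖k c‖ ≤ C / c ^ 3)
    {a : ℝ} (ha : 1 ≤ a) :
    IntegrableOn (fun u => C / u ^ 3) (Ioi a) ∧ IntegrableOn k (Ioi a) ∧
      ∫ u in Ioi a, ‖k u‖ ≤ C / 2 / a ^ 2 := by
  have ha0 : 0 < a := zero_lt_one.trans_le ha
  have hi : IntegrableOn (fun u : ℝ => u ^ (-3 : ℝ)) (Ioi a) :=
    integrableOn_Ioi_rpow_of_lt (by norm_num) ha0
  have e : EqOn (fun u : ℝ => C * u ^ (-3 : ℝ)) (fun u => C / u ^ 3) (Ioi a) := fun u hu => by
    simp only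
    rw [Real.rpow_neg (ha0.trans hu).le, ← div_eq_mul_inv]
    norm_num
  have hC : IntegrableOn (fun u => C / u ^ 3) (Ioi a) :=
      IntegrableOn.congr_fun (hi.const_mul C) e measurableSet_Ioi
  have hb : ∀ u ∈ Ioi a, ‖k u‖ ≤ C / u ^ 3 := fun u hu => h u (ha.trans (le_of_lt hu))
  have hki : IntegrableOn k (Ioi a) := Integrable.mono' hC hk.aestronglyMeasurable
    ((ae_restrict_mem measurableSet_Ioi).mono hb)
  refine ⟨hC, hki, (setIntegral_mono_on hki.norm hC measurableSet_Ioi hb).trans_eq ?_⟩
  rw [← setIntegral_congr_fun measurableSet_Ioi e, integral_const_mul,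
    integral_Ioi_rpow_of_lt (by norm_num) ha0]
  rw [show (-3 : ℝ) + 1 = -((2 : ℕ) : ℝ) by norm_num, Real.rpow_neg ha0.le, Real.rpow_natCast]
  push_cast
  field_simp

/-- Decaying kernels are integrable. -/
theorem IsDecayKernel.integrable_base (hk : IsDecayKernel k) :
    Integrable (fun q => k (coshDist base q)) vol := by
  obtain ⟨C, hC0, hC⟩ := hk.bound
  rw [integrable_iff_ofLog, Measure.volume_eq_prod]
  have hc : Continuous fun q : ℂ × ℝ => Real.exp (-(2 * q.2)) • k (coshDist base (ofLog q)) :=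
    (by fun_prop : Continuous fun q : ℂ × ℝ => Real.exp (-(2 * q.2))).smul
      ((continuous_kernel hk.cont base).comp continuous_ofLog)
  rw [integrable_prod_iff' hc.aestronglyMeasurable]
  constructor
  · refine Filter.Eventually.of_forall fun s => ?_
    have hpos := Real.exp_pos s
    set m := min 1 (1 / (2 * Real.exp s)) with hm
    have hm0 : 0 < m := lt_min one_pos (by positivity)
    have hz : Integrable fun z : ℂ => C / m ^ 3 * (1 + ‖z‖ ^ 2) ^ (-(6 : ℝ) / 2) :=
      (integrable_rpow_neg_one_add_norm_sq (by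
        rw [Complex.finrank_real_complex]; norm_num)).const_mul _
    refine Integrable.smul (Real.exp (-(2 * s))) (Integrable.mono' hz
      ((continuous_kernel hk.cont base).comp (continuous_ofLog.comp
        (continuous_id.prodMk continuous_const))).aestronglyMeasurable
      (Filter.Eventually.of_forall fun z => ?_))
    refine (hC _ (one_le_coshDist _ _)).trans ?_
    rw [show (-(6 : ℝ) / 2) = -((3 : ℕ) : ℝ) by norm_num, Real.rpow_neg (by positivity),
      Real.rpow_natCast, div_mul_eq_mul_div, ← div_eq_mul_inv, div_div, ← mul_pow]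
    refine div_le_div_of_nonneg_left hC0 (by positivity) (pow_le_pow_left₀ (by positivity) ?_ 3)
    rw [coshDist_base_ofLog, Complex.normSq_eq_norm_sq, mul_comm, mul_add, mul_one]
    refine add_le_add ((min_le_left _ _).trans (Real.one_le_cosh s)) ?_
    calc m * ‖z‖ ^ 2 ≤ 1 / (2 * Real.exp s) * ‖z‖ ^ 2 := by gcongr; exact min_le_right _ _
      _ = _ := by ring
  · have e : ∀ s : ℝ, ∫ z : ℂ, ‖Real.exp (-(2 * s)) • k (coshDist base (ofLog (z, s)))‖ =
        Real.exp (-s) * (2 * π * ∫ u in Ioi (Real.cosh s), ‖k u‖) := by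
      intro s
      have h := integral_horosphere_base (fun c => ((‖k c‖ : ℝ) : ℂ)) s
      rw [abelTransform, integral_complex_ofReal, integral_complex_ofReal] at h
      have h' : ∫ z : ℂ, ‖k (coshDist base (ofLog (z, s)))‖ =
          Real.exp s * (2 * π * ∫ u in Ioi (Real.cosh s), ‖k u‖) := by exact_mod_cast h
      simp only [norm_smul, Real.norm_eq_abs, Real.abs_exp, integral_const_mul, h', ← mul_assoc,
        ← Real.exp_add]
      ring_nf
    refine Integrable.mono' ((integrable_inv_one_add_sq).const_mul (8 * π * C)) ?_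
      (Filter.Eventually.of_forall fun s => ?_)
    · exact (hc.norm.comp continuous_swap).aestronglyMeasurable.integral_prod_right'
        (f := fun x : ℝ × ℂ => ‖Real.exp (-(2 * x.1)) • k (coshDist base (ofLog (x.2, x.1)))‖)
    · simp only [e]
      obtain ⟨-, -, hle⟩ := tail_integral_bounds hk.cont hC (Real.one_le_cosh s)
      have h0 : 0 ≤ ∫ u in Ioi (Real.cosh s), ‖k u‖ :=
        setIntegral_nonneg measurableSet_Ioi fun _ _ => norm_nonneg _
      rw [Real.norm_eq_abs, abs_of_nonneg (by positivity)]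
      calc Real.exp (-s) * (2 * π * ∫ u in Ioi (Real.cosh s), ‖k u‖)
          ≤ Real.exp (-s) * (2 * π * (C / 2 / Real.cosh s ^ 2)) := by gcongr
        _ = π * C * (Real.exp (-s) / Real.cosh s ^ 2) := by ring
        _ ≤ π * C * (8 / (1 + s ^ 2)) := by
            exact mul_le_mul_of_nonneg_left (inv_cosh_sq_mul_exp_le s) (by positivity)
        _ = _ := by ring

theorem IsDecayKernel.integrable (hk : IsDecayKernel k) (p : H3) :
    Integrable (fun q => k (coshDist p q)) vol := by
  have h := ((measurePreserving_smul (upTo p)⁻¹).integrable_comp_emb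
    (measurableEmbedding_const_smul _)).mpr hk.integrable_base
  refine h.congr (Filter.Eventually.of_forall fun q => ?_)
  simp only [Function.comp_apply]
  rw [← coshDist_smul (upTo p) base, smul_inv_smul, upTo_smul_base]

theorem IsDecayKernel.integrable_mul (hk : IsDecayKernel k) (p : H3) {F : H3 → ℂ}
    (hF : Continuous F) {B : ℝ} (hB : ∀ q, ‖F q‖ ≤ B) :
    Integrable (fun q => k (coshDist p q) * F q) vol :=
  (hk.integrable p).mul_bdd hF.aestronglyMeasurable (Filter.Eventually.of_forall hB)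

/-- The cut-off. -/
def cutOff (n : ℕ) (c : ℝ) : ℝ := max 0 (min 1 ((n : ℝ) + 2 - |c|))

theorem abs_cutOff_le (n : ℕ) (c : ℝ) : |cutOff n c| ≤ 1 := by
  rw [cutOff, abs_of_nonneg (le_max_left _ _)]
  exact max_le zero_le_one (min_le_left _ _)

theorem eventually_cutOff_eq_one (c : ℝ) : ∀ᶠ n : ℕ in atTop, cutOff n c = 1 := by
  obtain ⟨N, hN⟩ := exists_nat_ge |c|
  filter_upwards [eventually_ge_atTop N] with n hn
  have : (N : ℝ) ≤ n := by exact_mod_cast hn
  rw [cutOff, min_eq_left (by linarith), max_eq_right zero_le_one]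

theorem isKernel_cutOff (hk : Continuous k) (n : ℕ) :
    IsKernel fun c => k c * ((cutOff n c : ℝ) : ℂ) := by
  refine ⟨hk.mul (Complex.continuous_ofReal.comp (by unfold cutOff; fun_prop)),
    HasCompactSupport.intro (isCompact_Icc (a := -((n : ℝ) + 2)) (b := (n : ℝ) + 2)) fun c hc => ?_⟩
  rw [Set.mem_Icc, ← abs_le, not_le] at hc
  rw [cutOff, max_eq_left ((min_le_right _ _).trans (by linarith)), Complex.ofReal_zero, mul_zero]

theorem norm_mul_cutOff_le (n : ℕ) (c : ℝ) : ‖k c * ((cutOff n c : ℝ) : ℂ)‖ ≤ ‖k c‖ := by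
  rw [norm_mul, Complex.norm_real, Real.norm_eq_abs]
  exact mul_le_of_le_one_right (norm_nonneg _) (abs_cutOff_le n c)

/-- A bounded eigenfunction at spectral parameter zero is one for decaying kernels too. -/
theorem integral_decayKernel_mul {F : H3 → ℂ} (hF : Continuous F) {B : ℝ} (hB : ∀ q, ‖F q‖ ≤ B)
    (p : H3) (hEig : ∀ k : ℝ → ℂ, IsKernel k →
      ∫ q, k (coshDist p q) * F q ∂vol = sphZero k * F p)
    (hk : IsDecayKernel k) :
    ∫ q, k (coshDist p q) * F q ∂vol = sphZero k * F p := by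
  obtain ⟨C, hC0, hC⟩ := hk.bound
  set kn : ℕ → ℝ → ℂ := fun n c => k c * ((cutOff n c : ℝ) : ℂ)
  have hkn : ∀ c, Tendsto (fun n => kn n c) atTop (𝓝 (k c)) := fun c =>
    tendsto_const_nhds.congr' ((eventually_cutOff_eq_one c).mono fun n hn => by simp [kn, hn])
  have h1 : Tendsto (fun n => ∫ q, kn n (coshDist p q) * F q ∂vol) atTop
      (𝓝 (∫ q, k (coshDist p q) * F q ∂vol)) := by
    refine tendsto_integral_of_dominated_convergence (fun q => ‖k (coshDist p q)‖ * B)
      (fun n =>
        ((continuous_kernel (isKernel_cutOff hk.cont n).cont p).mul hF).aestronglyMeasurable)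
      ((hk.integrable p).norm.mul_const B)
      (fun n => Filter.Eventually.of_forall fun q => ?_)
      (Filter.Eventually.of_forall fun q => (hkn _).mul_const _)
    rw [norm_mul]
    exact mul_le_mul (norm_mul_cutOff_le n _) (hB q) (norm_nonneg _) (norm_nonneg _)
  have h2 : Tendsto (fun n => sphZero (kn n)) atTop (𝓝 (sphZero k)) := by
    refine tendsto_integral_of_dominated_convergence (fun s => 8 * π * C * (1 + s ^ 2)⁻¹)
      (fun n => (isKernel_cutOff hk.cont n).continuous_abel.aestronglyMeasurable)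
      (integrable_inv_one_add_sq.const_mul _)
      (fun n => Filter.Eventually.of_forall fun s => ?_)
      (Filter.Eventually.of_forall fun s => ?_)
    · have hb : ∀ c, 1 ≤ c → ‖kn n c‖ ≤ C / c ^ 3 := fun c hc =>
        (norm_mul_cutOff_le n c).trans (hC c hc)
      obtain ⟨-, -, hle⟩ :=
        tail_integral_bounds (isKernel_cutOff hk.cont n).cont hb (Real.one_le_cosh s)
      rw [abelTransform, norm_mul, Complex.norm_mul, Complex.norm_real, Real.norm_eq_abs,
        abs_of_pos Real.pi_pos, Complex.norm_two]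
      calc 2 * π * ‖∫ u in Ioi (Real.cosh s), kn n u‖
          ≤ 2 * π * (C / 2 / Real.cosh s ^ 2) := by
            gcongr; exact (norm_integral_le_integral_norm _).trans hle
        _ = π * C * (1 / Real.cosh s ^ 2) := by ring
        _ ≤ π * C * (8 / (1 + s ^ 2)) := by
            exact mul_le_mul_of_nonneg_left (inv_cosh_sq_le s) (by positivity)
        _ = _ := by ring
    · refine Tendsto.const_mul _ ?_
      refine tendsto_integral_of_dominated_convergence (fun u => C / u ^ 3)
        (fun n => (isKernel_cutOff hk.cont n).cont.aestronglyMeasurable)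
        (tail_integral_bounds hk.cont hC (Real.one_le_cosh s)).1
        (fun n => ?_) (Filter.Eventually.of_forall fun u => hkn u)
      filter_upwards [ae_restrict_mem measurableSet_Ioi] with u hu
      exact (norm_mul_cutOff_le n u).trans (hC u ((Real.one_le_cosh s).trans (le_of_lt hu)))
  have h3 := h2.mul_const (F p)
  simp only [← hEig _ (isKernel_cutOff hk.cont _), kn] at h3
  exact tendsto_nhds_unique h1 h3

end H3

end Fermat.Agent.ResidualThree

end
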