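import Fermat.Agent.ResidualThree.Spherical.SphTest

/-!
# Characters of the algebra of even test functions

A bounded multiplicative functional commuting with conjugation is `g ↦ ∫ g(s) cosh(λ s) ds` with
`λ` real of size at most one or purely imaginary: d'Alembert's functional equation.
-/

noncomputable section

open MeasureTheory Real Set Filter Topology
open scoped ContDiff ComplexConjugate

namespace Fermat.Agent.ResidualThree

/-- Symmetrised translation. -/
def avgShift (t : ℝ) (g : ℝ → ℂ) : ℝ → ℂ := fun s => (g (s + t) + g (s - t)) / 2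

variable {g h : ℝ → ℂ}

theorem IsSphTest.avgShift (hg : IsSphTest g) (t : ℝ) : IsSphTest (avgShift t g) := by
  have h1 : HasCompactSupport fun s => g (s + t) :=
    hg.compact.comp_homeomorph (Homeomorph.addRight t)
  have h2 : HasCompactSupport fun s => g (s - t) :=
    hg.compact.comp_homeomorph (Homeomorph.addRight (-t))
  refine ⟨?_, ?_, fun s => ?_⟩
  · exact ((hg.smooth.comp (contDiff_id.add contDiff_const)).add
      (hg.smooth.comp (contDiff_id.sub contDiff_const))).div_const 2
  · exact (h1.add h2).mul_right (f' := fun _ => (2 : ℂ)⁻¹)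
  · simp only [ResidualThree.avgShift]
    rw [show -s + t = -(s - t) by ring, show -s - t = -(s + t) by ring, hg.even, hg.even, add_comm]

theorem convR_comm (g h : ℝ → ℂ) : convR g h = convR h g := by
  funext s
  simp only [convR]
  rw [← integral_sub_left_eq_self (fun t => g t * h (s - t)) volume s]
  simp only [sub_sub_cancel, mul_comm]

theorem convR_avgShift (hg : IsSphTest g) (hh : IsSphTest h) (t : ℝ) :
    convR g (avgShift t h) = avgShift t (convR g h) := by
  funext s
  have i1 : ∀ u : ℝ, Integrable fun x => g x * h (u - x) := fun u =>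
    hg.integrable_mul (hh.continuous.comp (continuous_const.sub continuous_id))
  simp only [convR, avgShift]
  rw [← integral_add (i1 _) (i1 _), ← integral_div]
  refine integral_congr_ae (Filter.Eventually.of_forall fun x => ?_)
  simp only
  ring_nf

theorem convR_avgShift_left (hg : IsSphTest g) (hh : IsSphTest h) (t : ℝ) :
    convR (avgShift t g) h = convR g (avgShift t h) := by
  rw [convR_comm, convR_avgShift hh hg, convR_avgShift hg hh, convR_comm]

/-- The averaged shift by `t` is supported within `|t|` of the support. -/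
theorem avgShift_eq_zero {R₀ : ℝ} (hR₀ : tsupport g ⊆ Metric.closedBall 0 R₀) {t x : ℝ}
    (h : R₀ + |t| < |x|) : avgShift t g x = 0 := by
  have hz : ∀ w : ℝ, |w| ≤ |t| → g (x + w) = 0 := fun w hw =>
    image_eq_zero_of_notMem_tsupport fun hm => by
      have h1 := hR₀ hm
      rw [mem_closedBall_zero_iff, Real.norm_eq_abs] at h1
      have h2 := abs_sub_abs_le_abs_sub x (-w)
      rw [abs_neg, sub_neg_eq_add] at h2
      linarith
  simp [avgShift, hz t le_rfl, sub_eq_add_neg, hz (-t) (abs_neg t).le]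

/-- Convolution with an even function is the mean of the averaged shifts. -/
theorem convR_eq_integral_avgShift (hg : IsSphTest g) (hh : IsSphTest h) (x : ℝ) :
    convR g h x = ∫ t, g t * avgShift t h x := by
  have i1 : Integrable fun t => g t * h (x - t) :=
    hg.integrable_mul (hh.continuous.comp (continuous_const.sub continuous_id))
  have i2 : Integrable fun t => g t * h (x + t) :=
    hg.integrable_mul (hh.continuous.comp (continuous_const.add continuous_id))
  have e : ∫ t, g t * h (x + t) = ∫ t, g t * h (x - t) := by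
    rw [← integral_neg_eq_self]
    simp only [hg.even, ← sub_eq_add_neg]
  simp only [convR, avgShift, mul_div_assoc', mul_add, integral_div]
  rw [integral_add i2 i1, e]
  ring

theorem avgShift_avgShift (s t : ℝ) :
    avgShift s (avgShift t g) =
      fun x => (1 / 2 : ℂ) * avgShift (s + t) g x + (1 / 2 : ℂ) * avgShift (s - t) g x := by
  funext x
  simp only [avgShift]
  ring_nf

/-- Solutions of d'Alembert's equation. -/
theorem exists_param_of_dAlembert {ψ : ℝ → ℝ} (hc : Continuous ψ) (h0 : ψ 0 = 1)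
    (he : ∀ s t, ψ (s + t) + ψ (s - t) = 2 * ψ s * ψ t) :
    ∃ l : ℂ, (l.im = 0 ∨ l.re = 0) ∧ ∀ s, (ψ s : ℂ) = Complex.cosh (l * s) := by
  have heven : ∀ t, ψ (-t) = ψ t := fun t => by
    have h1 := he 0 t
    rw [zero_add, zero_sub, h0] at h1
    linarith
  set P : ℝ → ℝ := fun s => ∫ u in (0 : ℝ)..s, ψ u
  have hP : ∀ s, HasDerivAt P (ψ s) s := fun s => (hc.integral_hasStrictDerivAt 0 s).hasDerivAt
  obtain ⟨a, ha⟩ : ∃ a, P a ≠ 0 := by
    by_contra hall
    push Not at hall
    have := (hP 0).unique (by rw [funext hall]; exact hasDerivAt_const 0 (0 : ℝ))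
    rw [h0] at this
    exact one_ne_zero this
  have hint : ∀ s, 2 * P a * ψ s = P (s + a) - P (s - a) := by
    intro s
    have e1 : ∫ t in (0 : ℝ)..a, (ψ (s + t) + ψ (s - t)) = 2 * ψ s * P a := by
      simp only [he, intervalIntegral.integral_const_mul, P]
    rw [intervalIntegral.integral_add ((by fun_prop : Continuous fun t =>
      ψ (s + t)).intervalIntegrable _ _)
      ((by fun_prop : Continuous fun t => ψ (s - t)).intervalIntegrable _ _),
      intervalIntegral.integral_comp_add_left, intervalIntegral.integral_comp_sub_left] at e1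
    have e2 : ∀ b c, ∫ u in b..c, ψ u = P c - P b := fun b c => by
      simp only [P]
      rw [intervalIntegral.integral_interval_sub_left (hc.intervalIntegrable _ _)
        (hc.intervalIntegrable _ _)]
    rw [e2, e2, add_zero, sub_zero] at e1
    linarith
  set ψ1 : ℝ → ℝ := fun s => (ψ (s + a) - ψ (s - a)) / (2 * P a)
  have hd1 : ∀ s, HasDerivAt ψ (ψ1 s) s := fun s => by
    have h1 := (((hP (s + a)).comp_add_const s a).sub ((hP (s - a)).comp_sub_const s a)).div_const
      (2 * P a)
    refine h1.congr_of_eventuallyEq (Filter.Eventually.of_forall fun x => ?_)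
    simp only [Pi.sub_apply, ← hint x]
    field_simp
  set ψ2 : ℝ → ℝ := fun s => (ψ1 (s + a) - ψ1 (s - a)) / (2 * P a)
  have hd2 : ∀ s, HasDerivAt ψ1 (ψ2 s) s := fun s =>
    (((hd1 (s + a)).comp_add_const s a).sub ((hd1 (s - a)).comp_sub_const s a)).div_const _
  have hode : ∀ s, ψ2 s = ψ2 0 * ψ s := by
    intro s
    have l1 : ∀ t, HasDerivAt (fun t => ψ (s + t) + ψ (s - t)) (ψ1 (s + t) - ψ1 (s - t)) t :=
      fun t => by
        simpa [sub_eq_add_neg] using ((hd1 (s + t)).comp_const_add s t).fun_add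
          ((hd1 (s - t)).comp_const_sub s t)
    have r1 : ∀ t, HasDerivAt (fun t => ψ (s + t) + ψ (s - t)) (2 * ψ s * ψ1 t) t := fun t => by
      simp only [he]
      exact (hd1 t).const_mul _
    have e : (fun t => ψ1 (s + t) - ψ1 (s - t)) = fun t => 2 * ψ s * ψ1 t :=
      funext fun t => (l1 t).unique (r1 t)
    have l2 : HasDerivAt (fun t => ψ1 (s + t) - ψ1 (s - t)) (ψ2 s + ψ2 s) 0 := by
      have h2 := ((hd2 (s + 0)).comp_const_add s 0).fun_sub ((hd2 (s - 0)).comp_const_sub s 0)
      simpa [sub_neg_eq_add] using h2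
    have h3 := l2.unique (by rw [e]; exact (hd2 0).const_mul (2 * ψ s))
    linarith
  have hψ10 : ψ1 0 = 0 := by
    simp only [ψ1, zero_add, zero_sub, heven, sub_self, zero_div]
  obtain ⟨l, hl, hll⟩ : ∃ l : ℂ, (l.im = 0 ∨ l.re = 0) ∧ l ^ 2 = (ψ2 0 : ℂ) := by
    rcases le_total 0 (ψ2 0) with hc0 | hc0
    · refine ⟨(Real.sqrt (ψ2 0) : ℂ), Or.inl (Complex.ofReal_im _), ?_⟩
      rw [← Complex.ofReal_pow, Real.sq_sqrt hc0]
    · refine ⟨(Real.sqrt (-ψ2 0) : ℂ) * Complex.I, Or.inr (by simp), ?_⟩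
      rw [mul_pow, Complex.I_sq, ← Complex.ofReal_pow, Real.sq_sqrt (by linarith)]
      push_cast
      ring
  refine ⟨l, hl, fun s => ?_⟩
  have hC : ∀ s : ℝ, HasDerivAt (fun s : ℝ => Complex.cosh (l * s)) (Complex.sinh (l * s) * l) s :=
    hasDerivAt_cosh_mul_ofReal l
  have hS : ∀ s : ℝ, HasDerivAt (fun s : ℝ => Complex.sinh (l * s)) (Complex.cosh (l * s) * l) s :=
    hasDerivAt_sinh_mul_ofReal l
  have hE : ∀ (c : ℂ) (s : ℝ), HasDerivAt (fun s : ℝ => Complex.exp (c * s))
      (Complex.exp (c * s) * c) s := fun c s => by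
    simpa [Function.comp_def] using
      (Complex.hasDerivAt_exp (c * s)).comp s (hasDerivAt_mul_ofReal c s)
  set f : ℝ → ℂ := fun s => (ψ s : ℂ) - Complex.cosh (l * s)
  set f1 : ℝ → ℂ := fun s => (ψ1 s : ℂ) - Complex.sinh (l * s) * l
  have hf : ∀ s, HasDerivAt f (f1 s) s := fun s => (hd1 s).ofReal_comp.sub (hC s)
  have hf1 : ∀ s, HasDerivAt f1 (l ^ 2 * f s) s := fun s => by
    refine ((hd2 s).ofReal_comp.sub ((hS s).mul_const l)).congr_deriv ?_
    rw [hode s, hll]
    simp only [f]
    push_cast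
    linear_combination -Complex.cosh (l * s) * hll
  have hu : ∀ s, (f1 s - l * f s) * Complex.exp (l * s) = 0 := by
    have hd : ∀ s, HasDerivAt (fun s => (f1 s - l * f s) * Complex.exp (l * s)) 0 s := fun s => by
      refine (((hf1 s).sub ((hf s).const_mul l)).mul (hE l s)).congr_deriv ?_
      simp only [Pi.sub_apply]
      ring
    intro s
    have h1 := is_const_of_deriv_eq_zero (fun x => (hd x).differentiableAt)
      (fun x => (hd x).deriv) s 0
    simpa [f, f1, h0, hψ10] using h1
  have hv : ∀ s, f s * Complex.exp (-l * s) = 0 := by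
    have hd : ∀ s, HasDerivAt (fun s => f s * Complex.exp (-l * s)) 0 s := fun s => by
      refine ((hf s).mul (hE (-l) s)).congr_deriv ?_
      have := (mul_eq_zero.mp (hu s)).resolve_right (Complex.exp_ne_zero _)
      linear_combination Complex.exp (-l * s) * this
    intro s
    have h1 := is_const_of_deriv_eq_zero (fun x => (hd x).differentiableAt)
      (fun x => (hd x).deriv) s 0
    simpa [f, h0] using h1
  exact sub_eq_zero.mp ((mul_eq_zero.mp (hv s)).resolve_right (Complex.exp_ne_zero _))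

/-- The error of the left Riemann sum with `n` steps on `[-R, R]` for a modulus of
continuity `ε`. -/
theorem norm_integral_sub_riemann_le {F : ℝ → ℂ} (hF : Continuous F) {R ε : ℝ} {n : ℕ} (hR : 0 ≤ R)
    (hn : 0 < n) (hmod : ∀ t t', |t - t'| ≤ 2 * R / n → ‖F t - F t'‖ ≤ ε) :
    ‖(∫ t in -R..R, F t) - ∑ i ∈ Finset.range n,
      ((2 * R / n : ℝ) : ℂ) * F (-R + i * (2 * R / n))‖ ≤ 2 * R * ε := by
  set δ := 2 * R / n with hδ
  have hδ0 : 0 ≤ δ := by positivity
  set a : ℕ → ℝ := fun i => -R + i * δ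
  have ha : a n = R := by simp only [a, δ]; field_simp; ring
  have h := intervalIntegral.sum_integral_adjacent_intervals (μ := volume) (a := a) (n := n)
    (fun k _ => hF.intervalIntegrable (μ := volume) (a k) (a (k + 1)))
  rw [ha, show a 0 = -R by simp [a]] at h
  rw [← h, ← Finset.sum_sub_distrib]
  refine (norm_sum_le_of_le _ (n := fun _ => δ * ε) fun i _ => ?_).trans_eq ?_
  · have e : ((δ : ℝ) : ℂ) * F (a i) = ∫ _ in a i..a (i + 1), F (a i) := by
      rw [intervalIntegral.integral_const, Complex.real_smul]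
      congr 2
      simp only [a]; push_cast; ring
    rw [e, ← intervalIntegral.integral_sub (hF.intervalIntegrable _ _) intervalIntegrable_const]
    refine (intervalIntegral.norm_integral_le_of_norm_le_const (C := ε) fun t ht => ?_).trans_eq ?_
    · refine hmod _ _ ?_
      have e2 : a (i + 1) = a i + δ := by simp only [a]; push_cast; ring
      rw [uIoc_of_le (by linarith), e2] at ht
      rw [abs_of_pos (sub_pos.mpr ht.1)]
      linarith [ht.2]
    · have e2 : a (i + 1) - a i = δ := by simp only [a]; push_cast; ring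
      rw [e2, abs_of_nonneg hδ0, mul_comm]
  · rw [Finset.sum_const, Finset.card_range, nsmul_eq_mul, hδ]
    field_simp

section Main

variable {χ : (ℝ → ℂ) → ℂ}
  (hadd : ∀ g h, IsSphTest g → IsSphTest h → χ (fun s => g s + h s) = χ g + χ h)
  (hsmul : ∀ (c : ℂ) g, IsSphTest g → χ (fun s => c * g s) = c * χ g)

include hadd hsmul in
theorem char_sub (hg : IsSphTest g) (hh : IsSphTest h) :
    χ (fun s => g s - h s) = χ g - χ h := by
  have h1 := hadd g _ hg (hh.smul (-1))
  rw [hsmul _ _ hh] at h1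
  simpa [sub_eq_add_neg] using h1

include hsmul in
theorem char_zero : χ (fun _ => 0) = 0 := by
  have := hsmul 0 _ IsSphTest.zero
  simpa using this

include hadd hsmul in
theorem char_sum {ι : Type*} (S : Finset ι) (G : ι → ℝ → ℂ) (hG : ∀ i, IsSphTest (G i)) :
    IsSphTest (fun s => ∑ i ∈ S, G i s) ∧ χ (fun s => ∑ i ∈ S, G i s) = ∑ i ∈ S, χ (G i) := by
  classical
  induction S using Finset.induction_on with
  | empty => simp [IsSphTest.zero, char_zero hsmul]
  | insert i S hi ih =>
    simp only [Finset.sum_insert hi]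
    exact ⟨(hG i).add ih.1, by rw [hadd _ _ (hG i) ih.1, ih.2]⟩

include hadd hsmul in
/-- A bounded character is continuous along the averaged shifts. -/
theorem continuous_char_avgShift {C : ℝ}
    (hC : ∀ g, IsSphTest g → ‖χ g‖ ≤ C * ∫ s, ‖g s‖ * Real.cosh s) {g₀ : ℝ → ℂ}
    (hg₀ : IsSphTest g₀) : Continuous fun t => χ (avgShift t g₀) := by
  obtain ⟨R₀, hR₀⟩ := hg₀.compact.isCompact.isBounded.subset_closedBall 0
  refine continuous_iff_continuousAt.mpr fun t₀ => ?_
  rw [ContinuousAt, tendsto_iff_norm_sub_tendsto_zero]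
  refine squeeze_zero (g := fun t => C * ∫ s, ‖avgShift t g₀ s - avgShift t₀ g₀ s‖ * Real.cosh s)
    (fun _ => norm_nonneg _) (fun t => ?_) ?_
  · rw [← char_sub hadd hsmul (hg₀.avgShift t) (hg₀.avgShift t₀)]
    exact hC _ ((hg₀.avgShift t).sub (hg₀.avgShift t₀))
  have hF : Continuous fun x : ℝ × ℝ =>
      ‖avgShift x.1 g₀ x.2 - avgShift t₀ g₀ x.2‖ * Real.cosh x.2 := by
    have := hg₀.continuous
    simp only [avgShift]
    fun_prop
  have hlim := continuous_parametric_integral_of_continuous (μ := (volume : Measure ℝ))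
    (f := fun t s => ‖avgShift t g₀ s - avgShift t₀ g₀ s‖ * Real.cosh s) hF
    (isCompact_closedBall (0 : ℝ) (R₀ + |t₀| + 1))
  have h2 : Tendsto (fun t => C * ∫ s in Metric.closedBall (0 : ℝ) (R₀ + |t₀| + 1),
      ‖avgShift t g₀ s - avgShift t₀ g₀ s‖ * Real.cosh s) (𝓝 t₀) (𝓝 0) := by
    have := (hlim.const_mul C |>.tendsto' t₀ 0 (by simp))
    simpa using this
  refine h2.congr' ((Metric.ball_mem_nhds t₀ one_pos) |> Filter.eventually_of_mem <| fun t ht => ?_)
  congr 1
  refine setIntegral_eq_integral_of_forall_compl_eq_zero fun s hs => ?_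
  rw [Metric.mem_closedBall, dist_zero_right, Real.norm_eq_abs, not_le] at hs
  rw [Metric.mem_ball, Real.dist_eq] at ht
  have ht1 : |t| < |t₀| + 1 := by linarith [abs_sub_abs_le_abs_sub t t₀]
  simp [avgShift_eq_zero hR₀ (show R₀ + |t| < |s| by linarith),
    avgShift_eq_zero hR₀ (show R₀ + |t₀| < |s| by linarith)]

/-- A bounded character grows along the averaged shifts at most like `cosh`. -/
theorem norm_char_avgShift_le {C : ℝ} (hC0 : 0 ≤ C)
    (hC : ∀ g, IsSphTest g → ‖χ g‖ ≤ C * ∫ s, ‖g s‖ * Real.cosh s) {g₀ : ℝ → ℂ}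
    (hg₀ : IsSphTest g₀) (t : ℝ) :
    ‖χ (avgShift t g₀)‖ ≤ C * (2 * ∫ s, ‖g₀ s‖ * Real.cosh s) * Real.cosh t := by
  refine (hC _ (hg₀.avgShift t)).trans ?_
  have i0 : ∀ w : ℝ, Integrable fun s => ‖g₀ (s + w)‖ * Real.cosh s := fun w =>
    ((hg₀.continuous.comp (continuous_add_const w)).norm.mul
      Real.continuous_cosh).integrable_of_hasCompactSupport
      (hg₀.compact.comp_homeomorph (Homeomorph.addRight w)).norm.mul_right
  have ib : ∀ w : ℝ, |w| ≤ |t| → ∫ s, ‖g₀ (s + w)‖ * Real.cosh s ≤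
      2 * Real.cosh t * ∫ s, ‖g₀ s‖ * Real.cosh s := by
    intro w hw
    rw [← integral_sub_right_eq_self _ w, ← integral_const_mul]
    simp only [sub_add_cancel]
    refine integral_mono ?_ ?_ fun s => ?_
    · exact ((i0 w).comp_sub_right w).congr (Filter.Eventually.of_forall fun s => by simp)
    · exact ((hg₀.continuous.norm.mul Real.continuous_cosh).integrable_of_hasCompactSupport
        hg₀.compact.norm.mul_right).const_mul _
    · have h1 : Real.cosh (s - w) ≤ 2 * Real.cosh t * Real.cosh s := by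
        have h2 : Real.cosh w ≤ Real.cosh t := Real.cosh_le_cosh.mpr hw
        have hsc : ∀ u : ℝ, |Real.sinh u| ≤ Real.cosh u := fun u => abs_le.mpr
          ⟨by linarith [Real.sinh_add_cosh u, Real.exp_pos u], (Real.sinh_lt_cosh u).le⟩
        have h3 : |Real.sinh s * Real.sinh w| ≤ Real.cosh s * Real.cosh w := by
          rw [abs_mul]
          exact mul_le_mul (hsc s) (hsc w) (abs_nonneg _) (Real.cosh_pos s).le
        rw [Real.cosh_sub]
        nlinarith [(abs_le.mp h3).1, Real.cosh_pos s, Real.cosh_pos w]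
      calc ‖g₀ s‖ * Real.cosh (s - w) ≤ ‖g₀ s‖ * (2 * Real.cosh t * Real.cosh s) := by gcongr
        _ = _ := by ring
  calc C * ∫ s, ‖avgShift t g₀ s‖ * Real.cosh s
      ≤ C * ((∫ s, ‖g₀ (s + t)‖ * Real.cosh s) / 2 + (∫ s, ‖g₀ (s - t)‖ * Real.cosh s) / 2) := by
        refine mul_le_mul_of_nonneg_left ?_ (hC0)
        have i2 := i0 (-t)
        simp only [← sub_eq_add_neg] at i2
        rw [← integral_div, ← integral_div, ← integral_add ((i0 t).div_const 2) (i2.div_const 2)]
        refine integral_mono (((hg₀.avgShift t).continuous.norm.mul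
          Real.continuous_cosh).integrable_of_hasCompactSupport
          (hg₀.avgShift t).compact.norm.mul_right) (((i0 t).div_const 2).add (i2.div_const 2))
          fun s => ?_
        simp only [avgShift, norm_div, Complex.norm_two]
        have := norm_add_le (g₀ (s + t)) (g₀ (s - t))
        have := Real.cosh_pos s
        nlinarith
    _ ≤ C * (2 * ∫ s, ‖g₀ s‖ * Real.cosh s) * Real.cosh t := by
        have h1 := ib t le_rfl
        have h2 := ib (-t) (abs_neg t).le
        simp only [← sub_eq_add_neg] at h2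
        have : 0 ≤ C := hC0
        nlinarith

/-- A parameter whose hyperbolic cosine grows at most like `cosh` is spherical. -/
theorem isSphParam_of_norm_cosh_le {l : ℂ} (hl : l.im = 0 ∨ l.re = 0) {B : ℝ}
    (hB : ∀ t : ℝ, ‖Complex.cosh (l * t)‖ ≤ B * Real.cosh t) : IsSphParam l := by
  rcases hl with hl | hl
  · refine Or.inl ⟨hl, ?_⟩
    by_contra hgt
    push Not at hgt
    set d := |l.re| - 1
    have hd : 0 < d := by simp only [d]; linarith
    set t := (2 * |B| + 1) / d with ht
    have ht0 : 0 ≤ t := by positivity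
    have h1 := hB t
    have e : l = (l.re : ℂ) := Complex.ext rfl (by simp [hl])
    rw [e, ← Complex.ofReal_mul, ← Complex.ofReal_cosh, Complex.norm_real, Real.norm_eq_abs,
      abs_of_pos (Real.cosh_pos _), ← Real.cosh_abs, abs_mul, abs_of_nonneg ht0,
      Real.cosh_eq, Real.cosh_eq t] at h1
    have h2 : Real.exp (-t) ≤ Real.exp t := Real.exp_le_exp.mpr (by linarith)
    have h3 : Real.exp (|l.re| * t) = Real.exp (d * t) * Real.exp t := by
      rw [← Real.exp_add]; simp only [d]; ring_nf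
    have h4 : d * t + 1 ≤ Real.exp (d * t) := Real.add_one_le_exp _
    have h5 : d * t = 2 * |B| + 1 := by rw [ht]; field_simp
    have h6 : B * ((Real.exp t + Real.exp (-t)) / 2) ≤ |B| * Real.exp t :=
      mul_le_mul (le_abs_self B) (by linarith) (by positivity) (abs_nonneg B)
    nlinarith [Real.exp_pos t, Real.exp_pos (-(|l.re| * t)), abs_nonneg B]
  · exact Or.inr hl

include hadd hsmul in
/-- A character with eigenvalue `cosh (l t)` along the averaged shifts of `g₀`, by Riemann sums. -/
theorem char_convR_eq {C : ℝ} (hC0 : 0 ≤ C)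
    (hC : ∀ g, IsSphTest g → ‖χ g‖ ≤ C * ∫ s, ‖g s‖ * Real.cosh s) {g₀ : ℝ → ℂ}
    (hg₀ : IsSphTest g₀) {l : ℂ}
    (hψ : ∀ t : ℝ, χ (avgShift t g₀) = Complex.cosh (l * t) * χ g₀) {g : ℝ → ℂ}
    (hg : IsSphTest g) : χ (convR g g₀) = coshTransform g l * χ g₀ := by
  obtain ⟨R₀, hR₀⟩ := hg₀.compact.isCompact.isBounded.subset_closedBall 0
  obtain ⟨R₁, hR₁⟩ := hg.compact.isCompact.isBounded.subset_closedBall 0
  set R := max R₁ 0 + 1
  have hR : 0 ≤ R := by positivity
  have hgR : ∀ t, R ≤ |t| → g t = 0 := fun t ht => image_eq_zero_of_notMem_tsupport fun hm => by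
    have := hR₁ hm
    rw [mem_closedBall_zero_iff, Real.norm_eq_abs] at this
    have : R₁ < R := lt_of_le_of_lt (le_max_left R₁ 0) (lt_add_one _)
    linarith
  have hsupp : ∀ {f : ℝ → ℂ}, (∀ t, R ≤ |t| → f t = 0) → ∫ t in -R..R, f t = ∫ t, f t := by
    intro f hf
    rw [intervalIntegral.integral_of_le (by linarith)]
    refine setIntegral_eq_integral_of_forall_compl_eq_zero fun t ht => hf t ?_
    by_contra hh
    rw [not_le, abs_lt] at hh
    exact ht ⟨hh.1, hh.2.le⟩
  set G : ℝ → ℝ → ℂ := fun x t => g t * avgShift t g₀ x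
  have hGc : Continuous (Function.uncurry G) := by
    have := hg₀.continuous
    have := hg.continuous
    simp only [G, avgShift]
    fun_prop
  set R₂ := max R₀ 0 + R
  have hR2 : ∀ x t, R₂ < |x| → G x t = 0 := by
    intro x t hx
    simp only [G]
    by_cases hgt : g t = 0
    · simp [hgt]
    have ht : |t| < R := not_le.mp fun h => hgt (hgR t h)
    have : R₀ + |t| < |x| := by simp only [R₂] at hx; linarith [le_max_left R₀ 0]
    simp [avgShift_eq_zero hR₀ this]
  have hGs : HasCompactSupport (Function.uncurry G) := by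
    refine HasCompactSupport.intro ((isCompact_Icc (a := -R₂) (b := R₂)).prod
      (isCompact_Icc (a := -R) (b := R))) fun x hx => ?_
    rw [Set.mem_prod, not_and_or, Set.mem_Icc, Set.mem_Icc, ← abs_le, ← abs_le, not_le,
      not_le] at hx
    rcases hx with hx | hx
    · exact hR2 _ _ hx
    · simp [Function.uncurry, G, hgR _ hx.le]
  have hGu := hGs.uniformContinuous_of_continuous hGc
  have hconv : ∀ x, convR g g₀ x = ∫ t in -R..R, G x t := by
    intro x
    rw [hsupp fun t ht => by simp [G, hgR t ht]]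
    exact convR_eq_integral_avgShift hg hg₀ x
  set a : ℕ → ℕ → ℝ := fun n i => -R + i * (2 * R / n)
  set S : ℕ → ℝ → ℂ := fun n x => ∑ i ∈ Finset.range n, ((2 * R / n : ℝ) : ℂ) * G x (a n i)
  have hterm : ∀ n i : ℕ, IsSphTest fun x => ((2 * R / n : ℝ) : ℂ) * G x (a n i) := fun n i =>
    ((hg₀.avgShift (a n i)).smul (g (a n i))).smul _
  have hSv : ∀ n, IsSphTest (S n) ∧ χ (S n) =
      (∑ i ∈ Finset.range n,
        ((2 * R / n : ℝ) : ℂ) * (g (a n i) * Complex.cosh (l * a n i))) * χ g₀ := by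
    intro n
    obtain ⟨h1, h2⟩ := char_sum hadd hsmul (Finset.range n)
      (fun i x => ((2 * R / n : ℝ) : ℂ) * G x (a n i)) (hterm n)
    refine ⟨h1, ?_⟩
    rw [h2, Finset.sum_mul]
    refine Finset.sum_congr rfl fun i _ => ?_
    simp only [G]
    rw [hsmul _ _ ((hg₀.avgShift _).smul _), hsmul _ _ (hg₀.avgShift _), hψ]
    ring
  set fl : ℝ → ℂ := fun t => g t * Complex.cosh (l * t)
  have hflc : Continuous fl := by
    have := hg.continuous
    fun_prop
  have hflu : UniformContinuous fl :=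
    hg.compact.mul_right.uniformContinuous_of_continuous hflc
  have hfl : coshTransform g l = ∫ t in -R..R, fl t := by
    rw [hsupp fun t ht => by simp [fl, hgR t ht]]
    rfl
  refine eq_of_forall_dist_le fun ε hε => ?_
  set R3 := ∫ x in -R₂..R₂, Real.cosh x
  have hR3 : 0 ≤ R3 := intervalIntegral.integral_nonneg
    (by have := le_max_right R₀ 0; simp only [R₂]; linarith) fun x _ => (Real.cosh_pos x).le
  set K := C * (2 * R * R3) + 2 * R * ‖χ g₀‖ + 1
  have hK : 0 < K := by
    have : 0 ≤ C := hC0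
    positivity
  obtain ⟨δ₁, hδ₁, hmod₁⟩ := Metric.uniformContinuous_iff.mp hGu (ε / K) (by positivity)
  obtain ⟨δ₂, hδ₂, hmod₂⟩ := Metric.uniformContinuous_iff.mp hflu (ε / K) (by positivity)
  obtain ⟨n, hn⟩ := exists_nat_gt (2 * R / min δ₁ δ₂)
  have hn0 : 0 < n := by
    have : (0 : ℝ) < n := lt_of_le_of_lt (by positivity) hn
    exact_mod_cast this
  have hmesh : 2 * R / n < min δ₁ δ₂ := by
    rw [div_lt_iff₀ (by exact_mod_cast hn0)]
    rw [div_lt_iff₀ (lt_min hδ₁ hδ₂)] at hn
    linarith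
  have e1 : ∀ x, ‖convR g g₀ x - S n x‖ ≤ 2 * R * (ε / K) := fun x => by
    rw [hconv x]
    refine norm_integral_sub_riemann_le (F := G x)
      (hGc.comp (continuous_const.prodMk continuous_id))
      hR hn0 fun t t' htt => ?_
    rw [← dist_eq_norm]
    refine (hmod₁ (a := (x, t)) (b := (x, t')) ?_).le
    rw [Prod.dist_eq, dist_self, max_eq_right dist_nonneg, Real.dist_eq]
    exact lt_of_le_of_lt htt (hmesh.trans_le (min_le_left _ _))
  have e2 := norm_integral_sub_riemann_le hflc hR hn0 (ε := ε / K) fun t t' htt => by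
    rw [← dist_eq_norm]
    refine (hmod₂ ?_).le
    rw [Real.dist_eq]
    exact lt_of_le_of_lt htt (hmesh.trans_le (min_le_right _ _))
  have e3 : ‖χ (convR g g₀) - χ (S n)‖ ≤ C * (2 * R * (ε / K) * R3) := by
    rw [← char_sub hadd hsmul (hg.conv hg₀) (hSv n).1]
    refine (hC _ ((hg.conv hg₀).sub (hSv n).1)).trans
      (mul_le_mul_of_nonneg_left ?_ (hC0))
    have hz : ∀ x, R₂ < |x| → convR g g₀ x - S n x = 0 := fun x hx => by
      rw [hconv]
      simp [S, hR2 _ _ hx]
    have hR2' : -R₂ ≤ R₂ := by have := le_max_right R₀ 0; simp only [R₂]; linarith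
    have hcd : Continuous fun x => ‖convR g g₀ x - S n x‖ * Real.cosh x :=
      ((hg.conv hg₀).sub (hSv n).1).continuous.norm.mul Real.continuous_cosh
    have e : ∫ x, ‖convR g g₀ x - S n x‖ * Real.cosh x =
        ∫ x in -R₂..R₂, ‖convR g g₀ x - S n x‖ * Real.cosh x := by
      rw [intervalIntegral.integral_of_le hR2', ← integral_Icc_eq_integral_Ioc]
      refine (setIntegral_eq_integral_of_forall_compl_eq_zero fun x hx => ?_).symm
      rw [Set.mem_Icc, ← abs_le, not_le] at hx
      simp [hz x hx]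
    rw [e, ← intervalIntegral.integral_const_mul]
    refine intervalIntegral.integral_mono_on hR2' (hcd.intervalIntegrable _ _)
      ((Real.continuous_cosh.const_mul _).intervalIntegrable _ _) fun x _ => ?_
    exact mul_le_mul_of_nonneg_right (e1 x) (Real.cosh_pos x).le
  rw [dist_eq_norm]
  have e4 : χ (S n) = (∑ i ∈ Finset.range n, ((2 * R / n : ℝ) : ℂ) * fl (a n i)) * χ g₀ := by
    rw [(hSv n).2]
  calc ‖χ (convR g g₀) - coshTransform g l * χ g₀‖
      ≤ ‖χ (convR g g₀) - χ (S n)‖ + ‖χ (S n) - coshTransform g l * χ g₀‖ :=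
        norm_sub_le_norm_sub_add_norm_sub _ _ _
    _ ≤ C * (2 * R * (ε / K) * R3) + 2 * R * (ε / K) * ‖χ g₀‖ := by
        refine add_le_add e3 ?_
        rw [e4, hfl, ← sub_mul, norm_mul, norm_sub_rev]
        exact mul_le_mul_of_nonneg_right e2 (norm_nonneg _)
    _ = ε / K * (K - 1) := by simp only [K]; ring
    _ ≤ ε := by
        rw [div_mul_eq_mul_div, div_le_iff₀ hK]
        nlinarith

include hadd hsmul in
/-- The classification of bounded self-adjoint characters. -/
theorem exists_sphParam_of_char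
    (hmul : ∀ g h, IsSphTest g → IsSphTest h → χ (convR g h) = χ g * χ h)
    (hconj : ∀ g, IsSphTest g → χ (fun s => conj (g s)) = conj (χ g))
    (hne : ∃ g, IsSphTest g ∧ χ g ≠ 0)
    (hbound : ∃ C : ℝ, ∀ g, IsSphTest g → ‖χ g‖ ≤ C * ∫ s, ‖g s‖ * Real.cosh s) :
    ∃ l : ℂ, IsSphParam l ∧ ∀ g, IsSphTest g → χ g = coshTransform g l := by
  obtain ⟨C₀, hC₀⟩ := hbound
  set C := max C₀ 0
  have hC : ∀ g, IsSphTest g → ‖χ g‖ ≤ C * ∫ s, ‖g s‖ * Real.cosh s := fun g hg =>
    (hC₀ g hg).trans (mul_le_mul_of_nonneg_right (le_max_left _ _)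
      (integral_nonneg fun s => mul_nonneg (norm_nonneg _) (Real.cosh_pos s).le))
  obtain ⟨g₀, hg₀, hχ₀⟩ := hne
  have hswap : ∀ g, IsSphTest g → ∀ t, χ (avgShift t g) * χ g₀ = χ g * χ (avgShift t g₀) :=
    fun g hg t => by
      rw [← hmul _ _ (hg.avgShift t) hg₀, ← hmul _ _ hg (hg₀.avgShift t),
        convR_avgShift_left hg hg₀]
  set ψc : ℝ → ℂ := fun t => χ (avgShift t g₀) / χ g₀ with hψc
  have hψ : ∀ g, IsSphTest g → ∀ t, χ (avgShift t g) = ψc t * χ g := fun g hg t => by
    simp only [ψc]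
    field_simp
    linear_combination hswap g hg t
  have hreal : ∀ t, conj (ψc t) = ψc t := by
    intro t
    have h1 := hψ _ hg₀.conj t
    have e : avgShift t (fun s => conj (g₀ s)) = fun s => conj (avgShift t g₀ s) := by
      funext s; simp [avgShift, Complex.conj_ofNat]
    rw [e, hconj _ (hg₀.avgShift t), hconj _ hg₀, hψ g₀ hg₀ t, map_mul] at h1
    exact mul_right_cancel₀ (by simpa using hχ₀) h1
  set ψ : ℝ → ℝ := fun t => (ψc t).re
  have hψr : ∀ t, (ψ t : ℂ) = ψc t := fun t => (Complex.conj_eq_iff_re.mp (hreal t))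
  have h0 : ψ 0 = 1 := by
    have : avgShift 0 g₀ = g₀ := by funext s; simp [avgShift]
    simp [ψ, ψc, this, hχ₀]
  have heq : ∀ s t, ψ (s + t) + ψ (s - t) = 2 * ψ s * ψ t := by
    intro s t
    have h1 := hψ _ (hg₀.avgShift t) s
    rw [avgShift_avgShift, hadd _ _ ((hg₀.avgShift _).smul _) ((hg₀.avgShift _).smul _),
      hsmul _ _ (hg₀.avgShift _), hsmul _ _ (hg₀.avgShift _), hψ g₀ hg₀, hψ g₀ hg₀,
      hψ g₀ hg₀, ← hψr, ← hψr, ← hψr, ← hψr] at h1
    have h2 : (((1 : ℝ) / 2 * ψ (s + t) + 1 / 2 * ψ (s - t) : ℝ) : ℂ) = ((ψ s * ψ t : ℝ) : ℂ) := by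
      apply mul_right_cancel₀ hχ₀
      push_cast
      linear_combination h1
    have h3 := Complex.ofReal_injective h2
    linarith
  have hcont : Continuous ψ := Complex.continuous_re.comp
    ((continuous_char_avgShift hadd hsmul hC hg₀).div_const _)
  obtain ⟨l, hl, hcosh⟩ := exists_param_of_dAlembert hcont h0 heq
  have hl' : ∀ t : ℝ, χ (avgShift t g₀) = Complex.cosh (l * t) * χ g₀ := fun t => by
    rw [← hcosh, hψr, hψ g₀ hg₀]
  have hparam : IsSphParam l :=
    isSphParam_of_norm_cosh_le hl (B := C * (2 * ∫ s, ‖g₀ s‖ * Real.cosh s) / ‖χ g₀‖) fun t => by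
      rw [div_mul_eq_mul_div, le_div_iff₀ (norm_pos_iff.mpr hχ₀), ← norm_mul, ← hl']
      exact norm_char_avgShift_le (le_max_right _ _) hC hg₀ t
  refine ⟨l, hparam, fun g hg => mul_right_cancel₀ hχ₀ ?_⟩
  rw [← hmul g g₀ hg hg₀]
  exact char_convR_eq hadd hsmul (le_max_right _ _) hC hg₀ hl' hg

end Main

end Fermat.Agent.ResidualThree

end
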